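/-
helper68 (P-ES / ES-D-A1): the fundamental identity `∑ ord_v(y) = [F : K(y)]` over the zeros
of `y` for a SEPARATING element `y` of a function field over an algebraically closed field of
arbitrary characteristic.  The proof is helper84's (`Fermat.Agent.H84.FundIdentity`), with the
characteristic-zero hypothesis replaced by separability of `F / K(y)`.
-/
import Mathlib
import Fermat.Agent.H84.FundIdentity

set_option autoImplicit false
set_option linter.deprecated false
set_option linter.style.haveILetI false

namespace Fermat.Agent.H68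

open AlgebraicCurve IntermediateField Polynomial IsDedekindDomain
open Fermat.Agent.H84
open scoped IntermediateField.algebraAdjoinAdjoin

variable {K F : Type} [Field K] [Field F] [Algebra K F]

section Base

variable (y : F)

theorem sepFI_isDedekindDomain_closure (hfin : FiniteDimensional K⟮y⟯ F)
    (hsep : Algebra.IsSeparable K⟮y⟯ F) :
    IsDedekindDomain (integralClosure (Algebra.adjoin K ({y} : Set F)) F) := by
  haveI := isDedekindDomain_adjoin (K := K) y
  exact integralClosure.isDedekindDomain (Algebra.adjoin K ({y} : Set F)) K⟮y⟯ F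

theorem sepFI_finite_closure (hfin : FiniteDimensional K⟮y⟯ F)
    (hsep : Algebra.IsSeparable K⟮y⟯ F) :
    Module.Finite (Algebra.adjoin K ({y} : Set F))
      (integralClosure (Algebra.adjoin K ({y} : Set F)) F) := by
  haveI := isDedekindDomain_adjoin (K := K) y
  exact IsIntegralClosure.finite (Algebra.adjoin K ({y} : Set F)) K⟮y⟯ F _

/-- The fundamental identity in Mathlib's form. -/
theorem sepFI_sum_ramification_inertia_closure (hy : Transcendental K y)
    (hfin : FiniteDimensional K⟮y⟯ F) (hsep : Algebra.IsSeparable K⟮y⟯ F) :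
    haveI := sepFI_isDedekindDomain_closure (K := K) y hfin hsep
    ∑ P ∈ IsDedekindDomain.primesOverFinset (idealA (K := K) y)
        (integralClosure (Algebra.adjoin K ({y} : Set F)) F),
      Ideal.ramificationIdx' (idealA (K := K) y) P * Ideal.inertiaDeg' (idealA (K := K) y) P
      = Module.finrank K⟮y⟯ F := by
  haveI := isDedekindDomain_adjoin (K := K) y
  haveI := sepFI_isDedekindDomain_closure (K := K) y hfin hsep
  haveI := sepFI_finite_closure (K := K) y hfin hsep
  haveI := isFractionRing_closure (K := K) y hfin
  haveI := idealA_isMaximal (K := K) y hy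
  exact Ideal.sum_ramification_inertia (integralClosure (Algebra.adjoin K ({y} : Set F)) F)
    K⟮y⟯ F (idealA_ne_bot y hy)

end Base

section Final

variable (y : F)

set_option synthInstance.maxHeartbeats 400000 in
/-- The zeros of a separating `y` are finite in number and their orders add up to
`[F : K(y)]`. -/
theorem sepFI_finite_zeros_and_sum_ord [IsAlgClosed K] (hy : Transcendental K y)
    (hfin : FiniteDimensional K⟮y⟯ F) (hsep : Algebra.IsSeparable K⟮y⟯ F) :
    {v : Place K F | 0 < v.ord y}.Finite ∧
      ∑ᶠ v ∈ {v : Place K F | 0 < v.ord y}, v.ord y = (Module.finrank K⟮y⟯ F : ℤ) := by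
  have hy0 : y ≠ 0 := fun h => hy (h ▸ isAlgebraic_zero)
  haveI := isDedekindDomain_adjoin (K := K) y
  haveI := sepFI_isDedekindDomain_closure (K := K) y hfin hsep
  haveI := isFractionRing_closure (K := K) y hfin
  haveI : (idealA (K := K) y).IsMaximal := idealA_isMaximal y hy
  have hp0 := idealA_ne_bot (K := K) y hy
  -- membership in the finset of primes over `(y)`
  have hmem : ∀ P : Ideal (integralClosure (Algebra.adjoin K ({y} : Set F)) F),
      P ∈ IsDedekindDomain.primesOverFinset (idealA (K := K) y)
        (integralClosure (Algebra.adjoin K ({y} : Set F)) F) ↔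
      P.IsPrime ∧ P.LiesOver (idealA (K := K) y) := fun P =>
    IsDedekindDomain.mem_primesOverFinset_iff hp0 _
  have hne : ∀ P : Ideal (integralClosure (Algebra.adjoin K ({y} : Set F)) F),
      P ∈ IsDedekindDomain.primesOverFinset (idealA (K := K) y)
        (integralClosure (Algebra.adjoin K ({y} : Set F)) F) → P ≠ ⊥ := fun P hP => by
    haveI := ((hmem P).mp hP).2
    exact Ideal.ne_bot_of_liesOver_of_ne_bot hp0 P
  -- the map from primes to places
  let toW : ∀ P : Ideal (integralClosure (Algebra.adjoin K ({y} : Set F)) F),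
      P ∈ IsDedekindDomain.primesOverFinset (idealA (K := K) y)
        (integralClosure (Algebra.adjoin K ({y} : Set F)) F) →
      HeightOneSpectrum (integralClosure (Algebra.adjoin K ({y} : Set F)) F) :=
    fun P hP => ⟨P, ((hmem P).mp hP).1, hne P hP⟩
  have hgen : ∀ P hP, genB (K := K) y ∈ (toW P hP).asIdeal := fun P hP => by
    haveI := ((hmem P).mp hP).1
    exact (liesOver_iff_genB_mem y hy P).mp ((hmem P).mp hP).2
  have hsurj : ∀ v : Place K F, 0 < v.ord y → ∃ P, ∃ hP,
      Place.ofHeightOneSpectrum (K := K) (F := F) (toW P hP) = v := by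
    intro v hv
    obtain ⟨w, hw, rfl⟩ := exists_heightOneSpectrum_of_ord_pos y v hv
    have hP : w.asIdeal ∈ IsDedekindDomain.primesOverFinset (idealA (K := K) y)
        (integralClosure (Algebra.adjoin K ({y} : Set F)) F) :=
      (hmem _).mpr ⟨w.isPrime, (liesOver_iff_genB_mem y hy w.asIdeal).mpr hw⟩
    exact ⟨w.asIdeal, hP, rfl⟩
  have hfinite : {v : Place K F | 0 < v.ord y}.Finite := by
    refine Set.Finite.subset (Set.finite_range
      (fun P : {P // P ∈ IsDedekindDomain.primesOverFinset (idealA (K := K) y)
        (integralClosure (Algebra.adjoin K ({y} : Set F)) F)} =>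
        Place.ofHeightOneSpectrum (K := K) (F := F) (toW P.1 P.2))) ?_
    intro v hv
    obtain ⟨P, hP, h⟩ := hsurj v hv
    exact ⟨⟨P, hP⟩, h⟩
  refine ⟨hfinite, ?_⟩
  rw [finsum_mem_eq_finite_toFinset_sum _ hfinite,
    ← sepFI_sum_ramification_inertia_closure (K := K) y hy hfin hsep, Nat.cast_sum]
  symm
  refine Finset.sum_bij
    (fun P hP => Place.ofHeightOneSpectrum (K := K) (F := F) (toW P hP)) ?_ ?_ ?_ ?_
  · intro P hP
    rw [Set.Finite.mem_toFinset, Set.mem_setOf_eq]
    exact (ord_pos_iff_genB_mem y hy0 (toW P hP)).mpr (hgen P hP)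
  · intro P hP Q hQ h
    have := ofHeightOneSpectrum_injective (K := K) (F := F) h
    exact congrArg HeightOneSpectrum.asIdeal this
  · intro v hv
    rw [Set.Finite.mem_toFinset, Set.mem_setOf_eq] at hv
    exact hsurj v hv
  · intro P hP
    have h1 := ord_eq_ramificationIdx y hy (toW P hP) (hgen P hP)
    have h2 := inertiaDeg_eq_one y hy hfin (toW P hP) (hgen P hP)
    rw [h1]
    have h3 : Ideal.inertiaDeg' (idealA (K := K) y) P = 1 := h2
    rw [h3, mul_one]

end Final

end Fermat.Agent.H68
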