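/-
helper68 (P-ES / ES-D-A1): `Fermat.Agent.H58.PrincipalInputStatement` (principal divisors have
finite support and degree zero, and the pole divisor of a separating element `x` has degree
at most `[F : K(x)]`) in arbitrary characteristic, reduced to the separability criterion
"`z ∉ F^p` implies `F / K(z)` separable" (`SepCriterionStatement`).
-/
import Fermat.Agent.H68.SepFundIdentity
import Fermat.Agent.H58.RR.ESD

set_option autoImplicit false
set_option linter.style.haveILetI false
set_option linter.unusedVariables false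
set_option linter.unusedSectionVars false

noncomputable section

open AlgebraicCurve IntermediateField

namespace Fermat.Agent.H68

/-- The separability criterion: in characteristic `p`, an element which is not a `p`-th power
is a separating element. -/
def SepCriterionStatement : Prop :=
  ∀ (K F : Type) [Field K] [Field F] [Algebra K F] [IsAlgClosed K] (p : ℕ) [Fact p.Prime]
    [CharP K p] (x : F), Transcendental K x → FiniteDimensional K⟮x⟯ F →
    Algebra.IsSeparable K⟮x⟯ F → ∀ z : F, (∀ u : F, u ^ p ≠ z) → Algebra.IsSeparable K⟮z⟯ F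

variable {K F : Type} [Field K] [Field F] [Algebra K F]

/-- `y` is a separating element of `F / K`. -/
structure IsSepElt (K : Type) {F : Type} [Field K] [Field F] [Algebra K F] (y : F) : Prop where
  transcendental : Transcendental K y
  finite : FiniteDimensional K⟮y⟯ F
  separable : Algebra.IsSeparable K⟮y⟯ F

theorem IsSepElt.of_adjoin_eq {y y' : F} (h : IsSepElt K y) (hy' : Transcendental K y')
    (he : K⟮y'⟯ = K⟮y⟯) : IsSepElt K y' := by
  refine ⟨hy', ?_, ?_⟩
  · rw [he]; exact h.finite
  · rw [he]; exact h.separable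

theorem IsSepElt.inv {y : F} (h : IsSepElt K y) : IsSepElt K y⁻¹ := by
  refine h.of_adjoin_eq ?_ (Fermat.Agent.H12.adjoin_simple_inv y)
  intro hh
  apply h.transcendental
  have := hh.inv
  rwa [inv_inv] at this

/-- The divisor of `f` exists (finite support) and has degree zero. -/
def GoodDiv (K : Type) {F : Type} [Field K] [Field F] [Algebra K F] (f : F) : Prop :=
  ∃ D : Divisor K F, (∀ v : Place K F, D v = v.ord f) ∧ Divisor.degree D = 0

theorem goodDiv_const (c : K) : GoodDiv K (algebraMap K F c) :=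
  ⟨0, fun v => by rw [Fermat.Agent.H23.ord_algebraMap]; rfl, map_zero _⟩

theorem GoodDiv.mul {f g : F} (hf : GoodDiv K f) (hg : GoodDiv K g) (hf0 : f ≠ 0)
    (hg0 : g ≠ 0) : GoodDiv K (f * g) := by
  obtain ⟨D, hD, hDdeg⟩ := hf
  obtain ⟨E, hE, hEdeg⟩ := hg
  refine ⟨D + E, fun v => ?_, by rw [map_add, hDdeg, hEdeg, add_zero]⟩
  rw [Finsupp.add_apply, hD, hE]
  exact (v.ord_mul hf0 hg0).symm

theorem GoodDiv.inv {f : F} (hf : GoodDiv K f) : GoodDiv K f⁻¹ := by
  obtain ⟨D, hD, hDdeg⟩ := hf
  refine ⟨-D, fun v => ?_, by rw [map_neg, hDdeg, neg_zero]⟩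
  rw [Finsupp.neg_apply, hD, Place.ord_inv]

section Sep

variable [IsAlgClosed K]

theorem IsSepElt.deg_one {y : F} (h : IsSepElt K y) (v : Place K F) : v.deg = 1 :=
  Fermat.Agent.H84.place_deg_eq_one y h.finite v

theorem IsSepElt.zeros {y : F} (h : IsSepElt K y) :
    {v : Place K F | 0 < v.ord y}.Finite ∧
      ∑ᶠ v ∈ {v : Place K F | 0 < v.ord y}, v.ord y = (Module.finrank K⟮y⟯ F : ℤ) :=
  sepFI_finite_zeros_and_sum_ord y h.transcendental h.finite h.separable

theorem IsSepElt.finite_support {y : F} (h : IsSepElt K y) :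
    {v : Place K F | v.ord y ≠ 0}.Finite := by
  refine (h.zeros.1.union h.inv.zeros.1).subset fun v hv => ?_
  simp only [Set.mem_ofPred_eq, Set.mem_union, Place.ord_inv] at hv ⊢
  omega

/-- The divisor of a separating element has degree zero. -/
theorem IsSepElt.goodDiv {y : F} (h : IsSepElt K y) : GoodDiv K y := by
  classical
  let D : Divisor K F := Finsupp.ofSupportFinite (fun v => v.ord y) h.finite_support
  have hD : ∀ v : Place K F, D v = v.ord y := fun v => rfl
  refine ⟨D, hD, ?_⟩
  obtain ⟨hfinP, hsumP⟩ := h.zeros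
  obtain ⟨hfinN, hsumN⟩ := h.inv.zeros
  have hrank : Module.finrank K⟮y⁻¹⟯ F = Module.finrank K⟮y⟯ F := by
    rw [Fermat.Agent.H12.adjoin_simple_inv]
  rw [hrank] at hsumN
  rw [Fermat.Agent.H12.degree_eq_sum_of_deg_eq_one h.deg_one]
  have hpos : {v : Place K F | 0 < v.ord y} = ↑(D.support.filter fun v => 0 < D v) := by
    ext v
    simp only [Set.mem_ofPred_eq, Finset.coe_filter, Finsupp.mem_support_iff, hD v]
    constructor
    · intro h; exact ⟨by omega, h⟩
    · intro h; exact h.2
  have hneg : {v : Place K F | 0 < v.ord y⁻¹} = ↑(D.support.filter fun v => D v < 0) := by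
    ext v
    simp only [Set.mem_ofPred_eq, Finset.coe_filter, Finsupp.mem_support_iff, hD v,
      Place.ord_inv]
    constructor
    · intro h; exact ⟨by omega, by omega⟩
    · intro h; omega
  rw [hpos, finsum_mem_coe_finset] at hsumP
  rw [hneg, finsum_mem_coe_finset] at hsumN
  have hsplit : ∑ v ∈ D.support, D v =
      ∑ v ∈ D.support.filter (fun v => 0 < D v), D v +
        ∑ v ∈ D.support.filter (fun v => D v < 0), D v := by
    rw [← Finset.sum_filter_add_sum_filter_not D.support (fun v => 0 < D v)]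
    congr 1
    refine Finset.sum_congr ?_ fun _ _ => rfl
    ext v
    simp only [Finset.mem_filter, Finsupp.mem_support_iff, not_lt]
    constructor
    · rintro ⟨h1, h2⟩; exact ⟨h1, by omega⟩
    · rintro ⟨h1, h2⟩; exact ⟨h1, by omega⟩
  rw [hsplit]
  have e1 : ∑ v ∈ D.support.filter (fun v => 0 < D v), D v = (Module.finrank K⟮y⟯ F : ℤ) := by
    rw [← hsumP]
    exact Finset.sum_congr rfl fun v _ => hD v
  have e2 : ∑ v ∈ D.support.filter (fun v => D v < 0), D v
      = -(Module.finrank K⟮y⟯ F : ℤ) := by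
    rw [← hsumN, ← Finset.sum_neg_distrib]
    refine Finset.sum_congr rfl fun v _ => ?_
    rw [Place.ord_inv, neg_neg, hD v]
  rw [e1, e2]
  ring

/-- The pole divisor of a separating element. -/
theorem IsSepElt.exists_pole_divisor {x : F} (h : IsSepElt K x) :
    ∃ B : Divisor K F, 0 ≤ B ∧ (∀ v : Place K F, -B v ≤ v.ord x) ∧
      Divisor.degree B ≤ (Module.finrank K⟮x⟯ F : ℤ) ∧ 0 < Divisor.degree B := by
  classical
  haveI := h.finite
  obtain ⟨hfinset, hsum⟩ := h.inv.zeros
  have hdeg := h.deg_one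
  let B : Divisor K F := Finsupp.ofSupportFinite (fun v => max 0 (-(v.ord x))) (by
    refine hfinset.subset fun v hv => ?_
    rw [Function.mem_support] at hv
    rw [Set.mem_ofPred_eq, Place.ord_inv]
    by_contra hcon
    exact hv (max_eq_left (by omega)))
  have hB : ∀ v : Place K F, B v = max 0 (-(v.ord x)) := fun v => rfl
  have hB0 : 0 ≤ B := by
    rw [Finsupp.le_def]
    intro v
    rw [hB]
    exact le_max_left _ _
  have hBx : ∀ v : Place K F, -B v ≤ v.ord x := by
    intro v
    rw [hB]
    have := le_max_right 0 (-(v.ord x))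
    omega
  have hBdeg : Divisor.degree B = (Module.finrank K⟮x⟯ F : ℤ) := by
    rw [Fermat.Agent.H12.adjoin_simple_inv] at hsum
    rw [← hsum, Fermat.Agent.H58.rr_degree_eq_sum_of_deg_one hdeg, Finsupp.sum]
    have hsupp : (B.support : Set (Place K F)) = {v : Place K F | 0 < v.ord x⁻¹} := by
      ext v
      rw [Finset.mem_coe, Finsupp.mem_support_iff, hB, Set.mem_ofPred_eq, Place.ord_inv]
      constructor
      · intro h
        by_contra hcon
        exact h (max_eq_left (by omega))
      · intro h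
        have := le_max_right 0 (-(v.ord x))
        omega
    rw [← hsupp, finsum_mem_coe_finset]
    refine Finset.sum_congr rfl fun v hv => ?_
    have hv' : v ∈ {v : Place K F | 0 < v.ord x⁻¹} := by
      rw [← hsupp]; exact hv
    rw [Set.mem_ofPred_eq, Place.ord_inv] at hv'
    rw [hB, Place.ord_inv]
    exact max_eq_right (by omega)
  have hpos : 0 < Module.finrank K⟮x⟯ F := Module.finrank_pos
  exact ⟨B, hB0, hBx, hBdeg.le, by rw [hBdeg]; exact_mod_cast hpos⟩

/-- A separating element is not a `p`-th power. -/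
theorem IsSepElt.not_pow {x : F} (h : IsSepElt K x) (p : ℕ) [Fact p.Prime] [CharP K p]
    (u : F) : u ^ p ≠ x := by
  intro hux
  haveI := h.finite
  haveI := h.separable
  have hp : p.Prime := Fact.out
  haveI : ExpChar K p := ExpChar.prime hp
  haveI : ExpChar K⟮x⟯ p := expChar_of_injective_algebraMap (algebraMap K K⟮x⟯).injective p
  -- `u ∈ K(x)`
  have hu_mem : u ∈ K⟮x⟯ := by
    have hsep : IsSeparable K⟮x⟯ u := Algebra.IsSeparable.isSeparable K⟮x⟯ u
    haveI : Algebra.IsSeparable K⟮x⟯ (K⟮x⟯)⟮u⟯ :=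
      (isSeparable_adjoin_simple_iff_isSeparable K⟮x⟯ F).2 hsep
    haveI : IsPurelyInseparable K⟮x⟯ (K⟮x⟯)⟮u⟯ :=
      (isPurelyInseparable_adjoin_simple_iff_pow_mem K⟮x⟯ F p).2
        ⟨1, ⟨⟨x, mem_adjoin_simple_self K x⟩, by rw [pow_one, hux]; rfl⟩⟩
    have hx' := mem_adjoin_simple_self K⟮x⟯ u
    rw [(K⟮x⟯)⟮u⟯.eq_bot_of_isPurelyInseparable_of_isSeparable, mem_bot] at hx'
    obtain ⟨w, rfl⟩ := hx'
    exact w.2
  have hKu : K⟮u⟯ = K⟮x⟯ := by
    refine le_antisymm (adjoin_simple_le_iff.2 hu_mem) (adjoin_simple_le_iff.2 ?_)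
    rw [← hux]
    exact pow_mem (mem_adjoin_simple_self K u) p
  have hut : Transcendental K u := by
    intro hu
    apply h.transcendental
    rw [← hux]
    exact hu.pow p
  have hu : IsSepElt K u := h.of_adjoin_eq hut hKu
  obtain ⟨hfx, hsx⟩ := h.zeros
  obtain ⟨hfu, hsu⟩ := hu.zeros
  have hord : ∀ v : Place K F, v.ord x = p * v.ord u := fun v => by
    rw [← hux, ← zpow_natCast, Place.ord_zpow]
  have hset : {v : Place K F | 0 < v.ord x} = {v : Place K F | 0 < v.ord u} := by
    ext v
    simp only [Set.mem_ofPred_eq, hord v]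
    have hp0 : (0 : ℤ) < p := by exact_mod_cast hp.pos
    constructor
    · intro hh
      by_contra hcon
      have : v.ord u ≤ 0 := not_lt.mp hcon
      nlinarith
    · intro hh; positivity
  rw [hset] at hsx
  have h1 : ∑ᶠ v ∈ {v : Place K F | 0 < v.ord u}, v.ord x
      = p * ∑ᶠ v ∈ {v : Place K F | 0 < v.ord u}, v.ord u := by
    rw [mul_finsum_mem]
    exact finsum_mem_congr rfl fun v _ => hord v
  rw [h1, hsu, hKu] at hsx
  have hpos : 0 < Module.finrank K⟮x⟯ F := Module.finrank_pos
  have hp2 : 2 ≤ p := hp.two_le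
  have hpos' : (0 : ℤ) < (Module.finrank K⟮x⟯ F : ℤ) := by exact_mod_cast hpos
  have hp2' : (2 : ℤ) ≤ (p : ℤ) := by exact_mod_cast hp2
  nlinarith

end Sep

/-- **ES-D-A1**: `PrincipalInputStatement` from the separability criterion. -/
theorem principalInput_of_sepCriterion (hA : SepCriterionStatement) :
    Fermat.Agent.H58.PrincipalInputStatement := by
  intro K F _ _ _ _ x hx hfin hsep
  have hxs : IsSepElt K x := ⟨hx, hfin, hsep⟩
  refine ⟨⟨fun f hf => ?_⟩, hxs.exists_pole_divisor⟩
  show GoodDiv K f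
  haveI := hfin
  by_cases hfa : IsAlgebraic K f
  · obtain ⟨c, rfl⟩ := Fermat.Agent.H12.exists_algebraMap_eq_of_isAlgebraic hfa
    exact goodDiv_const c
  have hft : Transcendental K f := hfa
  have hfinf : FiniteDimensional K⟮f⟯ F :=
    Fermat.Agent.H12.finiteDimensional_adjoin_simple_of_transcendental x f hft
  by_cases hfsep : Algebra.IsSeparable K⟮f⟯ F
  · exact (IsSepElt.mk hft hfinf hfsep).goodDiv
  -- the inseparable case: positive characteristic, `f` is a `p`-th power
  obtain ⟨p, hcp⟩ := CharP.exists K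
  rcases CharP.char_is_prime_or_zero K p with hp | hp0
  · haveI : Fact p.Prime := ⟨hp⟩
    have hpow : ∃ u : F, u ^ p = f := by
      by_contra hcon
      push Not at hcon
      exact hfsep (hA K F p x hx hfin hsep f hcon)
    obtain ⟨u, hu⟩ := hpow
    have hu0 : u ≠ 0 := by
      rintro rfl
      rw [zero_pow hp.ne_zero] at hu
      exact hf hu.symm
    have hx0 : x ≠ 0 := fun h => hx (h ▸ isAlgebraic_zero)
    have hfx : ∀ w : F, w ^ p ≠ f * x := by
      intro w hw
      refine hxs.not_pow p (w / u) ?_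
      rw [div_pow, hw, hu]
      field_simp
    have hfxt : Transcendental K (f * x) := by
      intro halg
      obtain ⟨c, hc⟩ := Fermat.Agent.H12.exists_algebraMap_eq_of_isAlgebraic halg
      obtain ⟨d, hd⟩ := IsAlgClosed.exists_pow_nat_eq c hp.pos
      refine hfx (algebraMap K F d) ?_
      rw [← map_pow, hd, hc]
    have hfinfx : FiniteDimensional K⟮f * x⟯ F :=
      Fermat.Agent.H12.finiteDimensional_adjoin_simple_of_transcendental x (f * x) hfxt
    have hsepfx : IsSepElt K (f * x) :=
      ⟨hfxt, hfinfx, hA K F p x hx hfin hsep (f * x) hfx⟩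
    have := hsepfx.goodDiv.mul hxs.goodDiv.inv (mul_ne_zero hf hx0) (inv_ne_zero hx0)
    rwa [mul_assoc, mul_inv_cancel₀ hx0, mul_one] at this
  · exfalso
    subst hp0
    haveI : CharZero K := CharP.charP_to_charZero K
    exact hfsep (Fermat.Agent.H84.isSeparable_of_charZero f hfinf)

end Fermat.Agent.H68

end
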