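/-
helper68 (P-ES / E6-DICT, row 640): the pole divisor dictionary.

`K` algebraically closed, `x ∈ F` a separating element of finite degree.  The pole divisor `B`
of `x` has degree `[F : K(x)]`, and `L(m B)` is the set of all `f` which are integral over
`K[x]` and such that `x⁻ᵐ f` is integral over `K[x⁻¹]`.
-/
import Fermat.Agent.H9.E6.Interfaces
import Fermat.Agent.H68.PrincipalInput
import Fermat.Agent.H19.RH.FrameDict

set_option autoImplicit false
set_option linter.style.haveILetI false
set_option linter.unusedVariables false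
set_option linter.unusedSectionVars false

noncomputable section

open AlgebraicCurve IntermediateField IsDedekindDomain
open Fermat.Agent.H84

namespace Fermat.Agent.H68

variable {K F : Type} [Field K] [Field F] [Algebra K F]

/-- Chart dictionary: integrality over `K[y]` is regularity at all places where `y` is
regular. -/
theorem pd_isIntegral_iff (y : F) (hfin : FiniteDimensional K⟮y⟯ F)
    (hsep : Algebra.IsSeparable K⟮y⟯ F) (f : F) :
    IsIntegral (Algebra.adjoin K ({y} : Set F)) f ↔
      ∀ v : Place K F, 0 ≤ v.ord y → 0 ≤ v.ord f := by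
  haveI := isDedekindDomain_adjoin (K := K) y
  haveI := sepFI_isDedekindDomain_closure (K := K) y hfin hsep
  haveI := isFractionRing_closure (K := K) y hfin
  have h := (Fermat.Agent.H19.rhDict' (K := K) (F := F) (A := Algebra.adjoin K ({y} : Set F))
    (B := integralClosure (Algebra.adjoin K ({y} : Set F)) F) y (by
      ext z
      constructor
      · rintro ⟨a, rfl⟩
        exact a.2
      · intro hz
        exact ⟨⟨z, hz⟩, rfl⟩)).2.2 f
  rw [← h]
  constructor
  · intro hf
    exact ⟨⟨f, hf⟩, rfl⟩
  · rintro ⟨b, rfl⟩
    exact b.2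

/-- **E6-DICT.** -/
theorem poleDict : Fermat.Agent.H9.E6.PoleDictStatement := by
  intro K F _ _ _ _ x hx hfin hsep
  classical
  have h : IsSepElt K x := ⟨hx, hfin, hsep⟩
  have hinv := h.inv
  have hx0 : x ≠ 0 := fun h0 => hx (h0 ▸ isAlgebraic_zero)
  obtain ⟨hfinset, hsum⟩ := hinv.zeros
  have hdeg := h.deg_one
  let B : Divisor K F := Finsupp.ofSupportFinite (fun v => max 0 (-(v.ord x))) (by
    refine hfinset.subset fun v hv => ?_
    rw [Function.mem_support] at hv
    rw [Set.mem_ofPred_eq, Place.ord_inv]
    by_contra hcon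
    exact hv (max_eq_left (by omega)))
  have hB : ∀ v : Place K F, B v = max 0 (-(v.ord x)) := fun v => rfl
  have hBdeg : Divisor.degree B = (Module.finrank K⟮x⟯ F : ℤ) := by
    rw [Fermat.Agent.H12.adjoin_simple_inv] at hsum
    rw [← hsum, Fermat.Agent.H58.rr_degree_eq_sum_of_deg_one hdeg, Finsupp.sum]
    have hsupp : (B.support : Set (Place K F)) = {v : Place K F | 0 < v.ord x⁻¹} := by
      ext v
      rw [Finset.mem_coe, Finsupp.mem_support_iff, hB, Set.mem_ofPred_eq, Place.ord_inv]
      constructor
      · intro h
        by_contra hcon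
        exact h (max_eq_left (by omega))
      · intro h
        have := le_max_right 0 (-(v.ord x))
        omega
    rw [← hsupp, finsum_mem_coe_finset]
    refine Finset.sum_congr rfl fun v hv => ?_
    have hv' : v ∈ {v : Place K F | 0 < v.ord x⁻¹} := by
      rw [← hsupp]; exact hv
    rw [Set.mem_ofPred_eq, Place.ord_inv] at hv'
    rw [hB, Place.ord_inv]
    exact max_eq_right (by omega)
  refine ⟨B, hBdeg, fun m f => ?_⟩
  by_cases hf0 : f = 0
  · subst hf0
    simp only [Submodule.zero_mem, mul_zero, true_iff]
    exact ⟨isIntegral_zero, isIntegral_zero⟩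
  rw [mem_riemannRochSpace_iff, pd_isIntegral_iff x hfin hsep,
    pd_isIntegral_iff x⁻¹ hinv.finite hinv.separable]
  have hmB : ∀ v : Place K F, (m • B) v = (m : ℤ) * max 0 (-(v.ord x)) := by
    intro v
    rw [Finsupp.smul_apply, hB, nsmul_eq_mul]
  have hord : ∀ v : Place K F, v.ord (x⁻¹ ^ m * f) = -((m : ℤ) * v.ord x) + v.ord f := by
    intro v
    rw [v.ord_mul (pow_ne_zero _ (inv_ne_zero hx0)) hf0, ← zpow_natCast, v.ord_zpow,
      v.ord_inv]
    ring
  constructor
  · intro hL
    refine ⟨fun v hv => ?_, fun v hv => ?_⟩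
    · rcases hL v with h0 | h1
      · exact absurd h0 hf0
      · rw [hmB, max_eq_left (by omega), mul_zero] at h1
        omega
    · rw [Place.ord_inv] at hv
      rw [hord]
      rcases hL v with h0 | h1
      · exact absurd h0 hf0
      · rw [hmB, max_eq_right (by omega), mul_neg] at h1
        omega
  · rintro ⟨h1, h2⟩ v
    right
    rw [hmB]
    by_cases hv : 0 ≤ v.ord x
    · have := h1 v hv
      rw [max_eq_left (by omega), mul_zero]
      omega
    · have := h2 v (by rw [Place.ord_inv]; omega)
      rw [hord] at this
      rw [max_eq_right (by omega), mul_neg]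
      omega

end Fermat.Agent.H68

end
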