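/-
helper68 (P-CFT / G1-CNT, row 492): counting the places of a Galois extension of odd prime
degree `p`:  `#Inf(L) = p · #Inf(K)` and `#T_L + (p - 1) · #{v ∈ T nonsplit} = p · #T`.
-/
import Fermat.Agent.H43.Cft.G1Leaves

set_option autoImplicit false
set_option linter.unusedVariables false
set_option linter.unusedSectionVars false

noncomputable section

open NumberField IsDedekindDomain

namespace Fermat.Agent.H68

open Fermat.Agent.H43.Cft

section Fibre

universe u v

variable (K : Type u) [Field K] [NumberField K] (L : Type v) [Field L] [NumberField L]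
  [Algebra K L]

/-- The primes of `L` above `v` correspond to `primesOver`. -/
theorem pc_card_fibre (v : HeightOneSpectrum (𝓞 K)) :
    (primesAbove K L {v}).card = (v.asIdeal.primesOver (𝓞 L)).ncard := by
  classical
  have hinj : Function.Injective
      (HeightOneSpectrum.asIdeal : HeightOneSpectrum (𝓞 L) → Ideal (𝓞 L)) :=
    fun a b hab => HeightOneSpectrum.ext hab
  have himg : v.asIdeal.primesOver (𝓞 L) =
      HeightOneSpectrum.asIdeal '' ((primesAbove K L {v} : Finset (HeightOneSpectrum (𝓞 L))) :
        Set (HeightOneSpectrum (𝓞 L))) := by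
    ext P
    constructor
    · rintro ⟨hP, hPv⟩
      have hP0 : P ≠ ⊥ := Ideal.ne_bot_of_mem_primesOver v.ne_bot ⟨hP, hPv⟩
      refine ⟨⟨P, hP, hP0⟩, ?_, rfl⟩
      rw [Finset.mem_coe, mem_primesAbove, Finset.mem_singleton]
      apply HeightOneSpectrum.ext
      exact hPv.over.symm
    · rintro ⟨w, hw, rfl⟩
      rw [Finset.mem_coe, mem_primesAbove, Finset.mem_singleton] at hw
      refine ⟨w.isPrime, ⟨?_⟩⟩
      rw [← hw]
      rfl
  rw [himg, Set.ncard_image_of_injective _ hinj, Set.ncard_coe_finset]

variable [IsGalois K L]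

/-- In a Galois extension of prime degree there are `1` or `p` primes above a given prime. -/
theorem pc_card_fibre_eq (p : ℕ) (hp : p.Prime) (hdeg : Module.finrank K L = p)
    (v : HeightOneSpectrum (𝓞 K)) :
    (primesAbove K L {v}).card = 1 ∨ (primesAbove K L {v}).card = p := by
  haveI : v.asIdeal.IsPrime := v.isPrime
  have h := Ideal.ncard_primesOver_mul_ramificationIdxIn_mul_inertiaDegIn v.asIdeal (𝓞 L)
    Gal(L/K)
  rw [IsGaloisGroup.card_eq_finrank Gal(L/K) K L, hdeg, ← pc_card_fibre] at h
  exact (Nat.dvd_prime hp).1 ⟨_, h.symm⟩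

theorem pc_nonsplit_iff (v : HeightOneSpectrum (𝓞 K)) :
    Nonsplit K L v ↔ (primesAbove K L {v}).card ≤ 1 := by
  rw [Finset.card_le_one]
  constructor
  · intro h a ha b hb
    rw [mem_primesAbove, Finset.mem_singleton] at ha hb
    exact h a b ha hb
  · intro h a b ha hb
    exact h a (by rw [mem_primesAbove, Finset.mem_singleton]; exact ha)
      b (by rw [mem_primesAbove, Finset.mem_singleton]; exact hb)

theorem pc_card_fibre_pos (v : HeightOneSpectrum (𝓞 K)) :
    0 < (primesAbove K L {v}).card := by
  haveI : v.asIdeal.IsPrime := v.isPrime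
  rw [pc_card_fibre]
  exact IsDedekindDomain.one_le_primesOver_ncard v.asIdeal (𝓞 L)

open scoped Classical in
theorem pc_card_primesAbove (T : Finset (HeightOneSpectrum (𝓞 K))) :
    (primesAbove K L T).card = ∑ v ∈ T, (primesAbove K L {v}).card := by
  have hU : primesAbove K L T = T.biUnion (fun v => primesAbove K L {v}) := by
    ext w
    simp only [Finset.mem_biUnion, mem_primesAbove, Finset.mem_singleton]
    constructor
    · intro h
      exact ⟨_, h, rfl⟩
    · rintro ⟨v, hv, hw⟩
      rw [hw]
      exact hv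
  rw [hU, Finset.card_biUnion]
  intro a _ b _ hab
  rw [Function.onFun, Finset.disjoint_left]
  intro w hwa hwb
  rw [mem_primesAbove, Finset.mem_singleton] at hwa hwb
  exact hab (hwa.symm.trans hwb)

end Fibre

/-- **G1-CNT.** -/
theorem placeCount.{u, v} : PlaceCountStatement.{u, v} := by
  intro K _ _ L _ _ _ _ p hp hp2 hdeg
  refine ⟨?_, ?_⟩
  · haveI : IsUnramifiedAtInfinitePlaces K L :=
      IsUnramifiedAtInfinitePlaces_of_odd_finrank (by rw [hdeg]; exact hp.odd_of_ne_two hp2)
    rw [IsUnramifiedAtInfinitePlaces.card_infinitePlace K L, hdeg, mul_comm]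
  · intro T
    classical
    rw [pc_card_primesAbove, Finset.card_filter, Finset.mul_sum, ← Finset.sum_add_distrib,
      mul_comm, ← smul_eq_mul, ← Finset.sum_const]
    refine Finset.sum_congr rfl fun v _ => ?_
    have hpos := pc_card_fibre_pos K L v
    have h1 := pc_card_fibre_eq K L p hp hdeg v
    have h2 := pc_nonsplit_iff K L v
    have hp1 : 1 ≤ p := hp.one_lt.le
    by_cases hN : Nonsplit K L v
    · rw [if_pos hN]
      have := h2.1 hN
      omega
    · rw [if_neg hN]
      have : ¬ (primesAbove K L {v}).card ≤ 1 := fun h => hN (h2.2 h)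
      rcases h1 with h1 | h1
      · omega
      · omega

end Fermat.Agent.H68

end
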