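/-
S14 / C4c (helper68): "thin" sets, i.e. sets of box-counting dimension at most `e`:
for every `M ≥ 1` they are covered by `O(M ^ e)` closed balls of radius `1 / M`.
Used to count the unit cubes met by the dilated frontier of the norm-one part of the
fundamental cone of a number field (lattice point counting with error term).
-/
import Mathlib

set_option autoImplicit false

namespace Fermat.Agent.H68

open Metric Set

/-- `IsThin e S`: for every `M ≥ 1`, the set `S` is covered by at most `B * M ^ e` closed balls of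
radius `1 / M` centred at points of `S`. -/
def IsThin {E : Type*} [PseudoMetricSpace E] (e : ℕ) (S : Set E) : Prop :=
  ∃ B : ℕ, ∀ M : ℕ, 0 < M → ∃ F : Finset E, (↑F : Set E) ⊆ S ∧ F.card ≤ B * M ^ e ∧
    S ⊆ ⋃ c ∈ F, closedBall c (1 / (M : ℝ))

section basic

variable {E : Type*} [PseudoMetricSpace E] {e e' : ℕ} {S T : Set E}

theorem isThin_empty : IsThin e (∅ : Set E) :=
  ⟨0, fun _ _ => ⟨∅, by simp, by simp, by simp⟩⟩

theorem IsThin.mono_exp (h : IsThin e S) (hee : e ≤ e') : IsThin e' S := by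
  obtain ⟨B, hB⟩ := h
  refine ⟨B, fun M hM => ?_⟩
  obtain ⟨F, hFS, hcard, hcov⟩ := hB M hM
  exact ⟨F, hFS, hcard.trans (Nat.mul_le_mul_left _ (Nat.pow_le_pow_right hM hee)), hcov⟩

theorem IsThin.subset (h : IsThin e S) (hTS : T ⊆ S) : IsThin e T := by
  classical
  obtain ⟨B, hB⟩ := h
  refine ⟨B * 2 ^ e, fun M hM => ?_⟩
  obtain ⟨F, -, hcard, hcov⟩ := hB (2 * M) (by positivity)
  set δ : ℝ := 1 / ((2 * M : ℕ) : ℝ) with hδ
  let g : E → E := fun c => if h : (closedBall c δ ∩ T).Nonempty then h.some else c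
  refine ⟨(F.filter (fun c => (closedBall c δ ∩ T).Nonempty)).image g, ?_, ?_, ?_⟩
  · intro x hx
    simp only [Finset.coe_image, Finset.coe_filter, mem_image, Set.mem_ofPred_eq] at hx
    obtain ⟨c, ⟨-, hc⟩, rfl⟩ := hx
    simp only [g, dif_pos hc]
    exact hc.some_mem.2
  · calc ((F.filter (fun c => (closedBall c δ ∩ T).Nonempty)).image g).card
        ≤ (F.filter (fun c => (closedBall c δ ∩ T).Nonempty)).card := Finset.card_image_le
      _ ≤ F.card := Finset.card_filter_le _ _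
      _ ≤ B * (2 * M) ^ e := hcard
      _ = B * 2 ^ e * M ^ e := by rw [mul_pow, mul_assoc]
  · intro x hx
    obtain ⟨c, hcF, hxc⟩ : ∃ c ∈ F, x ∈ closedBall c δ := by
      simpa only [mem_iUnion, exists_prop] using hcov (hTS hx)
    have hc : (closedBall c δ ∩ T).Nonempty := ⟨x, hxc, hx⟩
    simp only [mem_iUnion, exists_prop]
    refine ⟨g c, Finset.mem_image_of_mem g (Finset.mem_filter.2 ⟨hcF, hc⟩), ?_⟩
    have hg : g c ∈ closedBall c δ := by
      simp only [g, dif_pos hc]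
      exact hc.some_mem.1
    rw [mem_closedBall] at hxc hg ⊢
    have hM' : (0 : ℝ) < M := by exact_mod_cast hM
    have : δ + δ = 1 / (M : ℝ) := by
      rw [hδ]; push_cast; field_simp; ring
    calc dist x (g c) ≤ dist x c + dist (g c) c := dist_triangle_right _ _ _
      _ ≤ δ + δ := add_le_add hxc hg
      _ = 1 / (M : ℝ) := this

theorem IsThin.union (h : IsThin e S) (h' : IsThin e T) : IsThin e (S ∪ T) := by
  classical
  obtain ⟨B, hB⟩ := h
  obtain ⟨B', hB'⟩ := h'
  refine ⟨B + B', fun M hM => ?_⟩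
  obtain ⟨F, hFS, hcard, hcov⟩ := hB M hM
  obtain ⟨F', hFS', hcard', hcov'⟩ := hB' M hM
  refine ⟨F ∪ F', ?_, ?_, ?_⟩
  · rw [Finset.coe_union]
    exact union_subset_union hFS hFS'
  · calc (F ∪ F').card ≤ F.card + F'.card := Finset.card_union_le _ _
      _ ≤ B * M ^ e + B' * M ^ e := add_le_add hcard hcard'
      _ = (B + B') * M ^ e := by ring
  · rintro x (hx | hx)
    · obtain ⟨c, hcF, hxc⟩ : ∃ c ∈ F, x ∈ closedBall c (1 / (M : ℝ)) := by
        simpa only [mem_iUnion, exists_prop] using hcov hx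
      simp only [mem_iUnion, exists_prop]
      exact ⟨c, Finset.mem_union_left _ hcF, hxc⟩
    · obtain ⟨c, hcF, hxc⟩ : ∃ c ∈ F', x ∈ closedBall c (1 / (M : ℝ)) := by
        simpa only [mem_iUnion, exists_prop] using hcov' hx
      simp only [mem_iUnion, exists_prop]
      exact ⟨c, Finset.mem_union_right _ hcF, hxc⟩

theorem IsThin.biUnion_finset {α : Type*} (s : Finset α) {S : α → Set E}
    (h : ∀ a ∈ s, IsThin e (S a)) : IsThin e (⋃ a ∈ s, S a) := by
  classical
  induction s using Finset.induction_on with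
  | empty => simpa using isThin_empty
  | insert a s _ ih =>
    rw [Finset.set_biUnion_insert]
    exact (h a (Finset.mem_insert_self a s)).union
      (ih fun b hb => h b (Finset.mem_insert_of_mem hb))

theorem IsThin.iUnion_fintype {α : Type*} [Fintype α] {S : α → Set E}
    (h : ∀ a, IsThin e (S a)) : IsThin e (⋃ a, S a) := by
  have := IsThin.biUnion_finset (Finset.univ : Finset α) (S := S) (fun a _ => h a)
  simpa using this

theorem isThin_singleton (x : E) : IsThin 0 ({x} : Set E) := by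
  refine ⟨1, fun M hM => ⟨{x}, by simp, by simp, ?_⟩⟩
  intro y hy
  rw [mem_singleton_iff] at hy
  subst hy
  simp only [Finset.mem_singleton, iUnion_iUnion_eq_left, mem_closedBall, dist_self]
  positivity

end basic

section image

variable {E F : Type*} [PseudoMetricSpace E] [PseudoMetricSpace F] {e : ℕ} {S : Set E}

theorem IsThin.image {φ : E → F} {Λ : NNReal} (hφ : LipschitzOnWith Λ φ S) (h : IsThin e S) :
    IsThin e (φ '' S) := by
  classical
  obtain ⟨B, hB⟩ := h
  set L : ℕ := ⌈(Λ : ℝ)⌉₊ + 1 with hL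
  have hL0 : 0 < L := Nat.succ_pos _
  have hΛL : (Λ : ℝ) ≤ L := by
    rw [hL]; push_cast
    exact (Nat.le_ceil _).trans (by linarith)
  refine ⟨B * L ^ e, fun M hM => ?_⟩
  obtain ⟨G, hGS, hcard, hcov⟩ := hB (L * M) (Nat.mul_pos hL0 hM)
  refine ⟨G.image φ, ?_, ?_, ?_⟩
  · rw [Finset.coe_image]
    exact image_mono hGS
  · calc (G.image φ).card ≤ G.card := Finset.card_image_le
      _ ≤ B * (L * M) ^ e := hcard
      _ = B * L ^ e * M ^ e := by rw [mul_pow, mul_assoc]
  · rintro _ ⟨x, hx, rfl⟩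
    obtain ⟨c, hcG, hxc⟩ : ∃ c ∈ G, x ∈ closedBall c (1 / ((L * M : ℕ) : ℝ)) := by
      simpa only [mem_iUnion, exists_prop] using hcov hx
    simp only [mem_iUnion, exists_prop]
    refine ⟨φ c, Finset.mem_image_of_mem φ hcG, ?_⟩
    rw [mem_closedBall] at hxc ⊢
    have hM' : (0 : ℝ) < M := by exact_mod_cast hM
    have hL' : (0 : ℝ) < L := by exact_mod_cast hL0
    calc dist (φ x) (φ c) ≤ Λ * dist x c := hφ.dist_le_mul x hx c (hGS hcG)
      _ ≤ L * (1 / ((L * M : ℕ) : ℝ)) :=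
          mul_le_mul hΛL hxc dist_nonneg hL'.le
      _ = 1 / (M : ℝ) := by push_cast; field_simp

theorem IsThin.prod {T : Set F} {f : ℕ} (h : IsThin e S) (h' : IsThin f T) :
    IsThin (e + f) (S ×ˢ T) := by
  classical
  obtain ⟨B, hB⟩ := h
  obtain ⟨B', hB'⟩ := h'
  refine ⟨B * B', fun M hM => ?_⟩
  obtain ⟨G, hGS, hcard, hcov⟩ := hB M hM
  obtain ⟨G', hGS', hcard', hcov'⟩ := hB' M hM
  refine ⟨G ×ˢ G', ?_, ?_, ?_⟩
  · rw [Finset.coe_product]
    exact prod_mono hGS hGS'
  · calc (G ×ˢ G').card = G.card * G'.card := Finset.card_product _ _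
      _ ≤ (B * M ^ e) * (B' * M ^ f) := Nat.mul_le_mul hcard hcard'
      _ = B * B' * M ^ (e + f) := by rw [pow_add]; ring
  · rintro ⟨x, y⟩ ⟨hx, hy⟩
    obtain ⟨c, hcG, hxc⟩ : ∃ c ∈ G, x ∈ closedBall c (1 / (M : ℝ)) := by
      simpa only [mem_iUnion, exists_prop] using hcov hx
    obtain ⟨d, hdG, hyd⟩ : ∃ d ∈ G', y ∈ closedBall d (1 / (M : ℝ)) := by
      simpa only [mem_iUnion, exists_prop] using hcov' hy
    simp only [mem_iUnion, exists_prop]
    refine ⟨(c, d), Finset.mem_product.2 ⟨hcG, hdG⟩, ?_⟩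
    rw [← closedBall_prod_same]
    exact ⟨hxc, hyd⟩

end image

section pi

variable {ι : Type*} [Fintype ι] {E : ι → Type*} [∀ i, PseudoMetricSpace (E i)]

theorem IsThin.pi {e : ι → ℕ} {S : ∀ i, Set (E i)} (h : ∀ i, IsThin (e i) (S i)) :
    IsThin (∑ i, e i) (Set.pi univ S) := by
  classical
  choose B hB using h
  refine ⟨∏ i, B i, fun M hM => ?_⟩
  choose G hGS hcard hcov using fun i => hB i M hM
  refine ⟨Fintype.piFinset G, ?_, ?_, ?_⟩
  · intro x hx
    rw [Finset.mem_coe, Fintype.mem_piFinset] at hx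
    exact fun i _ => hGS i (hx i)
  · calc (Fintype.piFinset G).card = ∏ i, (G i).card := Fintype.card_piFinset _
      _ ≤ ∏ i, (B i * M ^ e i) := Finset.prod_le_prod' fun i _ => hcard i
      _ = (∏ i, B i) * M ^ (∑ i, e i) := by
          rw [Finset.prod_mul_distrib, Finset.prod_pow_eq_pow_sum]
  · intro x hx
    have : ∀ i, ∃ c ∈ G i, x i ∈ closedBall c (1 / (M : ℝ)) := fun i => by
      simpa only [mem_iUnion, exists_prop] using hcov i (hx i (mem_univ i))
    choose c hcG hxc using this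
    simp only [mem_iUnion, exists_prop]
    refine ⟨c, Fintype.mem_piFinset.2 hcG, ?_⟩
    rw [closedBall_pi _ (by positivity)]
    exact fun i _ => hxc i

end pi

section real

theorem isThin_Icc_zero_one : IsThin 1 (Icc (0 : ℝ) 1) := by
  classical
  refine ⟨2, fun M hM => ?_⟩
  have hM' : (0 : ℝ) < M := by exact_mod_cast hM
  refine ⟨(Finset.range (M + 1)).image (fun j : ℕ => (j : ℝ) / M), ?_, ?_, ?_⟩
  · intro x hx
    simp only [Finset.coe_image, Finset.coe_range, mem_image, mem_Iio] at hx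
    obtain ⟨j, hj, rfl⟩ := hx
    refine ⟨by positivity, ?_⟩
    rw [div_le_one hM']
    exact_mod_cast Nat.lt_succ_iff.1 hj
  · calc ((Finset.range (M + 1)).image (fun j : ℕ => (j : ℝ) / M)).card
        ≤ (Finset.range (M + 1)).card := Finset.card_image_le
      _ = M + 1 := Finset.card_range _
      _ ≤ 2 * M ^ 1 := by rw [pow_one]; omega
  · intro x hx
    simp only [mem_iUnion, exists_prop, Finset.mem_image, Finset.mem_range, exists_exists_and_eq_and]
    have hxM : 0 ≤ x * M := mul_nonneg hx.1 hM'.le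
    refine ⟨⌊x * M⌋₊, ?_, ?_⟩
    · rw [Nat.lt_succ_iff]
      apply Nat.floor_le_of_le
      calc x * M ≤ 1 * M := mul_le_mul_of_nonneg_right hx.2 hM'.le
        _ = M := one_mul _
    · rw [mem_closedBall, Real.dist_eq, abs_le]
      have h1 := Nat.floor_le hxM
      have h2 := Nat.lt_floor_add_one (x * M)
      constructor
      · rw [neg_le_sub_iff_le_add, ← sub_le_iff_le_add']
        have : (⌊x * M⌋₊ : ℝ) / M ≤ x := by rwa [div_le_iff₀ hM']
        linarith [show (0 : ℝ) ≤ 1 / M by positivity]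
      · rw [sub_le_iff_le_add, ← add_div, le_div_iff₀ hM']
        linarith

theorem isThin_Icc (a b : ℝ) : IsThin 1 (Icc a b) := by
  rcases le_or_gt a b with hab | hab
  · have h : LipschitzOnWith ⟨b - a, sub_nonneg.2 hab⟩ (fun t : ℝ => a + t * (b - a))
        (Icc (0 : ℝ) 1) := by
      apply LipschitzWith.lipschitzOnWith
      apply LipschitzWith.of_dist_le_mul
      intro x y
      simp only [Real.dist_eq]
      rw [show a + x * (b - a) - (a + y * (b - a)) = (b - a) * (x - y) by ring, abs_mul,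
        abs_of_nonneg (sub_nonneg.2 hab)]
      exact le_rfl
    have := isThin_Icc_zero_one.image h
    refine this.subset ?_
    intro x hx
    rcases eq_or_lt_of_le hab with rfl | hlt
    · refine ⟨0, ⟨le_rfl, zero_le_one⟩, ?_⟩
      have : x = a := le_antisymm hx.2 hx.1
      simp [this]
    · have hba : 0 < b - a := sub_pos.2 hlt
      refine ⟨(x - a) / (b - a), ⟨div_nonneg (sub_nonneg.2 hx.1) hba.le, ?_⟩, ?_⟩
      · rw [div_le_one hba]; linarith [hx.2]
      · field_simp; ring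
  · rw [Icc_eq_empty (not_le.2 hab)]
    exact isThin_empty

end real

section count

variable {ι : Type*} [Fintype ι]

/-- Counting the integer cells met by a dilate of a thin subset of `ι → ℝ`. -/
theorem IsThin.exists_card_floor_le {S : Set (ι → ℝ)} {e : ℕ} (h : IsThin e S) :
    ∃ B : ℝ, 0 ≤ B ∧ ∀ r : ℝ, 1 ≤ r →
      {v : ι → ℤ | ∃ x ∈ S, ∀ i, ⌊r * x i⌋ = v i}.Finite ∧
      (({v : ι → ℤ | ∃ x ∈ S, ∀ i, ⌊r * x i⌋ = v i}.ncard : ℝ) ≤ B * r ^ e) := by
  classical
  obtain ⟨B, hB⟩ := h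
  refine ⟨3 ^ Fintype.card ι * B * 2 ^ e, by positivity, fun r hr => ?_⟩
  have hr0 : 0 < r := zero_lt_one.trans_le hr
  set M : ℕ := ⌈r⌉₊ with hM
  have hM0 : 0 < M := Nat.ceil_pos.2 hr0
  have hrM : r ≤ M := Nat.le_ceil r
  have hMr : (M : ℝ) ≤ 2 * r := by
    have := Nat.ceil_lt_add_one hr0.le
    linarith
  obtain ⟨G, -, hcard, hcov⟩ := hB M hM0
  set W : Finset (ι → ℤ) :=
    G.biUnion (fun c => Fintype.piFinset fun i => Finset.Icc (⌊r * c i⌋ - 1) (⌊r * c i⌋ + 1))
    with hW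
  have hsub : {v : ι → ℤ | ∃ x ∈ S, ∀ i, ⌊r * x i⌋ = v i} ⊆ (↑W : Set (ι → ℤ)) := by
    rintro v ⟨x, hx, hv⟩
    obtain ⟨c, hcG, hxc⟩ : ∃ c ∈ G, x ∈ closedBall c (1 / (M : ℝ)) := by
      simpa only [mem_iUnion, exists_prop] using hcov hx
    rw [Finset.mem_coe, hW, Finset.mem_biUnion]
    refine ⟨c, hcG, Fintype.mem_piFinset.2 fun i => ?_⟩
    rw [mem_closedBall, dist_pi_le_iff (by positivity)] at hxc
    have hi := hxc i
    rw [Real.dist_eq, abs_le] at hi
    have hM' : (0 : ℝ) < M := by exact_mod_cast hM0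
    have h1 : r * (1 / (M : ℝ)) ≤ 1 := by
      rw [mul_one_div, div_le_one hM']; exact hrM
    have h2 : r * x i - r * c i ≤ 1 := by
      calc r * x i - r * c i = r * (x i - c i) := by ring
        _ ≤ r * (1 / (M : ℝ)) := mul_le_mul_of_nonneg_left hi.2 hr0.le
        _ ≤ 1 := h1
    have h3 : r * c i - r * x i ≤ 1 := by
      calc r * c i - r * x i = r * (-(x i - c i)) := by ring
        _ ≤ r * (1 / (M : ℝ)) := mul_le_mul_of_nonneg_left (by linarith [hi.1]) hr0.le
        _ ≤ 1 := h1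
    rw [Finset.mem_Icc, ← hv i]
    constructor
    · rw [sub_le_iff_le_add, ← Int.floor_add_one]
      exact Int.floor_le_floor (by linarith)
    · rw [← Int.floor_add_one]
      exact Int.floor_le_floor (by linarith)
  have hfin : {v : ι → ℤ | ∃ x ∈ S, ∀ i, ⌊r * x i⌋ = v i}.Finite :=
    W.finite_toSet.subset hsub
  refine ⟨hfin, ?_⟩
  have hWcard : W.card ≤ G.card * 3 ^ Fintype.card ι := by
    calc W.card ≤ ∑ c ∈ G, (Fintype.piFinset fun i =>
          Finset.Icc (⌊r * c i⌋ - 1) (⌊r * c i⌋ + 1)).card := Finset.card_biUnion_le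
      _ = ∑ _c ∈ G, 3 ^ Fintype.card ι := by
          refine Finset.sum_congr rfl fun c _ => ?_
          rw [Fintype.card_piFinset]
          simp only [Int.card_Icc]
          have : ∀ i : ι, (⌊r * c i⌋ + 1 + 1 - (⌊r * c i⌋ - 1)).toNat = 3 := fun i => by omega
          simp [this]
      _ = G.card * 3 ^ Fintype.card ι := by rw [Finset.sum_const, smul_eq_mul]
  have h1 : ({v : ι → ℤ | ∃ x ∈ S, ∀ i, ⌊r * x i⌋ = v i}.ncard : ℝ) ≤ W.card := by
    have := Set.ncard_le_ncard hsub W.finite_toSet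
    rw [Set.ncard_coe_finset] at this
    exact_mod_cast this
  have h2 : (W.card : ℝ) ≤ (B * M ^ e : ℕ) * 3 ^ Fintype.card ι := by
    have := hWcard.trans (Nat.mul_le_mul_right _ hcard)
    exact_mod_cast this
  have h3 : ((M : ℝ)) ^ e ≤ (2 * r) ^ e := pow_le_pow_left₀ (by positivity) hMr e
  calc ({v : ι → ℤ | ∃ x ∈ S, ∀ i, ⌊r * x i⌋ = v i}.ncard : ℝ) ≤ W.card := h1
    _ ≤ (B * M ^ e : ℕ) * 3 ^ Fintype.card ι := h2
    _ = 3 ^ Fintype.card ι * B * (M : ℝ) ^ e := by push_cast; ring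
    _ ≤ 3 ^ Fintype.card ι * B * (2 * r) ^ e := by gcongr
    _ = 3 ^ Fintype.card ι * B * 2 ^ e * r ^ e := by rw [mul_pow]; ring

end count

end Fermat.Agent.H68
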