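/-
S14 / C4c-B1 (helper68): lattice point counting with a power-saving error term, for dilates of a
bounded set whose frontier is thin (`IsThin`).  No measure theory: the main term is identified
through a limit hypothesis (which Mathlib supplies in the applications).
-/
import Fermat.Agent.H68.ThinSet

set_option autoImplicit false

namespace Fermat.Agent.H68

open Set Metric Filter Topology Pointwise

section coordinates

variable {ι : Type*}

/-- an integer vector seen as a real vector -/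
def toR (v : ι → ℤ) : ι → ℝ := fun i => (v i : ℝ)

/-- the integer points of a set -/
def ipts (A : Set (ι → ℝ)) : Set (ι → ℤ) := {v | toR v ∈ A}

/-- the cells `u + [0,1)^ι` meeting a set -/
def cellsMeeting (A : Set (ι → ℝ)) : Set (ι → ℤ) := {u | ∃ x ∈ A, ∀ i, ⌊x i⌋ = u i}

/-- the cells `u + [0,1)^ι` containing a point of `A` and a point outside `A` -/
def bdCells (A : Set (ι → ℝ)) : Set (ι → ℤ) :=
  {u | ∃ x ∈ A, ∃ y, y ∉ A ∧ (∀ i, ⌊x i⌋ = u i) ∧ (∀ i, ⌊y i⌋ = u i)}

theorem floor_toR (v : ι → ℤ) (i : ι) : ⌊toR v i⌋ = v i := Int.floor_intCast _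

theorem ipts_subset_cellsMeeting (A : Set (ι → ℝ)) : ipts A ⊆ cellsMeeting A :=
  fun v hv => ⟨toR v, hv, fun i => floor_toR v i⟩

theorem bdCells_subset_cellsMeeting (A : Set (ι → ℝ)) : bdCells A ⊆ cellsMeeting A :=
  fun _ ⟨x, hx, _, _, hxu, _⟩ => ⟨x, hx, hxu⟩

theorem floor_inv_smul_toR (k : ℕ) (v : ι → ℤ) (i : ι) :
    ⌊((k : ℝ)⁻¹ • toR v) i⌋ = v i / (k : ℤ) := by
  rw [Pi.smul_apply, smul_eq_mul, inv_mul_eq_div, Int.floor_div_natCast, floor_toR]

variable [Fintype ι]

theorem finite_cellsMeeting {A : Set (ι → ℝ)} (hA : Bornology.IsBounded A) :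
    (cellsMeeting A).Finite := by
  classical
  obtain ⟨R, hR⟩ := hA.subset_closedBall (0 : ι → ℝ)
  have hsub : cellsMeeting A ⊆
      (↑(Fintype.piFinset fun _ : ι => Finset.Icc (⌊-R⌋) (⌊R⌋)) : Set (ι → ℤ)) := by
    rintro u ⟨x, hx, hu⟩
    rw [Finset.mem_coe, Fintype.mem_piFinset]
    intro i
    have h1 := hR hx
    rw [mem_closedBall, dist_zero_right] at h1
    have h2 : ‖x i‖ ≤ R := (norm_le_pi_norm x i).trans h1
    rw [Real.norm_eq_abs, abs_le] at h2
    rw [Finset.mem_Icc, ← hu i]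
    exact ⟨Int.floor_le_floor h2.1, Int.floor_le_floor h2.2⟩
  exact (Finset.finite_toSet _).subset hsub

theorem finite_ipts {A : Set (ι → ℝ)} (hA : Bornology.IsBounded A) : (ipts A).Finite :=
  (finite_cellsMeeting hA).subset (ipts_subset_cellsMeeting A)

theorem finite_bdCells {A : Set (ι → ℝ)} (hA : Bornology.IsBounded A) : (bdCells A).Finite :=
  (finite_cellsMeeting hA).subset (bdCells_subset_cellsMeeting A)

/-- the residues modulo `k` -/
noncomputable def resBox (ι : Type*) [Fintype ι] [DecidableEq ι] (k : ℕ) : Finset (ι → ℤ) :=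
  Fintype.piFinset fun _ : ι => Finset.Ico (0 : ℤ) k

theorem card_resBox [DecidableEq ι] (k : ℕ) : (resBox ι k).card = k ^ Fintype.card ι := by
  simp [resBox, Fintype.card_piFinset]

theorem ncard_ipts_smul_le [DecidableEq ι] {A : Set (ι → ℝ)} (hA : Bornology.IsBounded A)
    {k : ℕ} (hk : 0 < k) :
    (ipts ((k : ℝ) • A)).ncard ≤ k ^ Fintype.card ι * ((ipts A).ncard + (bdCells A).ncard) := by
  have hk' : (k : ℝ) ≠ 0 := by exact_mod_cast hk.ne'
  have hkz : (0 : ℤ) < k := by exact_mod_cast hk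
  have hfin : ((ipts A ∪ bdCells A) ×ˢ (↑(resBox ι k) : Set (ι → ℤ))).Finite :=
    ((finite_ipts hA).union (finite_bdCells hA)).prod (Finset.finite_toSet _)
  have h := Set.ncard_le_ncard_of_injOn (s := ipts ((k : ℝ) • A))
    (t := (ipts A ∪ bdCells A) ×ˢ (↑(resBox ι k) : Set (ι → ℤ)))
    (fun v => (fun i => v i / (k : ℤ), fun i => v i % (k : ℤ))) ?_ ?_ hfin
  · calc (ipts ((k : ℝ) • A)).ncard
        ≤ ((ipts A ∪ bdCells A) ×ˢ (↑(resBox ι k) : Set (ι → ℤ))).ncard := h
      _ = (ipts A ∪ bdCells A).ncard * (resBox ι k).card := by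
          rw [Set.ncard_prod, Set.ncard_coe_finset]
      _ ≤ ((ipts A).ncard + (bdCells A).ncard) * k ^ Fintype.card ι := by
          rw [card_resBox]
          exact Nat.mul_le_mul_right _ (Set.ncard_union_le _ _)
      _ = k ^ Fintype.card ι * ((ipts A).ncard + (bdCells A).ncard) := mul_comm _ _
  · intro v hv
    have hx : (k : ℝ)⁻¹ • toR v ∈ A := (Set.mem_smul_set_iff_inv_smul_mem₀ hk' _ _).1 hv
    refine ⟨?_, ?_⟩
    · by_cases hu : toR (fun i => v i / (k : ℤ)) ∈ A
      · exact Or.inl hu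
      · exact Or.inr ⟨_, hx, _, hu, fun i => floor_inv_smul_toR k v i, fun i => floor_toR _ i⟩
    · rw [Finset.mem_coe, resBox, Fintype.mem_piFinset]
      exact fun i => Finset.mem_Ico.2 ⟨Int.emod_nonneg _ hkz.ne', Int.emod_lt_of_pos _ hkz⟩
  · intro v _ w _ hvw
    rw [Prod.mk.injEq] at hvw
    funext i
    have h1 : v i / (k : ℤ) = w i / (k : ℤ) := congrFun hvw.1 i
    have h2 : v i % (k : ℤ) = w i % (k : ℤ) := congrFun hvw.2 i
    rw [← Int.mul_ediv_add_emod (v i) k, ← Int.mul_ediv_add_emod (w i) k, h1, h2]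

theorem ncard_ipts_smul_ge [DecidableEq ι] {A : Set (ι → ℝ)} (hA : Bornology.IsBounded A)
    {k : ℕ} (hk : 0 < k) :
    k ^ Fintype.card ι * (ipts A).ncard ≤
      (ipts ((k : ℝ) • A)).ncard + k ^ Fintype.card ι * (bdCells A).ncard := by
  have hk' : (k : ℝ) ≠ 0 := by exact_mod_cast hk.ne'
  have hk0 : (0 : ℝ) < k := by exact_mod_cast hk
  have hkz : (0 : ℤ) < k := by exact_mod_cast hk
  have hbk : Bornology.IsBounded ((k : ℝ) • A) := hA.smul₀ _
  have h := Set.ncard_le_ncard_of_injOn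
    (s := (ipts A \ bdCells A) ×ˢ (↑(resBox ι k) : Set (ι → ℤ)))
    (t := ipts ((k : ℝ) • A))
    (fun q => fun i => q.2 i + (k : ℤ) * q.1 i) ?_ ?_ (finite_ipts hbk)
  · have h1 : (ipts A).ncard ≤ (ipts A \ bdCells A).ncard + (bdCells A).ncard :=
      Set.ncard_le_ncard_sdiff_add_ncard _ _ (finite_bdCells hA)
    calc k ^ Fintype.card ι * (ipts A).ncard
        ≤ k ^ Fintype.card ι * ((ipts A \ bdCells A).ncard + (bdCells A).ncard) :=
          Nat.mul_le_mul_left _ h1
      _ = (ipts A \ bdCells A).ncard * (resBox ι k).card +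
            k ^ Fintype.card ι * (bdCells A).ncard := by rw [card_resBox]; ring
      _ = ((ipts A \ bdCells A) ×ˢ (↑(resBox ι k) : Set (ι → ℤ))).ncard +
            k ^ Fintype.card ι * (bdCells A).ncard := by
          rw [Set.ncard_prod, Set.ncard_coe_finset]
      _ ≤ (ipts ((k : ℝ) • A)).ncard + k ^ Fintype.card ι * (bdCells A).ncard :=
          Nat.add_le_add_right h _
  · rintro ⟨u, ρ⟩ ⟨⟨hu, hub⟩, hρ⟩
    rw [Finset.mem_coe, resBox, Fintype.mem_piFinset] at hρ
    have hρ' : ∀ i, 0 ≤ ρ i ∧ ρ i < k := fun i => Finset.mem_Ico.1 (hρ i)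
    change toR (fun i => ρ i + (k : ℤ) * u i) ∈ (k : ℝ) • A
    rw [Set.mem_smul_set_iff_inv_smul_mem₀ hk']
    by_contra hy
    apply hub
    refine ⟨toR u, hu, _, hy, fun i => floor_toR u i, fun i => ?_⟩
    rw [floor_inv_smul_toR]
    rw [Int.add_mul_ediv_left _ _ hkz.ne', Int.ediv_eq_zero_of_lt (hρ' i).1 (hρ' i).2, zero_add]
  · rintro ⟨u, ρ⟩ ⟨-, hρ⟩ ⟨u', ρ'⟩ ⟨-, hρ'⟩ h
    rw [Finset.mem_coe, resBox, Fintype.mem_piFinset] at hρ hρ'
    have hρ1 : ∀ i, 0 ≤ ρ i ∧ ρ i < k := fun i => Finset.mem_Ico.1 (hρ i)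
    have hρ2 : ∀ i, 0 ≤ ρ' i ∧ ρ' i < k := fun i => Finset.mem_Ico.1 (hρ' i)
    have hi : ∀ i, ρ i + (k : ℤ) * u i = ρ' i + (k : ℤ) * u' i := fun i => congrFun h i
    have hu : ∀ i, u i = u' i := fun i => by
      have h1 : (ρ i + (k : ℤ) * u i) / k = u i := by
        rw [Int.add_mul_ediv_left _ _ hkz.ne', Int.ediv_eq_zero_of_lt (hρ1 i).1 (hρ1 i).2,
          zero_add]
      have h2 : (ρ' i + (k : ℤ) * u' i) / k = u' i := by
        rw [Int.add_mul_ediv_left _ _ hkz.ne', Int.ediv_eq_zero_of_lt (hρ2 i).1 (hρ2 i).2,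
          zero_add]
      rw [← h1, ← h2, hi i]
    refine Prod.ext (funext hu) (funext fun i => ?_)
    have := hi i
    rw [hu i] at this
    exact add_right_cancel this


theorem exists_mem_frontier_of_isPreconnected {X : Type*} [TopologicalSpace X] {s A : Set X}
    (hs : IsPreconnected s) {x y : X} (hx : x ∈ s) (hxA : x ∈ A) (hy : y ∈ s) (hyA : y ∉ A) :
    ∃ z ∈ s, z ∈ frontier A := by
  by_contra hcon
  push Not at hcon
  have hcov : s ⊆ interior A ∪ (closure A)ᶜ := by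
    intro z hz
    have := hcon z hz
    rw [frontier, Set.mem_sdiff, not_and_or, not_not] at this
    rcases this with h | h
    · exact Or.inr h
    · exact Or.inl h
  have h1 : (s ∩ interior A).Nonempty := by
    refine ⟨x, hx, ?_⟩
    rcases hcov hx with h | h
    · exact h
    · exact absurd (subset_closure hxA) h
  have h2 : (s ∩ (closure A)ᶜ).Nonempty := by
    refine ⟨y, hy, ?_⟩
    rcases hcov hy with h | h
    · exact absurd (interior_subset h) hyA
    · exact h
  obtain ⟨z, -, hz1, hz2⟩ := hs _ _ isOpen_interior isClosed_closure.isOpen_compl hcov h1 h2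
  exact hz2 (subset_closure (interior_subset hz1))

omit [Fintype ι] in
theorem convex_cell (u : ι → ℤ) : Convex ℝ {z : ι → ℝ | ∀ i, ⌊z i⌋ = u i} := by
  have : {z : ι → ℝ | ∀ i, ⌊z i⌋ = u i} =
      Set.pi univ (fun i => Set.Ico (u i : ℝ) ((u i : ℝ) + 1)) := by
    ext z
    simp only [Set.mem_ofPred_eq, Set.mem_pi, mem_univ, forall_true_left, mem_Ico, Int.floor_eq_iff]
  rw [this]
  exact convex_pi fun i _ => convex_Ico _ _

omit [Fintype ι] in
theorem bdCells_subset_frontier (A : Set (ι → ℝ)) : bdCells A ⊆ cellsMeeting (frontier A) := by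
  rintro u ⟨x, hx, y, hy, hxu, hyu⟩
  obtain ⟨z, hz, hzf⟩ := exists_mem_frontier_of_isPreconnected (convex_cell u).isPreconnected
    (x := x) (y := y) hxu hx hyu hy
  exact ⟨z, hzf, hz⟩

theorem frontier_smul_set {E : Type*} [NormedAddCommGroup E] [NormedSpace ℝ E] {r : ℝ}
    (hr : r ≠ 0) (D : Set E) : frontier (r • D) = r • frontier D := by
  have := (Homeomorph.smulOfNeZero r hr).image_frontier D
  simpa [Set.image_smul] using this.symm

omit [Fintype ι] in
theorem cellsMeeting_smul (r : ℝ) (S : Set (ι → ℝ)) :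
    cellsMeeting (r • S) = {v : ι → ℤ | ∃ x ∈ S, ∀ i, ⌊r * x i⌋ = v i} := by
  ext v
  constructor
  · rintro ⟨_, ⟨x, hx, rfl⟩, hv⟩
    exact ⟨x, hx, fun i => by simpa using hv i⟩
  · rintro ⟨x, hx, hv⟩
    exact ⟨r • x, Set.smul_mem_smul_set hx, fun i => by simpa using hv i⟩

/-- The key estimate in coordinates: refining the lattice by a factor `k` multiplies the number of
points in `r • D` by `k ^ d` up to an error `k ^ d * B * r ^ e`. -/
theorem exists_rate_coord {D : Set (ι → ℝ)} (hD : Bornology.IsBounded D) {e : ℕ}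
    (hthin : IsThin e (frontier D)) :
    ∃ B : ℝ, 0 ≤ B ∧ ∀ r : ℝ, 1 ≤ r → ∀ k : ℕ, 0 < k →
      |((ipts ((k * r : ℝ) • D)).ncard : ℝ) -
        (k : ℝ) ^ Fintype.card ι * ((ipts (r • D)).ncard : ℝ)| ≤
        (k : ℝ) ^ Fintype.card ι * (B * r ^ e) := by
  classical
  obtain ⟨B, hB0, hB⟩ := hthin.exists_card_floor_le
  refine ⟨B, hB0, fun r hr k hk => ?_⟩
  have hr0 : r ≠ 0 := (zero_lt_one.trans_le hr).ne'
  have hA : Bornology.IsBounded (r • D) := hD.smul₀ _
  have hbd : ((bdCells (r • D)).ncard : ℝ) ≤ B * r ^ e := by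
    have hsub : bdCells (r • D) ⊆ {v : ι → ℤ | ∃ x ∈ frontier D, ∀ i, ⌊r * x i⌋ = v i} := by
      rw [← cellsMeeting_smul, ← frontier_smul_set hr0]
      exact bdCells_subset_frontier _
    obtain ⟨hfin, hle⟩ := hB r hr
    calc ((bdCells (r • D)).ncard : ℝ)
        ≤ ({v : ι → ℤ | ∃ x ∈ frontier D, ∀ i, ⌊r * x i⌋ = v i}.ncard : ℝ) := by
          exact_mod_cast Set.ncard_le_ncard hsub hfin
      _ ≤ B * r ^ e := hle
  have hsm : ((k : ℝ) * r) • D = (k : ℝ) • (r • D) := by rw [smul_smul]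
  rw [hsm]
  have h1 := ncard_ipts_smul_le hA hk
  have h2 := ncard_ipts_smul_ge hA hk
  have h1' : ((ipts ((k : ℝ) • (r • D))).ncard : ℝ) ≤
      (k : ℝ) ^ Fintype.card ι * (((ipts (r • D)).ncard : ℝ) + (bdCells (r • D)).ncard) := by
    exact_mod_cast h1
  have h2' : (k : ℝ) ^ Fintype.card ι * ((ipts (r • D)).ncard : ℝ) ≤
      ((ipts ((k : ℝ) • (r • D))).ncard : ℝ) +
        (k : ℝ) ^ Fintype.card ι * (bdCells (r • D)).ncard := by
    exact_mod_cast h2
  have hk0 : (0 : ℝ) ≤ (k : ℝ) ^ Fintype.card ι := by positivity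
  have h3 : (k : ℝ) ^ Fintype.card ι * ((bdCells (r • D)).ncard : ℝ) ≤
      (k : ℝ) ^ Fintype.card ι * (B * r ^ e) := mul_le_mul_of_nonneg_left hbd hk0
  rw [abs_le]
  constructor <;> nlinarith

end coordinates

section general

open Module

variable {E : Type*} [NormedAddCommGroup E] [NormedSpace ℝ E] [FiniteDimensional ℝ E]
  (L : Submodule ℤ E) [DiscreteTopology L] [IsZLattice ℝ L]

theorem toR_injective {ι : Type*} : Function.Injective (toR : (ι → ℤ) → (ι → ℝ)) := by
  intro v w h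
  funext i
  have := congrFun h i
  simpa [toR] using this

theorem ncard_inter_lattice_eq {ι : Type*} [Fintype ι] (b : Basis ι ℤ L) (S : Set E) :
    (S ∩ (L : Set E)).ncard = (ipts ((b.ofZLatticeBasis ℝ L).equivFun '' S)).ncard := by
  set e := (b.ofZLatticeBasis ℝ L).equivFun with he
  have hinj : Function.Injective (fun v : ι → ℤ => e.symm (toR v)) :=
    e.symm.injective.comp toR_injective
  have hL : ∀ x : E, x ∈ L ↔ ∃ v : ι → ℤ, toR v = e x := by
    intro x
    rw [← b.ofZLatticeBasis_span ℝ, Basis.mem_span_iff_repr_mem]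
    constructor
    · intro h
      choose v hv using h
      exact ⟨v, funext fun i => by simpa [toR, he] using hv i⟩
    · rintro ⟨v, hv⟩ i
      exact ⟨v i, by simpa [toR, he] using congrFun hv i⟩
  have : S ∩ (L : Set E) = (fun v : ι → ℤ => e.symm (toR v)) '' ipts (e '' S) := by
    ext x
    constructor
    · rintro ⟨hxS, hxL⟩
      obtain ⟨v, hv⟩ := (hL x).1 hxL
      refine ⟨v, ?_, ?_⟩
      · change toR v ∈ e '' S
        rw [hv]
        exact Set.mem_image_of_mem _ hxS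
      · simp only [hv, LinearEquiv.symm_apply_apply]
    · rintro ⟨v, hv, rfl⟩
      obtain ⟨y, hy, hyv⟩ := hv
      simp only [← hyv, LinearEquiv.symm_apply_apply]
      exact ⟨hy, (hL y).2 ⟨v, hyv.symm⟩⟩
  rw [this, Set.ncard_image_of_injective _ hinj]

omit [FiniteDimensional ℝ E] in
theorem setOf_le_eq_smul {X : Set E} {F : E → ℝ} {d : ℕ}
    (hX : ∀ ⦃x⦄ ⦃r : ℝ⦄, x ∈ X → 0 < r → r • x ∈ X)
    (hF : ∀ x ⦃r : ℝ⦄, 0 ≤ r → F (r • x) = r ^ d * F x) {r : ℝ} (hr : 0 < r) :
    {x | x ∈ X ∧ F x ≤ r ^ d} = r • {x | x ∈ X ∧ F x ≤ 1} := by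
  ext x
  rw [Set.mem_smul_set_iff_inv_smul_mem₀ hr.ne']
  simp only [Set.mem_ofPred_eq]
  rw [hF x (inv_pos.2 hr).le, inv_pow, inv_mul_le_iff₀ (pow_pos hr d), mul_one]
  constructor
  · rintro ⟨h1, h2⟩
    exact ⟨hX h1 (inv_pos.2 hr), h2⟩
  · rintro ⟨h1, h2⟩
    refine ⟨?_, h2⟩
    have := hX h1 hr
    rwa [smul_inv_smul₀ hr.ne'] at this

/-- **C4c-B1**: lattice point counting with a power-saving error term. -/
theorem latticeCount_rate {X : Set E} {F : E → ℝ} {κ : ℝ}
    (hX : ∀ ⦃x⦄ ⦃r : ℝ⦄, x ∈ X → 0 < r → r • x ∈ X)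
    (hF : ∀ x ⦃r : ℝ⦄, 0 ≤ r → F (r • x) = r ^ Module.finrank ℝ E * F x)
    (hb : Bornology.IsBounded {x | x ∈ X ∧ F x ≤ 1})
    (hthin : IsThin (Module.finrank ℝ E - 1) (frontier {x | x ∈ X ∧ F x ≤ 1}))
    (hlim : Tendsto (fun c : ℝ => (Nat.card ({x | x ∈ X ∧ F x ≤ c} ∩ L : Set E) : ℝ) / c)
      atTop (𝓝 κ)) :
    ∃ B : ℝ, ∀ c : ℝ, 1 ≤ c →
      |(Nat.card ({x | x ∈ X ∧ F x ≤ c} ∩ L : Set E) : ℝ) - κ * c| ≤
        B * c ^ (1 - 1 / (Module.finrank ℝ E : ℝ)) := by
  classical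
  have : Module.Finite ℤ L := ZLattice.module_finite ℝ L
  have : Module.Free ℤ L := ZLattice.module_free ℝ L
  set d := Module.finrank ℝ E with hd
  rcases Nat.eq_zero_or_pos d with hd0 | hdpos
  · -- degenerate case: `E` is trivial
    have hsub : Subsingleton E := by
      rw [← Module.finrank_zero_iff (R := ℝ)]
      exact hd0
    have hle : ∀ c : ℝ, (Nat.card ({x | x ∈ X ∧ F x ≤ c} ∩ L : Set E) : ℝ) ≤ 1 := fun c => by
      have : Nat.card ({x | x ∈ X ∧ F x ≤ c} ∩ L : Set E) ≤ 1 :=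
        Finite.card_le_one_iff_subsingleton.2 inferInstance
      exact_mod_cast this
    have hκ : κ = 0 := by
      refine tendsto_nhds_unique hlim ?_
      refine squeeze_zero' (g := fun c : ℝ => 1 / c) ?_ ?_ (tendsto_const_nhds.div_atTop tendsto_id)
      · filter_upwards [eventually_gt_atTop 0] with c hc
        positivity
      · filter_upwards [eventually_gt_atTop 0] with c hc
        exact div_le_div_of_nonneg_right (hle c) hc.le
    refine ⟨1, fun c hc => ?_⟩
    rw [hκ, zero_mul, sub_zero, hd0]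
    simp only [Nat.cast_zero, div_zero, sub_zero, Real.rpow_one, one_mul]
    rw [abs_of_nonneg (Nat.cast_nonneg _)]
    exact (hle c).trans hc
  · set b := Module.Free.chooseBasis ℤ L with hbdef
    have hcard : Fintype.card (Module.Free.ChooseBasisIndex ℤ L) = d := by
      rw [← Module.finrank_eq_card_chooseBasisIndex, ZLattice.rank ℝ L]
    set e := (b.ofZLatticeBasis ℝ L).equivFunL with he
    set D := {x | x ∈ X ∧ F x ≤ 1} with hD
    have hbD' : Bornology.IsBounded (e '' D) := e.lipschitz.isBounded_image hb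
    have hthin' : IsThin (d - 1) (frontier (e '' D)) := by
      have h1 : frontier (e '' D) = e '' frontier D := (e.toHomeomorph.image_frontier D).symm
      rw [h1]
      exact hthin.image e.lipschitz.lipschitzOnWith
    obtain ⟨B, hB0, hB⟩ := exists_rate_coord hbD' hthin'
    rw [hcard] at hB
    -- the counting function
    set g : ℝ → ℝ := fun c => (Nat.card ({x | x ∈ X ∧ F x ≤ c} ∩ L : Set E) : ℝ) with hg
    have hgr : ∀ r : ℝ, 0 < r → g (r ^ d) = ((ipts (r • (e '' D))).ncard : ℝ) := by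
      intro r hr
      simp only [hg]
      rw [Nat.card_coe_set_eq, setOf_le_eq_smul hX hF hr, ncard_inter_lattice_eq L b]
      congr 3
      have : ∀ S : Set E, (b.ofZLatticeBasis ℝ L).equivFun '' S = e '' S := fun S => rfl
      rw [this]
      exact image_smul_set e r _
    refine ⟨B, fun c hc => ?_⟩
    have hc0 : 0 < c := zero_lt_one.trans_le hc
    set r : ℝ := c ^ ((d : ℝ)⁻¹) with hr
    have hr1 : 1 ≤ r := Real.one_le_rpow hc (by positivity)
    have hr0 : 0 < r := zero_lt_one.trans_le hr1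
    have hrd : r ^ d = c := Real.rpow_inv_natCast_pow hc0.le hdpos.ne'
    have hrd1 : r ^ (d - 1) = c ^ (1 - 1 / (d : ℝ)) := by
      rw [hr, ← Real.rpow_natCast, ← Real.rpow_mul hc0.le]
      congr 1
      rw [Nat.cast_sub hdpos]
      have : (d : ℝ) ≠ 0 := by exact_mod_cast hdpos.ne'
      field_simp
      simp
    -- estimate for all k
    have hk : ∀ k : ℕ, 0 < k →
        |g ((k : ℝ) ^ d * c) / ((k : ℝ) ^ d * c) - g c / c| ≤ B * r ^ (d - 1) / c := by
      intro k hk
      have hkr : 0 < (k : ℝ) * r := by positivity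
      have h1 := hB r hr1 k hk
      rw [← hgr _ hkr, ← hgr r hr0, mul_pow, hrd] at h1
      have hk0 : (0 : ℝ) < (k : ℝ) ^ d := by positivity
      have : g ((k : ℝ) ^ d * c) / ((k : ℝ) ^ d * c) - g c / c =
          (g ((k : ℝ) ^ d * c) - (k : ℝ) ^ d * g c) / ((k : ℝ) ^ d * c) := by
        field_simp
      rw [this, abs_div, abs_of_pos (mul_pos hk0 hc0), div_le_div_iff₀ (mul_pos hk0 hc0) hc0]
      calc |g ((k : ℝ) ^ d * c) - (k : ℝ) ^ d * g c| * c
          ≤ ((k : ℝ) ^ d * (B * r ^ (d - 1))) * c := mul_le_mul_of_nonneg_right h1 hc0.le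
        _ = B * r ^ (d - 1) * ((k : ℝ) ^ d * c) := by ring
    -- pass to the limit
    have hlim' : Tendsto (fun k : ℕ => g ((k : ℝ) ^ d * c) / ((k : ℝ) ^ d * c)) atTop (𝓝 κ) := by
      refine hlim.comp ?_
      refine Tendsto.atTop_mul_const hc0 ?_
      exact (tendsto_pow_atTop hdpos.ne').comp tendsto_natCast_atTop_atTop
    have hfin : |κ - g c / c| ≤ B * r ^ (d - 1) / c := by
      refine le_of_tendsto ((hlim'.sub_const _).abs) ?_
      filter_upwards [eventually_gt_atTop 0] with k hk0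
      exact hk k hk0
    rw [← hrd1]
    have : g c - κ * c = -(κ - g c / c) * c := by field_simp; ring
    rw [this, abs_mul, abs_neg, abs_of_pos hc0]
    calc |κ - g c / c| * c ≤ (B * r ^ (d - 1) / c) * c := mul_le_mul_of_nonneg_right hfin hc0.le
      _ = B * r ^ (d - 1) := by field_simp

end general

end Fermat.Agent.H68
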