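/-
S14 / C4c-B2 (helper68): the frontier of `normLeOne K` (the part of norm `≤ 1` of the fundamental
cone of a number field) is thin of exponent `[K:ℚ] - 1`, i.e. it is covered by `O(M^(n-1))` balls of
radius `1/M`.  This is the geometric input for counting ideals with a power-saving error term.
-/
import Fermat.Agent.H68.ThinSet

set_option autoImplicit false

namespace Fermat.Agent.H68

open NumberField NumberField.InfinitePlace NumberField.mixedEmbedding
  NumberField.mixedEmbedding.fundamentalCone NumberField.Units
  NumberField.Units.dirichletUnitTheorem Set Metric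

open scoped Classical

variable (K : Type*) [Field K] [NumberField K]

/-- sign attached to a boolean -/
def sgnB (b : Bool) : ℝ := if b then 1 else -1

/-- The parametrisation of (a set containing) the closure of `normLeOne K`. -/
noncomputable def paramMap (ε : {w : InfinitePlace K // IsReal w} → Bool) :
    ((ℝ × realSpace K) × ({w : InfinitePlace K // IsComplex w} → ℝ)) → mixedSpace K :=
  fun q => (fun w => sgnB (ε w) * (q.1.1 * expMapBasis q.1.2 w.1),
            fun w => ((q.1.1 * expMapBasis q.1.2 w.1 : ℝ) : ℂ) *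
              Complex.exp ((q.2 w : ℂ) * Complex.I))

theorem contDiff_expMapBasis_apply (w : InfinitePlace K) :
    ContDiff ℝ 1 (fun x : realSpace K => expMapBasis x w) := by
  have h : ∀ x : realSpace K, expMapBasis x w =
      Real.exp ((w.mult : ℝ)⁻¹ * ((completeBasis K).equivFunL.symm x) w) := fun x => rfl
  simp_rw [h]
  apply Real.contDiff_exp.comp
  apply ContDiff.mul contDiff_const
  exact (contDiff_apply ℝ ℝ w).comp (completeBasis K).equivFunL.symm.contDiff

theorem contDiff_paramMap (ε : {w : InfinitePlace K // IsReal w} → Bool) :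
    ContDiff ℝ 1 (paramMap K ε) := by
  have h1 : ∀ w : InfinitePlace K, ContDiff ℝ 1
      (fun q : (ℝ × realSpace K) × ({w : InfinitePlace K // IsComplex w} → ℝ) =>
        q.1.1 * expMapBasis q.1.2 w) := fun w =>
    (contDiff_fst.fst).mul ((contDiff_expMapBasis_apply K w).comp (contDiff_fst.snd))
  unfold paramMap
  apply ContDiff.prodMk
  · rw [contDiff_pi]
    intro w
    exact contDiff_const.mul (h1 w.1)
  · rw [contDiff_pi]
    intro w
    apply ContDiff.mul
    · exact Complex.ofRealCLM.contDiff.comp (h1 w.1)
    · apply Complex.contDiff_exp.comp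
      apply ContDiff.mul _ contDiff_const
      exact Complex.ofRealCLM.contDiff.comp ((contDiff_apply ℝ ℝ w).comp contDiff_snd)

/-- the bottom box of parameters -/
def box0 : Set (realSpace K) := Set.univ.pi fun w => if w = w₀ then {0} else Set.Icc 0 1

/-- the boundary part of the parameter set -/
def bdParam : Set (ℝ × realSpace K) :=
  {q | q.1 ∈ Icc (0 : ℝ) 1 ∧ q.2 ∈ box0 K ∧
    (q.1 = 0 ∨ q.1 = 1 ∨ ∃ w, w ≠ w₀ ∧ (q.2 w = 0 ∨ q.2 w = 1))}

/-- the box of angles -/
def angleBox : Set ({w : InfinitePlace K // IsComplex w} → ℝ) :=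
  Set.univ.pi fun _ => Icc (-Real.pi) Real.pi

theorem frontier_normLeOne_subset :
    frontier (normLeOne K) ⊆
      ⋃ ε : {w : InfinitePlace K // IsReal w} → Bool,
        paramMap K ε '' (bdParam K ×ˢ angleBox K) := by
  classical
  intro y hy
  rw [frontier, mem_sdiff] at hy
  obtain ⟨hy1, hy2⟩ := hy
  have h1 : normAtAllPlaces y ∈ compactSet K := closure_normLeOne_subset K hy1
  have h2 : normAtAllPlaces y ∉ expMapBasis '' interior (paramSet K) := fun h =>
    hy2 (subset_interior_normLeOne K h)
  obtain ⟨c, hc, a, ⟨x, hx, rfl⟩, hcx⟩ := h1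
  have hcx' : ∀ w, normAtAllPlaces y w = c * expMapBasis x w := fun w => by
    have := congrFun hcx w
    simpa using this.symm
  have hx0 : x w₀ = 0 := by
    have := hx w₀ (mem_univ _)
    simpa using this
  have hxw : ∀ w, w ≠ w₀ → x w ∈ Icc (0 : ℝ) 1 := fun w hw => by
    have := hx w (mem_univ _)
    simpa [hw] using this
  have hbd : (c, x) ∈ bdParam K := by
    refine ⟨hc, hx, ?_⟩
    by_contra hcon
    push Not at hcon
    obtain ⟨hc0, hc1, hw⟩ := hcon
    have hc0' : 0 < c := lt_of_le_of_ne hc.1 (Ne.symm hc0)
    have hc1' : c < 1 := lt_of_le_of_ne hc.2 hc1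
    apply h2
    refine ⟨fun w => if w = w₀ then Real.log c else x w, ?_, ?_⟩
    · rw [interior_paramSet, mem_univ_pi]
      intro w
      by_cases hww : w = w₀
      · simp only [hww, if_true, mem_Iio]
        exact Real.log_neg hc0' hc1'
      · simp only [hww, if_false]
        exact ⟨lt_of_le_of_ne (hxw w hww).1 (Ne.symm (hw w hww).1),
          lt_of_le_of_ne (hxw w hww).2 (hw w hww).2⟩
    · rw [expMapBasis_apply'']
      simp only [if_true, Real.exp_log hc0']
      have : (fun i => if i = w₀ then (0 : ℝ) else if i = w₀ then Real.log c else x i) = x := by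
        ext i
        by_cases hi : i = w₀
        · simp [hi, hx0]
        · simp [hi]
      rw [this]
      ext w
      rw [hcx' w]
      simp
  rw [mem_iUnion]
  refine ⟨fun w => decide (0 ≤ y.1 w), ((c, x), fun w => Complex.arg (y.2 w)), ⟨hbd, ?_⟩, ?_⟩
  · intro w _
    exact ⟨(Complex.neg_pi_lt_arg _).le, Complex.arg_le_pi _⟩
  · unfold paramMap
    refine Prod.ext ?_ ?_
    · funext w
      simp only
      rw [← hcx' w.1, normAtAllPlaces_apply, normAtPlace_apply_of_isReal w.2]
      by_cases h0 : 0 ≤ y.1 w
      · simp [sgnB, h0, abs_of_nonneg h0]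
      · simp [sgnB, h0, abs_of_neg (not_le.1 h0)]
    · funext w
      simp only
      rw [← hcx' w.1, normAtAllPlaces_apply, normAtPlace_apply_of_isComplex w.2]
      exact Complex.norm_mul_exp_arg_mul_I _


theorem isThin_box0 : IsThin (Fintype.card (InfinitePlace K) - 1) (box0 K) := by
  have h : ∀ w : InfinitePlace K, IsThin (if w = w₀ then 0 else 1)
      ((fun w => if w = w₀ then ({0} : Set ℝ) else Set.Icc 0 1) w) := fun w => by
    by_cases hw : w = w₀
    · simp only [hw, if_true]; exact isThin_singleton 0
    · simp only [hw, if_false]; exact isThin_Icc 0 1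
  have := IsThin.pi h
  refine this.mono_exp (le_of_eq ?_)
  rw [Finset.sum_ite, Finset.sum_const_zero, zero_add, Finset.sum_const, smul_eq_mul, mul_one,
    Finset.filter_not, Finset.card_sdiff_of_subset (Finset.subset_univ _), Finset.card_univ]
  congr 1
  rw [Finset.card_eq_one]
  exact ⟨w₀, by ext w; simp⟩

/-- a face of `box0` -/
def face0 (w : InfinitePlace K) (b : ℝ) : Set (realSpace K) :=
  Set.univ.pi fun w' => if w' = w₀ then {0} else if w' = w then {b} else Set.Icc 0 1

theorem isThin_face0 {w : InfinitePlace K} (hw : w ≠ w₀) (b : ℝ) :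
    IsThin (Fintype.card (InfinitePlace K) - 2) (face0 K w b) := by
  have h : ∀ w' : InfinitePlace K, IsThin (if w' = w₀ ∨ w' = w then 0 else 1)
      ((fun w' => if w' = w₀ then ({0} : Set ℝ) else if w' = w then {b} else Set.Icc 0 1) w') :=
    fun w' => by
    by_cases hw' : w' = w₀
    · simp only [hw', true_or, if_true]; exact isThin_singleton 0
    · by_cases hw'' : w' = w
      · simp only [hw'', hw, if_false, or_true, if_true]; exact isThin_singleton b
      · simp only [hw', hw'', if_false, or_self]; exact isThin_Icc 0 1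
  have := IsThin.pi h
  refine this.mono_exp (le_of_eq ?_)
  rw [Finset.sum_ite, Finset.sum_const_zero, zero_add, Finset.sum_const, smul_eq_mul, mul_one,
    Finset.filter_not, Finset.card_sdiff_of_subset (Finset.subset_univ _), Finset.card_univ]
  congr 1
  rw [Finset.card_eq_two]
  exact ⟨w₀, w, hw.symm, by ext w'; simp⟩

theorem two_le_card_of_ne {w : InfinitePlace K} (hw : w ≠ w₀) :
    2 ≤ Fintype.card (InfinitePlace K) := by
  have : ({w₀, w} : Finset (InfinitePlace K)).card = 2 := Finset.card_pair hw.symm
  rw [← this]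
  exact Finset.card_le_univ _

theorem isThin_bdParam : IsThin (Fintype.card (InfinitePlace K) - 1) (bdParam K) := by
  have h0 : IsThin (Fintype.card (InfinitePlace K) - 1) (({0} : Set ℝ) ×ˢ box0 K) := by
    have := (isThin_singleton (0 : ℝ)).prod (isThin_box0 K)
    rwa [zero_add] at this
  have h1 : IsThin (Fintype.card (InfinitePlace K) - 1) (({1} : Set ℝ) ×ˢ box0 K) := by
    have := (isThin_singleton (1 : ℝ)).prod (isThin_box0 K)
    rwa [zero_add] at this
  have h2 : ∀ (w : InfinitePlace K) (b : Bool), IsThin (Fintype.card (InfinitePlace K) - 1)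
      (if w = w₀ then (∅ : Set (ℝ × realSpace K)) else
        (Set.Icc (0 : ℝ) 1) ×ˢ face0 K w (if b then 1 else 0)) := fun w b => by
    by_cases hw : w = w₀
    · simp only [hw, if_true]; exact isThin_empty
    · simp only [hw, if_false]
      have := (isThin_Icc 0 1).prod (isThin_face0 K hw (if b then 1 else 0))
      refine this.mono_exp ?_
      have := two_le_card_of_ne K hw
      omega
  have h3 := (h0.union h1).union
    (IsThin.iUnion_fintype fun w : InfinitePlace K => IsThin.iUnion_fintype fun b : Bool => h2 w b)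
  refine h3.subset ?_
  rintro ⟨c, x⟩ ⟨hc, hx, h⟩
  simp only at hc hx h
  rcases h with h | h | ⟨w, hw, h⟩
  · exact Or.inl (Or.inl ⟨by simpa using h, hx⟩)
  · exact Or.inl (Or.inr ⟨by simpa using h, hx⟩)
  · refine Or.inr ?_
    rw [mem_iUnion]
    refine ⟨w, ?_⟩
    rw [mem_iUnion]
    rcases h with h | h
    · refine ⟨false, ?_⟩
      simp only [hw, if_false]
      refine ⟨hc, fun w' _ => ?_⟩
      have hx' := hx w' (mem_univ _)
      by_cases hw' : w' = w₀
      · simpa [hw'] using hx'
      · by_cases hw'' : w' = w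
        · subst hw''
          simp [hw, h]
        · simpa [hw', hw''] using hx'
    · refine ⟨true, ?_⟩
      simp only [hw, if_false]
      refine ⟨hc, fun w' _ => ?_⟩
      have hx' := hx w' (mem_univ _)
      by_cases hw' : w' = w₀
      · simpa [hw'] using hx'
      · by_cases hw'' : w' = w
        · subst hw''
          simp [hw, h]
        · simpa [hw', hw''] using hx'

theorem isThin_angleBox : IsThin (nrComplexPlaces K) (angleBox K) := by
  have := IsThin.pi (fun _ : {w : InfinitePlace K // IsComplex w} =>
    isThin_Icc (-Real.pi) Real.pi)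
  refine this.mono_exp (le_of_eq ?_)
  simp [nrComplexPlaces]

theorem isCompact_box0 : IsCompact (box0 K) := by
  refine isCompact_univ_pi fun w => ?_
  by_cases hw : w = w₀
  · simp only [hw, if_true]; exact isCompact_singleton
  · simp only [hw, if_false]; exact isCompact_Icc

theorem bdParam_subset : bdParam K ⊆ Set.Icc (0 : ℝ) 1 ×ˢ box0 K :=
  fun _ hq => ⟨hq.1, hq.2.1⟩

/-- **C4c-B2**: the frontier of `normLeOne K` is thin of exponent `[K:ℚ] - 1`. -/
theorem isThin_frontier_normLeOne :
    IsThin (Module.finrank ℚ K - 1) (frontier (normLeOne K)) := by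
  have hcard : Fintype.card (InfinitePlace K) - 1 + nrComplexPlaces K =
      Module.finrank ℚ K - 1 := by
    have h1 := card_eq_nrRealPlaces_add_nrComplexPlaces K
    have h2 := card_add_two_mul_card_eq_rank K
    have h3 : 0 < Fintype.card (InfinitePlace K) := Fintype.card_pos
    omega
  have hthin : IsThin (Module.finrank ℚ K - 1) (bdParam K ×ˢ angleBox K) := by
    rw [← hcard]
    exact (isThin_bdParam K).prod (isThin_angleBox K)
  have hcomp : IsCompact ((Set.Icc (0 : ℝ) 1 ×ˢ box0 K) ×ˢ angleBox K) :=
    (isCompact_Icc.prod (isCompact_box0 K)).prod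
      (isCompact_univ_pi fun _ => isCompact_Icc)
  refine (IsThin.iUnion_fintype fun ε : {w : InfinitePlace K // IsReal w} → Bool => ?_).subset
    (frontier_normLeOne_subset K)
  have hloc : LocallyLipschitzOn ((Set.Icc (0 : ℝ) 1 ×ˢ box0 K) ×ˢ angleBox K) (paramMap K ε) :=
    (contDiff_paramMap K ε).locallyLipschitz.locallyLipschitzOn
  obtain ⟨Λ, hΛ⟩ := hloc.exists_lipschitzOnWith_of_compact hcomp
  exact hthin.image (hΛ.mono (Set.prod_mono (bdParam_subset K) subset_rfl))

end Fermat.Agent.H68
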