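/-
S14 / C4c-B3 unconditional (helper68): glue of
* `Fermat.Agent.H68.latticeCount_rate` (B1),
* `Fermat.Agent.H68.isThin_frontier_normLeOne` (B2),
* `Fermat.Agent.H65.classCount_rate_of` (B3, conditional form by helper65).
-/
import Fermat.Agent.H68.LatticeCountRate
import Fermat.Agent.H68.NormLeOneThin
import Fermat.Agent.H65.S14_ClassCount

set_option autoImplicit false

namespace Fermat.Agent.H68

open NumberField NumberField.InfinitePlace NumberField.Units Ideal
open scoped nonZeroDivisors Real Classical

/-- **C4c-B3**: the number of nonzero integral ideals of norm `≤ x` in an ideal class `C` is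
`κ₀ x + O(x ^ (1 - 1/n))`, uniformly in `C`, with `κ₀` independent of `C`. -/
theorem exists_classCount_rate (K : Type*) [Field K] [NumberField K] :
    ∃ B : ℝ, ∀ (C : ClassGroup (𝓞 K)) (x : ℝ), 1 ≤ x →
      |(Nat.card {I : (Ideal (𝓞 K))⁰ //
          (absNorm (I : Ideal (𝓞 K)) : ℝ) ≤ x ∧ ClassGroup.mk0 I = C} : ℝ) -
        (2 ^ nrRealPlaces K * (2 * π) ^ nrComplexPlaces K * regulator K) /
          (torsionOrder K * Real.sqrt |discr K|) * x| ≤
        B * x ^ (1 - 1 / (Module.finrank ℚ K : ℝ)) :=
  Fermat.Agent.H65.classCount_rate_of (K := K)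
    (fun L _ _ _ _ _ hX hF hb hthin hlim => latticeCount_rate L hX hF hb hthin hlim)
    (isThin_frontier_normLeOne K)

end Fermat.Agent.H68
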