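/-
P-DIM (S20), subtask DIM-DUAL: the dual basis of cusp forms.
-/
import Mathlib
import Fermat.Agent.H19.Coset

set_option autoImplicit false
set_option linter.unusedSectionVars false
set_option linter.unusedVariables false

namespace Fermat.Agent.H68

open UpperHalfPlane ModularForm CongruenceSubgroup Filter Topology Fermat.Agent.H19
open scoped MatrixGroups Manifold

/-! ### Holomorphy of determinants and inverses of matrices of holomorphic functions -/

section holo

variable {ι : Type*} [Fintype ι] [DecidableEq ι]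

lemma mdiff_const (c : ℂ) : MDiff (fun _ : ℍ => c) := by
  rw [UpperHalfPlane.mdifferentiable_iff]
  exact differentiableOn_const c

lemma mdiff_mul {f g : ℍ → ℂ} (hf : MDiff f) (hg : MDiff g) : MDiff (fun z => f z * g z) := by
  rw [UpperHalfPlane.mdifferentiable_iff] at hf hg ⊢
  exact hf.mul hg

lemma mdiff_sum {κ : Type*} (s : Finset κ) {f : κ → ℍ → ℂ} (hf : ∀ i ∈ s, MDiff (f i)) :
    MDiff (fun z => ∑ i ∈ s, f i z) := by
  rw [UpperHalfPlane.mdifferentiable_iff]
  have : ((fun z => ∑ i ∈ s, f i z) ∘ ofComplex) = fun w => ∑ i ∈ s, (f i ∘ ofComplex) w := by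
    ext w; simp
  rw [this]
  exact DifferentiableOn.fun_sum fun i hi => UpperHalfPlane.mdifferentiable_iff.1 (hf i hi)

lemma mdiff_prod {κ : Type*} (s : Finset κ) {f : κ → ℍ → ℂ} (hf : ∀ i ∈ s, MDiff (f i)) :
    MDiff (fun z => ∏ i ∈ s, f i z) := by
  rw [UpperHalfPlane.mdifferentiable_iff]
  have : ((fun z => ∏ i ∈ s, f i z) ∘ ofComplex) = fun w => ∏ i ∈ s, (f i ∘ ofComplex) w := by
    ext w; simp
  rw [this]
  exact DifferentiableOn.fun_finsetProd fun i hi => UpperHalfPlane.mdifferentiable_iff.1 (hf i hi)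

lemma mdiff_inv {f : ℍ → ℂ} (hf : MDiff f) (h0 : ∀ z, f z ≠ 0) : MDiff (fun z => (f z)⁻¹) := by
  rw [UpperHalfPlane.mdifferentiable_iff] at hf ⊢
  have : ((fun z => (f z)⁻¹) ∘ ofComplex) = fun w => ((f ∘ ofComplex) w)⁻¹ := by
    ext w; simp
  rw [this]
  exact hf.inv fun w _ => h0 _

lemma mdiff_det {A : ℍ → Matrix ι ι ℂ} (hA : ∀ i j, MDiff (fun z => A z i j)) :
    MDiff (fun z => (A z).det) := by
  have : (fun z => (A z).det) =
      fun z => ∑ σ : Equiv.Perm ι, (((Equiv.Perm.sign σ : ℤ) : ℂ)) * ∏ i, A z (σ i) i := by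
    ext z
    rw [Matrix.det_apply']
  rw [this]
  refine mdiff_sum _ fun σ _ => mdiff_mul (mdiff_const _) (mdiff_prod _ fun i _ => hA _ _)

lemma mdiff_inv_apply {A : ℍ → Matrix ι ι ℂ} (hA : ∀ i j, MDiff (fun z => A z i j))
    (hdet : ∀ z, (A z).det ≠ 0) (i j : ι) : MDiff (fun z => (A z)⁻¹ i j) := by
  have : (fun z => (A z)⁻¹ i j) =
      fun z => ((A z).det)⁻¹ * ((A z).updateRow j (Pi.single i 1)).det := by
    ext z
    rw [Matrix.inv_def, Matrix.smul_apply, Matrix.adjugate_apply, Ring.inverse_eq_inv', smul_eq_mul]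
  rw [this]
  refine mdiff_mul (mdiff_inv (mdiff_det hA) hdet) (mdiff_det fun a b => ?_)
  by_cases hab : a = j
  · subst hab
    simp only [Matrix.updateRow_self]
    exact mdiff_const _
  · simp only [Matrix.updateRow_ne hab]
    exact hA a b

end holo

/-! ### The matrix `Θ = Δ • Φ⁻¹` -/

section dual

variable {N : ℕ} [NeZero N] {k : Q N → ℤ} {f : Q N → ℍ → ℂ}

/-- `Θ(z) = Δ(z) • Φ(z)⁻¹`. -/
noncomputable def Theta (N : ℕ) [NeZero N] (k : Q N → ℤ) (f : Q N → ℍ → ℂ) (z : ℍ) :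
    Matrix (Q N) (Q N) ℂ :=
  ModularForm.discriminant z • (Phi N k f z)⁻¹

lemma Theta_apply (z : ℍ) (j q : Q N) :
    Theta N k f z j q = ModularForm.discriminant z * (Phi N k f z)⁻¹ j q := by
  simp [Theta]

lemma discriminant_smul (h : SL(2, ℤ)) (z : ℍ) :
    ModularForm.discriminant (h • z) = (denom h z) ^ (12 : ℤ) * ModularForm.discriminant z := by
  have h1 : (ModularForm.discriminant ∣[(12 : ℤ)] h) = ModularForm.discriminant :=
    SlashInvariantForm.slash_action_generators_SL2Z ModularForm.discriminant_S_invariant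
      ModularForm.discriminant_T_invariant h
  have h2 := congrFun h1 z
  rw [SL_slash_apply] at h2
  have hd : denom h z ≠ 0 := denom_ne_zero _ z
  rw [← h2, mul_comm, mul_assoc, ← zpow_add₀ hd]
  simp

lemma Phi_smul (hf : ∀ j, IsMF N (k j) (f j)) (h : SL(2, ℤ)) (z : ℍ) (q j : Q N) :
    Phi N k f (h • z) q j = (denom h z) ^ (k j) * Phi N k f z (h⁻¹ • q) j := by
  simp only [Phi, Matrix.of_apply]
  exact cosetFun_apply_smul (hf j).inv q h z

lemma Phi_mul_inv (hdet : ∀ z : ℍ, (Phi N k f z).det ≠ 0) (z : ℍ) :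
    Phi N k f z * (Phi N k f z)⁻¹ = 1 :=
  Matrix.mul_nonsing_inv _ (isUnit_iff_ne_zero.2 (hdet z))

lemma Phi_inv_mul (hdet : ∀ z : ℍ, (Phi N k f z).det ≠ 0) (z : ℍ) :
    (Phi N k f z)⁻¹ * Phi N k f z = 1 :=
  Matrix.nonsing_inv_mul _ (isUnit_iff_ne_zero.2 (hdet z))

lemma Phi_inv_smul (hf : ∀ j, IsMF N (k j) (f j)) (hdet : ∀ z : ℍ, (Phi N k f z).det ≠ 0)
    (h : SL(2, ℤ)) (z : ℍ) (j q : Q N) :
    (Phi N k f (h • z))⁻¹ j q = (denom h z) ^ (-(k j)) * (Phi N k f z)⁻¹ j (h⁻¹ • q) := by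
  have hd : denom h z ≠ 0 := denom_ne_zero _ z
  let M : Matrix (Q N) (Q N) ℂ :=
    Matrix.of fun j q => (denom h z) ^ (-(k j)) * (Phi N k f z)⁻¹ j (h⁻¹ • q)
  have hM : M * Phi N k f (h • z) = 1 := by
    ext j j'
    rw [Matrix.mul_apply]
    have e1 : ∀ q, M j q * Phi N k f (h • z) q j' =
        (denom h z) ^ (-(k j)) * (denom h z) ^ (k j') *
          ((Phi N k f z)⁻¹ j (h⁻¹ • q) * Phi N k f z (h⁻¹ • q) j') := by
      intro q
      simp only [M, Matrix.of_apply]
      rw [Phi_smul hf]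
      ring
    simp_rw [e1]
    rw [← Finset.mul_sum]
    have e2 : ∑ q : Q N, (Phi N k f z)⁻¹ j (h⁻¹ • q) * Phi N k f z (h⁻¹ • q) j' =
        ∑ q : Q N, (Phi N k f z)⁻¹ j q * Phi N k f z q j' :=
      Fintype.sum_equiv (MulAction.toPerm h⁻¹) _ _ fun q => rfl
    rw [e2, ← Matrix.mul_apply, Phi_inv_mul hdet]
    by_cases hjj : j = j'
    · subst hjj
      rw [Matrix.one_apply_eq, mul_one, ← zpow_add₀ hd]
      simp
    · rw [Matrix.one_apply_ne hjj, mul_zero]
  rw [Matrix.inv_eq_left_inv hM]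
  simp [M]

lemma Theta_smul (hf : ∀ j, IsMF N (k j) (f j)) (hdet : ∀ z : ℍ, (Phi N k f z).det ≠ 0)
    (h : SL(2, ℤ)) (z : ℍ) (j q : Q N) :
    Theta N k f (h • z) j q = (denom h z) ^ (12 - k j) * Theta N k f z j (h⁻¹ • q) := by
  have hd : denom h z ≠ 0 := denom_ne_zero _ z
  rw [Theta_apply, Theta_apply, discriminant_smul, Phi_inv_smul hf hdet, sub_eq_add_neg,
    zpow_add₀ hd]
  ring

/-- The entry `z ↦ Θ(z) j q` as a function. -/
noncomputable def thetaFun (N : ℕ) [NeZero N] (k : Q N → ℤ) (f : Q N → ℍ → ℂ) (j q : Q N) :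
    ℍ → ℂ := fun z => Theta N k f z j q

lemma thetaFun_slash (hf : ∀ j, IsMF N (k j) (f j)) (hdet : ∀ z : ℍ, (Phi N k f z).det ≠ 0)
    (h : SL(2, ℤ)) (j q : Q N) :
    (thetaFun N k f j q) ∣[12 - k j] h = thetaFun N k f j (h⁻¹ • q) := by
  ext z
  have hd : denom h z ≠ 0 := denom_ne_zero _ z
  rw [SL_slash_apply]
  simp only [thetaFun]
  rw [Theta_smul hf hdet, mul_comm, ← mul_assoc, ← zpow_add₀ hd]
  simp

lemma thetaFun_mdiff (hf : ∀ j, IsMF N (k j) (f j)) (hdet : ∀ z : ℍ, (Phi N k f z).det ≠ 0)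
    (j q : Q N) : MDiff (thetaFun N k f j q) := by
  have hΔ : MDiff (fun z : ℍ => ModularForm.discriminant z) := by
    have := CuspForm.discriminant.holo'
    exact this
  have hinv : MDiff (fun z => (Phi N k f z)⁻¹ j q) :=
    mdiff_inv_apply (A := fun z => Phi N k f z)
      (fun a b => by
        simp only [Phi, Matrix.of_apply]
        exact (hf b).cosetFun_mdiff a) hdet j q
  have e : thetaFun N k f j q = fun z => ModularForm.discriminant z * (Phi N k f z)⁻¹ j q := by
    ext z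
    exact Theta_apply z j q
  rw [e]
  exact mdiff_mul hΔ hinv

/-- The base coset `Γ₀(N)`. -/
noncomputable def q0 (N : ℕ) : Q N := ((1 : SL(2, ℤ)) : Q N)

lemma smul_q0 (g : SL(2, ℤ)) : g • q0 N = (g : Q N) := by
  have : g • q0 N = ((g * 1 : SL(2, ℤ)) : Q N) := rfl
  rw [this, mul_one]

lemma smul_q0_of_mem {γ : SL(2, ℤ)} (hγ : γ ∈ Gamma0 N) : γ • q0 N = q0 N := by
  rw [smul_q0, q0, QuotientGroup.eq]
  simpa using inv_mem hγ

/-- The dual cusp forms `g_j(z) = Θ(z) j q₀`. -/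
noncomputable def dualForm (N : ℕ) [NeZero N] (k : Q N → ℤ) (f : Q N → ℍ → ℂ) (j : Q N) :
    ℍ → ℂ := thetaFun N k f j (q0 N)

lemma dualForm_slash (hf : ∀ j, IsMF N (k j) (f j)) (hdet : ∀ z : ℍ, (Phi N k f z).det ≠ 0)
    (h : SL(2, ℤ)) (j : Q N) :
    (dualForm N k f j) ∣[12 - k j] h = thetaFun N k f j ((h⁻¹ : SL(2, ℤ)) : Q N) := by
  rw [dualForm, thetaFun_slash hf hdet, smul_q0]

lemma dualForm_inv (hf : ∀ j, IsMF N (k j) (f j)) (hdet : ∀ z : ℍ, (Phi N k f z).det ≠ 0)
    (j : Q N) : ∀ γ ∈ Gamma0 N, (dualForm N k f j) ∣[12 - k j] γ = dualForm N k f j := by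
  intro γ hγ
  rw [dualForm, thetaFun_slash hf hdet, smul_q0_of_mem (inv_mem hγ)]

lemma cosetFun_dualForm (hf : ∀ j, IsMF N (k j) (f j)) (hdet : ∀ z : ℍ, (Phi N k f z).det ≠ 0)
    (j q : Q N) : cosetFun N (12 - k j) (dualForm N k f j) q = thetaFun N k f j q := by
  induction q using QuotientGroup.induction_on with
  | H a =>
    rw [cosetFun_mk (dualForm_inv hf hdet j), dualForm_slash hf hdet, inv_inv]

lemma thetaFun_eq (j q : Q N) :
    thetaFun N k f j q = fun z => ModularForm.discriminant z * (Phi N k f z)⁻¹ j q := by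
  ext z
  exact Theta_apply z j q

lemma dualForm_isCF (hf : ∀ j, IsMF N (k j) (f j)) (hdet : ∀ z : ℍ, (Phi N k f z).det ≠ 0)
    (hzero : ∀ j q : Q N,
      IsZeroAtImInfty (fun z => ModularForm.discriminant z * (Phi N k f z)⁻¹ j q))
    (j : Q N) : IsCF N (12 - k j) (dualForm N k f j) where
  holo := thetaFun_mdiff hf hdet j _
  inv := dualForm_inv hf hdet j
  zero g := by
    rw [dualForm_slash hf hdet, thetaFun_eq]
    exact hzero j _

lemma Theta_mul_Phi (hdet : ∀ z : ℍ, (Phi N k f z).det ≠ 0) (z : ℍ) :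
    Theta N k f z * Phi N k f z = ModularForm.discriminant z • (1 : Matrix (Q N) (Q N) ℂ) := by
  rw [Theta, Matrix.smul_mul, Phi_inv_mul hdet]

lemma Phi_mul_Theta (hdet : ∀ z : ℍ, (Phi N k f z).det ≠ 0) (z : ℍ) :
    Phi N k f z * Theta N k f z = ModularForm.discriminant z • (1 : Matrix (Q N) (Q N) ℂ) := by
  rw [Theta, Matrix.mul_smul, Phi_mul_inv hdet]

/-- **DIM-DUAL**, with the two facts of DIM-TRACE as explicit hypotheses. -/
theorem dual_basis_of_trace (N : ℕ) [NeZero N] {k : Q N → ℤ} {f : Q N → ℍ → ℂ}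
    (hTr : ∀ (K m : ℤ) (φ ψ : ℍ → ℂ), IsCF N K φ → IsMF N m ψ →
      IsCF 1 (K + m) (∑ q : Q N, cosetFun N K φ q * cosetFun N m ψ q))
    (hDiv : ∀ (K : ℤ) (φ : ℍ → ℂ), IsCF 1 K φ →
      ∃ r, IsMF 1 (K - 12) r ∧ ∀ z, φ z = ModularForm.discriminant z * r z)
    (h : IsGens N (Q N) k f)
    (hdet : ∀ z : ℍ, (Phi N k f z).det ≠ 0)
    (hzero : ∀ j q : Q N,
      IsZeroAtImInfty (fun z => ModularForm.discriminant z * (Phi N k f z)⁻¹ j q)) :
    ∃ g : Q N → ℍ → ℂ, (∀ j, IsCF N (12 - k j) (g j)) ∧ (∀ j, g j ≠ 0) ∧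
      (∀ (K : ℤ) (ψ : ℍ → ℂ), IsCF N K ψ →
        ∃ r : Q N → ℍ → ℂ, (∀ j, IsMF 1 (K - 12 + k j) (r j)) ∧ ψ = ∑ j, r j * g j) ∧
      (∀ (K : ℤ) (r : Q N → ℍ → ℂ), (∀ j, IsMF 1 (K - 12 + k j) (r j)) →
        ∑ j, r j * g j = 0 → ∀ j, r j = 0) := by
  have hf := h.isMF
  refine ⟨dualForm N k f, dualForm_isCF hf hdet hzero, ?_, ?_, ?_⟩
  · -- nonvanishing
    intro j hj
    have hΔ : ModularForm.discriminant UpperHalfPlane.I ≠ 0 :=
      ModularForm.discriminant_ne_zero _
    have hrow : ∀ q, Theta N k f UpperHalfPlane.I j q = 0 := by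
      intro q
      have := congrFun (cosetFun_dualForm hf hdet j q) UpperHalfPlane.I
      rw [hj, cosetFun_zero] at this
      simpa [thetaFun] using this.symm
    have := congrFun (congrFun (Theta_mul_Phi (k := k) (f := f) hdet UpperHalfPlane.I) j) j
    rw [Matrix.mul_apply] at this
    simp only [hrow, zero_mul, Finset.sum_const_zero, Matrix.smul_apply, Matrix.one_apply_eq,
      smul_eq_mul, mul_one] at this
    exact hΔ this.symm
  · -- spanning
    intro K ψ hψ
    have hT : ∀ j, ∃ r, IsMF 1 (K + k j - 12) r ∧ ∀ z,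
        (∑ q : Q N, cosetFun N K ψ q * cosetFun N (k j) (f j) q) z =
          ModularForm.discriminant z * r z := fun j =>
      hDiv _ _ (hTr K (k j) ψ (f j) hψ (hf j))
    choose r hr1 hr2 using hT
    refine ⟨r, fun j => ?_, ?_⟩
    · have e : K + k j - 12 = K - 12 + k j := by ring
      exact e ▸ hr1 j
    · ext z
      have hψ0 : ψ z = cosetFun N K ψ (q0 N) z := by
        rw [q0, cosetFun_one hψ.inv]
      -- row vector identity
      have hrow : ∀ j, ∑ q : Q N, cosetFun N K ψ q z * Phi N k f z q j =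
          ModularForm.discriminant z * r j z := by
        intro j
        rw [← hr2 j]
        simp [Phi, Finset.sum_apply]
      have hΔ : ModularForm.discriminant z ≠ 0 := ModularForm.discriminant_ne_zero _
      have key : ∀ q₁ : Q N, ∑ j, r j z * Theta N k f z j q₁ = cosetFun N K ψ q₁ z := by
        intro q₁
        have e1 : ∀ j, r j z * Theta N k f z j q₁ =
            (∑ q : Q N, cosetFun N K ψ q z * Phi N k f z q j) * (Phi N k f z)⁻¹ j q₁ := by
          intro j
          rw [hrow j, Theta_apply]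
          ring
        simp_rw [e1, Finset.sum_mul]
        rw [Finset.sum_comm]
        have e2 : ∀ q : Q N, ∑ j, cosetFun N K ψ q z * Phi N k f z q j * (Phi N k f z)⁻¹ j q₁ =
            cosetFun N K ψ q z * (1 : Matrix (Q N) (Q N) ℂ) q q₁ := by
          intro q
          simp_rw [mul_assoc]
          rw [← Finset.mul_sum, ← Matrix.mul_apply, Phi_mul_inv hdet]
        simp_rw [e2]
        simp [Matrix.one_apply]
      rw [hψ0, ← key]
      simp [dualForm, thetaFun, Finset.sum_apply]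
  · -- uniqueness
    intro K r hr hsum j
    ext z
    have hΔ : ModularForm.discriminant z ≠ 0 := ModularForm.discriminant_ne_zero _
    have hq : ∀ q : Q N, ∑ j, r j z * Theta N k f z j q = 0 := by
      intro q
      have h1 : cosetFun N K (∑ j, r j * dualForm N k f j) q = 0 := by
        rw [hsum, cosetFun_zero]
      rw [cosetFun_sum] at h1
      have h2 : ∀ j, cosetFun N K (r j * dualForm N k f j) q = r j * thetaFun N k f j q := by
        intro j
        have e : K = (K - 12 + k j) + (12 - k j) := by ring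
        have := cosetFun_mul (N := N) (k := 12 - k j) (φ := dualForm N k f j) (hr j) q
        rw [← e, cosetFun_dualForm hf hdet] at this
        exact this
      simp_rw [h2] at h1
      have := congrFun h1 z
      simpa [thetaFun, Finset.sum_apply] using this
    -- multiply by Φ on the right
    have h3 : ∑ q : Q N, (∑ j', r j' z * Theta N k f z j' q) * Phi N k f z q j = 0 := by
      simp [hq]
    have h4 : ∑ q : Q N, (∑ j', r j' z * Theta N k f z j' q) * Phi N k f z q j =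
        ModularForm.discriminant z * r j z := by
      simp_rw [Finset.sum_mul]
      rw [Finset.sum_comm]
      have e2 : ∀ j' : Q N, ∑ q, r j' z * Theta N k f z j' q * Phi N k f z q j =
          r j' z * (ModularForm.discriminant z • (1 : Matrix (Q N) (Q N) ℂ)) j' j := by
        intro j'
        simp_rw [mul_assoc]
        rw [← Finset.mul_sum, ← Matrix.mul_apply, Theta_mul_Phi hdet]
      simp_rw [e2]
      simp [Matrix.one_apply, mul_comm]
    rw [h4] at h3
    simpa [hΔ] using h3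

end dual

end Fermat.Agent.H68
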