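/-
P-DIM (S20), subtask DIM-DUAL: the dual basis of cusp forms (final statement).
-/
import Fermat.Agent.H68.DimDual
import Fermat.Agent.H82.Trace

set_option autoImplicit false

namespace Fermat.Agent.H68

open UpperHalfPlane ModularForm CongruenceSubgroup Filter Topology Fermat.Agent.H19
open scoped MatrixGroups Manifold

/-- **DIM-DUAL**: the rows of `Δ • Φ⁻¹` give a free generating system of the cusp forms on
`Γ₀(N)` over the level-one forms. -/
theorem dual_basis (N : ℕ) [NeZero N] {k : Q N → ℤ} {f : Q N → ℍ → ℂ} (h : IsGens N (Q N) k f)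
    (hdet : ∀ z : ℍ, (Phi N k f z).det ≠ 0)
    (hzero : ∀ j q : Q N,
      IsZeroAtImInfty (fun z => ModularForm.discriminant z * (Phi N k f z)⁻¹ j q)) :
    ∃ g : Q N → ℍ → ℂ, (∀ j, IsCF N (12 - k j) (g j)) ∧ (∀ j, g j ≠ 0) ∧
      (∀ (K : ℤ) (ψ : ℍ → ℂ), IsCF N K ψ →
        ∃ r : Q N → ℍ → ℂ, (∀ j, IsMF 1 (K - 12 + k j) (r j)) ∧ ψ = ∑ j, r j * g j) ∧
      (∀ (K : ℤ) (r : Q N → ℍ → ℂ), (∀ j, IsMF 1 (K - 12 + k j) (r j)) →
        ∑ j, r j * g j = 0 → ∀ j, r j = 0) :=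
  dual_basis_of_trace N
    (fun _ _ _ _ hφ hψ => Fermat.Agent.H82.isCF_trace hφ hψ)
    (fun _ _ hφ => Fermat.Agent.H82.isCF_one_div_discriminant hφ) h hdet hzero

end Fermat.Agent.H68
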