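/-
helper68 (P-PET row 371, PTS-Q): `Fermat.Agent.H30.NFSeparationStatement`.

A reduced commutative ring `𝕋` which is a finitely generated torsion-free `ℤ`-module has
finitely many points `φ_I : 𝕋 → 𝓞 (E_I)` in rings of integers of number fields which detect
divisibility by integers up to a bounded factor `c`.

Proof: `A := ℚ ⊗ 𝕋` is a reduced Artinian ring, hence the product of its residue fields
`E_I = A / I` (`IsArtinianRing.equivPi`), which are number fields; `∏ 𝓞 (E_I)` is a finitely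
generated `ℤ`-module, and every element of `A` has a nonzero integer multiple in the image of `𝕋`.
-/
import Mathlib
import Fermat.Agent.H30.PointsInterfaces

set_option autoImplicit false
set_option linter.style.haveILetI false
set_option linter.unusedSectionVars false
set_option linter.unreachableTactic false
set_option linter.unusedTactic false

noncomputable section

open scoped NumberField TensorProduct

namespace Fermat.Agent.H68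

section

variable (𝕋 : Type) [CommRing 𝕋]

/-- The map `𝕋 → ℚ ⊗ 𝕋`. -/
def nfsIncl : 𝕋 →+* ℚ ⊗[ℤ] 𝕋 :=
  (Algebra.TensorProduct.includeRight : 𝕋 →ₐ[ℤ] ℚ ⊗[ℤ] 𝕋).toRingHom

theorem nfsIncl_apply (t : 𝕋) : nfsIncl 𝕋 t = (1 : ℚ) ⊗ₜ[ℤ] t := rfl

theorem nfsIncl_injective [IsAddTorsionFree 𝕋] : Function.Injective (nfsIncl 𝕋) :=
  Algebra.TensorProduct.includeRight_injective (by exact (algebraMap ℤ ℚ).injective_int)

/-- Every element of `ℚ ⊗ 𝕋` has a nonzero integer multiple in the image of `𝕋`. -/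
theorem nfs_exists_denom (a : ℚ ⊗[ℤ] 𝕋) :
    ∃ n : ℤ, n ≠ 0 ∧ ∃ s : 𝕋, (n : ℚ ⊗[ℤ] 𝕋) * a = nfsIncl 𝕋 s := by
  induction a using TensorProduct.induction_on with
  | zero => exact ⟨1, one_ne_zero, 0, by simp⟩
  | tmul q t =>
    refine ⟨q.den, by exact_mod_cast q.den_ne_zero, q.num • t, ?_⟩
    rw [nfsIncl_apply, Algebra.TensorProduct.intCast_def, Algebra.TensorProduct.tmul_mul_tmul,
      one_mul, ← TensorProduct.smul_tmul, zsmul_one]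
    congr 1
    have := Rat.mul_den_eq_num q
    push_cast
    rw [mul_comm]
    exact this
  | add x y hx hy =>
    obtain ⟨n, hn, s, hs⟩ := hx
    obtain ⟨m, hm, r, hr⟩ := hy
    refine ⟨n * m, mul_ne_zero hn hm, (m : 𝕋) * s + (n : 𝕋) * r, ?_⟩
    have e1 : ((n * m : ℤ) : ℚ ⊗[ℤ] 𝕋) * (x + y)
        = (m : ℚ ⊗[ℤ] 𝕋) * ((n : ℚ ⊗[ℤ] 𝕋) * x) + (n : ℚ ⊗[ℤ] 𝕋) * ((m : ℚ ⊗[ℤ] 𝕋) * y) := by
      push_cast
      ring
    rw [e1, hs, hr, map_add, map_mul, map_mul, map_intCast, map_intCast]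

theorem nfs_isReduced [IsReduced 𝕋] [IsAddTorsionFree 𝕋] : IsReduced (ℚ ⊗[ℤ] 𝕋) := by
  constructor
  intro a ha
  obtain ⟨n, hn, s, hs⟩ := nfs_exists_denom 𝕋 a
  have h1 : IsNilpotent (nfsIncl 𝕋 s) := by
    rw [← hs]
    exact (Commute.all _ _).isNilpotent_mul_left ha
  have h2 : IsNilpotent s := (IsNilpotent.map_iff (nfsIncl_injective 𝕋)).1 h1
  have h3 : s = 0 := h2.eq_zero
  rw [h3, map_zero] at hs
  have h4 : (n : ℚ) • a = 0 := by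
    rw [Int.cast_smul_eq_zsmul, zsmul_eq_mul]
    exact hs
  rcases smul_eq_zero.1 h4 with h | h
  · exact absurd (by exact_mod_cast h) hn
  · exact h

/-- The residue field at a maximal ideal of `ℚ ⊗ 𝕋`. -/
abbrev nfsE (I : MaximalSpectrum (ℚ ⊗[ℤ] 𝕋)) : Type := (ℚ ⊗[ℤ] 𝕋) ⧸ I.asIdeal

/-- The field structure on the residue field. -/
@[reducible] def nfsField (I : MaximalSpectrum (ℚ ⊗[ℤ] 𝕋)) : Field (nfsE 𝕋 I) :=
  Ideal.Quotient.field I.asIdeal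

theorem nfsNumberField [Module.Finite ℤ 𝕋] (I : MaximalSpectrum (ℚ ⊗[ℤ] 𝕋)) :
    @NumberField (nfsE 𝕋 I) (nfsField 𝕋 I) := by
  letI : Field (nfsE 𝕋 I) := nfsField 𝕋 I
  haveI hc : CharZero (nfsE 𝕋 I) := charZero_of_injective_ringHom
      ((Ideal.Quotient.mk I.asIdeal).comp (algebraMap ℚ (ℚ ⊗[ℤ] 𝕋))).injective
  refine @NumberField.mk _ _ hc ?_
  let f := @RingHom.toRatAlgHom (ℚ ⊗[ℤ] 𝕋) (nfsE 𝕋 I) _ _ _ DivisionRing.toRatAlgebra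
    (Ideal.Quotient.mk I.asIdeal)
  have hf : Function.Surjective f.toLinearMap :=
    Ideal.Quotient.mk_surjective (I := I.asIdeal)
  exact @Module.Finite.of_surjective ℚ (ℚ ⊗[ℤ] 𝕋) _ _ _ ℚ (nfsE 𝕋 I) _ _
    (@Algebra.toModule _ _ _ _ DivisionRing.toRatAlgebra) _ inferInstance f.toLinearMap hf

/-- The ring of integers of the residue field. -/
abbrev nfsO (I : MaximalSpectrum (ℚ ⊗[ℤ] 𝕋)) : Type :=
  @NumberField.RingOfIntegers (nfsE 𝕋 I) (nfsField 𝕋 I)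

/-- The ring homomorphism `𝕋 → E_I`. -/
def nfsHomE (I : MaximalSpectrum (ℚ ⊗[ℤ] 𝕋)) : 𝕋 →+* nfsE 𝕋 I :=
  (Ideal.Quotient.mk I.asIdeal).comp (nfsIncl 𝕋)

theorem nfsHomE_isIntegral [Module.Finite ℤ 𝕋] (I : MaximalSpectrum (ℚ ⊗[ℤ] 𝕋)) (t : 𝕋) :
    IsIntegral ℤ (nfsHomE 𝕋 I t) :=
  map_isIntegral_int (nfsHomE 𝕋 I) (IsIntegral.of_finite ℤ t)

/-- The point `𝕋 → 𝓞 (E_I)`. -/
def nfsHom [Module.Finite ℤ 𝕋] (I : MaximalSpectrum (ℚ ⊗[ℤ] 𝕋)) : 𝕋 →+* nfsO 𝕋 I :=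
  letI : Field (nfsE 𝕋 I) := nfsField 𝕋 I
  { toFun := fun t => ⟨nfsHomE 𝕋 I t, nfsHomE_isIntegral 𝕋 I t⟩
    map_one' := by
      apply NumberField.RingOfIntegers.ext
      first | rfl | (simp; done) | (simp; rfl)
    map_mul' := fun x y => by
      apply NumberField.RingOfIntegers.ext
      first | rfl | (simp; done) | (simp; rfl)
    map_zero' := by
      apply NumberField.RingOfIntegers.ext
      first | rfl | (simp; done) | (simp; rfl)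
    map_add' := fun x y => by
      apply NumberField.RingOfIntegers.ext
      first | rfl | (simp; done) | (simp; rfl) }

/-- Coercion `𝓞 (E_I) → E_I`. -/
def nfsCoe (I : MaximalSpectrum (ℚ ⊗[ℤ] 𝕋)) : nfsO 𝕋 I →+* nfsE 𝕋 I :=
  letI : Field (nfsE 𝕋 I) := nfsField 𝕋 I
  algebraMap (𝓞 (nfsE 𝕋 I)) (nfsE 𝕋 I)

theorem nfsCoe_injective (I : MaximalSpectrum (ℚ ⊗[ℤ] 𝕋)) :
    Function.Injective (nfsCoe 𝕋 I) :=
  letI : Field (nfsE 𝕋 I) := nfsField 𝕋 I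
  NumberField.RingOfIntegers.coe_injective

theorem nfsCoe_nfsHom [Module.Finite ℤ 𝕋] (I : MaximalSpectrum (ℚ ⊗[ℤ] 𝕋)) (t : 𝕋) :
    nfsCoe 𝕋 I (nfsHom 𝕋 I t) = Ideal.Quotient.mk I.asIdeal (nfsIncl 𝕋 t) := rfl

/-- The number-field point attached to a maximal ideal of `ℚ ⊗ 𝕋`. -/
def nfsPoint [Module.Finite ℤ 𝕋] (I : MaximalSpectrum (ℚ ⊗[ℤ] 𝕋)) :
    Fermat.Agent.H30.NFPoint 𝕋 :=
  @Fermat.Agent.H30.NFPoint.mk 𝕋 _ (nfsE 𝕋 I) (nfsField 𝕋 I) (nfsNumberField 𝕋 I) (nfsHom 𝕋 I)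

theorem nfsFiniteO [Module.Finite ℤ 𝕋] (I : MaximalSpectrum (ℚ ⊗[ℤ] 𝕋)) :
    Module.Finite ℤ (nfsO 𝕋 I) :=
  letI : Field (nfsE 𝕋 I) := nfsField 𝕋 I
  haveI : NumberField (nfsE 𝕋 I) := nfsNumberField 𝕋 I
  inferInstanceAs (Module.Finite ℤ (𝓞 (nfsE 𝕋 I)))

section Main

variable [IsReduced 𝕋] [Module.Finite ℤ 𝕋] [IsAddTorsionFree 𝕋]

/-- The points separate the elements of `𝕋`. -/
theorem nfs_separates {x y : 𝕋}
    (h : ∀ I : MaximalSpectrum (ℚ ⊗[ℤ] 𝕋), nfsHom 𝕋 I x = nfsHom 𝕋 I y) : x = y := by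
  haveI : IsArtinianRing (ℚ ⊗[ℤ] 𝕋) := IsArtinianRing.of_finite ℚ _
  haveI : IsReduced (ℚ ⊗[ℤ] 𝕋) := nfs_isReduced 𝕋
  apply nfsIncl_injective 𝕋
  apply (IsArtinianRing.equivPi (ℚ ⊗[ℤ] 𝕋)).injective
  funext I
  rw [IsArtinianRing.equivPi_apply, IsArtinianRing.equivPi_apply, ← nfsCoe_nfsHom,
    ← nfsCoe_nfsHom, h I]

/-- Every family of integers has a nonzero integer multiple coming from `𝕋`. -/
theorem nfs_exists_multiple (b : ∀ I : MaximalSpectrum (ℚ ⊗[ℤ] 𝕋), nfsO 𝕋 I) :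
    ∃ n : ℤ, n ≠ 0 ∧ ∃ s : 𝕋,
      ∀ I : MaximalSpectrum (ℚ ⊗[ℤ] 𝕋), (n : nfsO 𝕋 I) * b I = nfsHom 𝕋 I s := by
  haveI : IsArtinianRing (ℚ ⊗[ℤ] 𝕋) := IsArtinianRing.of_finite ℚ _
  haveI : IsReduced (ℚ ⊗[ℤ] 𝕋) := nfs_isReduced 𝕋
  obtain ⟨a, ha⟩ := (IsArtinianRing.equivPi (ℚ ⊗[ℤ] 𝕋)).surjective
    (fun I => nfsCoe 𝕋 I (b I))
  obtain ⟨n, hn, s, hs⟩ := nfs_exists_denom 𝕋 a
  refine ⟨n, hn, s, fun I => ?_⟩
  apply nfsCoe_injective 𝕋 I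
  rw [nfsCoe_nfsHom, ← hs, map_mul, map_intCast, map_mul, map_intCast]
  congr 1
  have := congrFun ha I
  rw [IsArtinianRing.equivPi_apply] at this
  exact this.symm

/-- The conductor. -/
theorem nfs_exists_conductor :
    ∃ c : ℤ, c ≠ 0 ∧ ∀ b : (∀ I : MaximalSpectrum (ℚ ⊗[ℤ] 𝕋), nfsO 𝕋 I), ∃ s : 𝕋,
      ∀ I : MaximalSpectrum (ℚ ⊗[ℤ] 𝕋), (c : nfsO 𝕋 I) * b I = nfsHom 𝕋 I s := by
  classical
  haveI : IsArtinianRing (ℚ ⊗[ℤ] 𝕋) := IsArtinianRing.of_finite ℚ _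
  haveI : Finite (MaximalSpectrum (ℚ ⊗[ℤ] 𝕋)) := inferInstance
  haveI : ∀ I : MaximalSpectrum (ℚ ⊗[ℤ] 𝕋), Module.Finite ℤ (nfsO 𝕋 I) := nfsFiniteO 𝕋
  haveI : Module.Finite ℤ (∀ I : MaximalSpectrum (ℚ ⊗[ℤ] 𝕋), nfsO 𝕋 I) := Module.Finite.pi
  obtain ⟨S, hS⟩ := Module.finite_def.1
    (inferInstance : Module.Finite ℤ (∀ I : MaximalSpectrum (ℚ ⊗[ℤ] 𝕋), nfsO 𝕋 I))
  choose n hn s hs using nfs_exists_multiple 𝕋
  refine ⟨∏ g ∈ S, n g, Finset.prod_ne_zero_iff.2 fun g _ => hn g, ?_⟩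
  set c : ℤ := ∏ g ∈ S, n g with hc
  let N : Submodule ℤ (∀ I : MaximalSpectrum (ℚ ⊗[ℤ] 𝕋), nfsO 𝕋 I) :=
    { carrier := {b | ∃ s : 𝕋, ∀ I, (c : nfsO 𝕋 I) * b I = nfsHom 𝕋 I s}
      zero_mem' := ⟨0, fun I => by simp⟩
      add_mem' := by
        rintro b b' ⟨s, hs⟩ ⟨s', hs'⟩
        refine ⟨s + s', fun I => ?_⟩
        rw [Pi.add_apply, mul_add, hs I, hs' I, map_add]
      smul_mem' := by
        rintro z b ⟨s, hs⟩
        refine ⟨(z : 𝕋) * s, fun I => ?_⟩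
        rw [Pi.smul_apply, zsmul_eq_mul, map_mul, map_intCast, ← hs I]
        ring }
  have hSN : (S : Set (∀ I : MaximalSpectrum (ℚ ⊗[ℤ] 𝕋), nfsO 𝕋 I)) ⊆ N := by
    intro g hg
    have hg' : g ∈ S := hg
    refine ⟨((∏ g' ∈ S.erase g, n g' : ℤ) : 𝕋) * s g, fun I => ?_⟩
    have hcg : c = (∏ g' ∈ S.erase g, n g') * n g := by
      rw [hc, ← Finset.prod_erase_mul S n hg']
    rw [map_mul, map_intCast, ← hs g I, hcg]
    push_cast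
    ring
  have hN : N = ⊤ := by
    rw [eq_top_iff, ← hS]
    exact Submodule.span_le.2 hSN
  intro b
  have hb : b ∈ N := by rw [hN]; trivial
  exact hb

end Main

end

/-- **PTS-Q**: number-field points of a reduced finite torsion-free `ℤ`-algebra and the
conductor. -/
theorem nfSeparation : Fermat.Agent.H30.NFSeparationStatement := by
  intro 𝕋 _ _ _ _
  classical
  haveI : IsArtinianRing (ℚ ⊗[ℤ] 𝕋) := IsArtinianRing.of_finite ℚ _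
  haveI : Finite (MaximalSpectrum (ℚ ⊗[ℤ] 𝕋)) := inferInstance
  obtain ⟨c, hc, hcond⟩ := nfs_exists_conductor 𝕋
  refine ⟨MaximalSpectrum (ℚ ⊗[ℤ] 𝕋), Fintype.ofFinite _, nfsPoint 𝕋, c, hc, ?_⟩
  intro d t h
  have h' : ∀ I : MaximalSpectrum (ℚ ⊗[ℤ] 𝕋), ∃ b : nfsO 𝕋 I,
      nfsHom 𝕋 I t = (d : nfsO 𝕋 I) * b := fun I => h I
  choose b hb using h'
  obtain ⟨s, hs⟩ := hcond b
  refine ⟨s, nfs_separates 𝕋 fun I => ?_⟩
  rw [map_mul, map_mul, map_intCast, map_intCast, hb I, ← hs I]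
  ring

end Fermat.Agent.H68

end
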