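/-
helper68 (P-ES / KL-NORM-DED, row 428): the Dedekind bridge.

`R` integrally closed, `Rg = R[1/p]` a Dedekind domain which is a `ℚ`-algebra (every positive
integer is a unit), `S` the integral closure of `Rg` in `E`.  If the prime element `h` of `R`
(not associated to `p`) lies in no `q ^ 2`, `q` a prime of `S`, then the trace form of the
integral closure of `R` in `E` is nondegenerate modulo `h`.

NOTE: the hypothesis that `Rg` is a `ℚ`-algebra cannot be dropped
(`R = ℤ[t]_(ℓ,t)`, `p = t`, `h = ℓ`, `E = K(t^(1/ℓ))` is a counterexample).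
-/
import Fermat.Agent.H91.KLNorm.Interfaces

set_option autoImplicit false
set_option linter.overlappingInstances false
set_option linter.style.haveILetI false
set_option linter.unusedVariables false

noncomputable section

open Fermat.Agent.H91 Fermat.Agent.H91.KLNorm
open scoped nonZeroDivisors

namespace Fermat.Agent.H68

attribute [local instance] FractionRing.liftAlgebra FractionRing.isScalarTower_liftAlgebra

/-- **KL-NORM-DED**, with the (necessary) extra hypothesis that `Rg` is a `ℚ`-algebra. -/
def DedekindBridgeStatementQ : Prop :=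
  ∀ (R : Type) [CommRing R] [IsDomain R] [IsIntegrallyClosed R]
    (Rg : Type) [CommRing Rg] [IsDomain Rg] [IsDedekindDomain Rg] [Algebra R Rg]
    (K : Type) [Field K] [CharZero K] [Algebra R K] [IsFractionRing R K] [Algebra Rg K]
    [IsFractionRing Rg K] [IsScalarTower R Rg K]
    (E : Type) [Field E] [Algebra K E] [Algebra R E] [IsScalarTower R K E]
    [Algebra Rg E] [IsScalarTower Rg K E] [IsScalarTower R Rg E]
    [FiniteDimensional K E] (p : R), Prime p → IsLocalization.Away p Rg →
    (∀ n : ℕ, n ≠ 0 → IsUnit ((n : ℕ) : Rg)) →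
    ∀ h : R, Prime h → ¬ Associated h p →
    (∀ q : Ideal ↥(integralClosure Rg E), q.IsPrime →
      algebraMap Rg ↥(integralClosure Rg E) (algebraMap R Rg h) ∈ q →
      algebraMap Rg ↥(integralClosure Rg E) (algebraMap R Rg h) ∉ q ^ 2) →
    TraceNondegAt R K E (Ideal.span {h})

section Descent

variable {R : Type} [CommRing R] [IsDomain R] [IsIntegrallyClosed R]
  (K : Type) [Field K] [Algebra R K] [IsFractionRing R K]
  {E : Type} [Field E] [Algebra K E] [Algebra R E] [IsScalarTower R K E]

include K in
/-- Descent of integrality from `R[1/p]` to `R` along a prime `h` not divisible by `p`. -/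
theorem db_isIntegral_of_pow_smul {p h : R} (hp : Prime p) (hh : ¬ p ∣ h) :
    ∀ (k : ℕ) (w : E), IsIntegral R ((p ^ k) • w) → IsIntegral R (h • w) → IsIntegral R w := by
  intro k
  induction k with
  | zero =>
    intro w hw _
    simpa using hw
  | succ k ih =>
    intro w hw hhw
    refine ih w ?_ hhw
    refine isIntegral_of_smul_of_smul K hp hh (z := p ^ k • w) ?_ ?_
    · rw [smul_smul, ← pow_succ']
      exact hw
    · rw [smul_comm]
      exact hhw.smul _

end Descent

section Main

variable (R : Type) [CommRing R] [IsDomain R] [IsIntegrallyClosed R]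
  (Rg : Type) [CommRing Rg] [IsDomain Rg] [IsDedekindDomain Rg] [Algebra R Rg]
  (K : Type) [Field K] [CharZero K] [Algebra R K] [IsFractionRing R K] [Algebra Rg K]
  [IsFractionRing Rg K] [IsScalarTower R Rg K]
  (E : Type) [Field E] [Algebra K E] [Algebra R E] [IsScalarTower R K E]
  [Algebra Rg E] [IsScalarTower Rg K E] [IsScalarTower R Rg E]
  [FiniteDimensional K E]

/-- A quotient of a `ℚ`-algebra by a proper ideal has characteristic zero. -/
theorem db_charZero_quotient (hQ : ∀ n : ℕ, n ≠ 0 → IsUnit ((n : ℕ) : Rg)) (P : Ideal Rg)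
    (hP : P ≠ ⊤) : CharZero (Rg ⧸ P) := by
  have key : ∀ a b : ℕ, a < b → ((a : ℕ) : Rg ⧸ P) = ((b : ℕ) : Rg ⧸ P) → False := by
    intro a b hlt hab
    have hd : ((b - a : ℕ) : Rg ⧸ P) = 0 := by
      rw [Nat.cast_sub hlt.le, hab, sub_self]
    have hmem : ((b - a : ℕ) : Rg) ∈ P := by
      rw [← Ideal.Quotient.eq_zero_iff_mem, map_natCast]
      exact hd
    exact hP (Ideal.eq_top_of_isUnit_mem P hmem (hQ (b - a) (by omega)))
  refine ⟨fun a b hab => ?_⟩
  by_contra hne
  rcases Nat.lt_or_gt_of_ne hne with hlt | hlt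
  · exact key a b hlt hab
  · exact key b a hlt hab.symm

/-- **Dedekind level.**  `Rg` a Dedekind `ℚ`-algebra, `S` its integral closure in `E`.  If `H z`
is integral, `z` lies in the trace dual of `S`, and `H` lies in no `q ^ 2`, then `z` is
integral. -/
theorem db_dedekind_level (hQ : ∀ n : ℕ, n ≠ 0 → IsUnit ((n : ℕ) : Rg)) (H : Rg) (hH0 : H ≠ 0)
    (hU : ∀ q : Ideal ↥(integralClosure Rg E), q.IsPrime →
      algebraMap Rg ↥(integralClosure Rg E) H ∈ q →
      algebraMap Rg ↥(integralClosure Rg E) H ∉ q ^ 2)
    (z : E) (hHz : IsIntegral Rg (algebraMap Rg E H * z))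
    (hz : ∀ s : ↥(integralClosure Rg E),
      Algebra.trace K E (z * (s : E)) ∈ (algebraMap Rg K).range) :
    IsIntegral Rg z := by
  classical
  haveI : Algebra.IsSeparable K E := inferInstance
  haveI hSD : IsDedekindDomain ↥(integralClosure Rg E) :=
    integralClosure.isDedekindDomain Rg K E
  haveI : IsFractionRing ↥(integralClosure Rg E) E :=
    integralClosure.isFractionRing_of_finite_extension K E
  haveI : Module.Finite Rg ↥(integralClosure Rg E) := IsIntegralClosure.finite Rg K E _
  haveI : Module.IsTorsionFree Rg E := .trans_faithfulSMul Rg K E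
  haveI : Module.IsTorsionFree Rg ↥(integralClosure Rg E) :=
    IsIntegralClosure.isTorsionFree Rg E
  have h10 : (1 : FractionalIdeal (↥(integralClosure Rg E))⁰ E) ≠ 0 := one_ne_zero
  -- `z` lies in the dual of `1`
  have hzdual : z ∈ FractionalIdeal.dual Rg K
      (1 : FractionalIdeal (↥(integralClosure Rg E))⁰ E) := by
    rw [FractionalIdeal.mem_dual h10]
    intro a ha
    obtain ⟨s, rfl⟩ := (FractionalIdeal.mem_one_iff _).1 ha
    rw [Algebra.traceForm_apply]
    exact hz s
  -- `d * z ∈ S` for `d` in the different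
  have hdz : ∀ d ∈ differentIdeal Rg ↥(integralClosure Rg E),
      ∃ t : ↥(integralClosure Rg E), (t : E) = (d : E) * z := by
    intro d hd
    have h1 : algebraMap ↥(integralClosure Rg E) E d ∈
        ((differentIdeal Rg ↥(integralClosure Rg E) : Ideal ↥(integralClosure Rg E)) :
          FractionalIdeal (↥(integralClosure Rg E))⁰ E) :=
      (FractionalIdeal.mem_coeIdeal _).2 ⟨d, hd, rfl⟩
    have h2 := FractionalIdeal.mul_mem_mul h1 hzdual
    rw [coeIdeal_differentIdeal Rg K E ↥(integralClosure Rg E),
      inv_mul_cancel₀ (FractionalIdeal.dual_ne_zero Rg K h10)] at h2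
    obtain ⟨t, ht⟩ := (FractionalIdeal.mem_one_iff _).1 h2
    exact ⟨t, ht⟩
  -- the denominator ideal of `z`
  let I : Ideal ↥(integralClosure Rg E) :=
    { carrier := {s | ∃ t : ↥(integralClosure Rg E), (t : E) = (s : E) * z}
      zero_mem' := ⟨0, by simp⟩
      add_mem' := by
        rintro a b ⟨t, ht⟩ ⟨t', ht'⟩
        exact ⟨t + t', by push_cast; rw [ht, ht']; ring⟩
      smul_mem' := by
        rintro c a ⟨t, ht⟩
        exact ⟨c * t, by rw [smul_eq_mul]; push_cast; rw [ht]; ring⟩ }
  have hI_mem : ∀ s : ↥(integralClosure Rg E),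
      s ∈ I ↔ ∃ t : ↥(integralClosure Rg E), (t : E) = (s : E) * z := fun s => Iff.rfl
  have hHI : algebraMap Rg ↥(integralClosure Rg E) H ∈ I := by
    rw [hI_mem]
    exact ⟨⟨_, hHz⟩, rfl⟩
  have hdI : differentIdeal Rg ↥(integralClosure Rg E) ≤ I := fun d hd => (hI_mem d).2 (hdz d hd)
  by_cases hItop : I = ⊤
  · have h1 : (1 : ↥(integralClosure Rg E)) ∈ I := by rw [hItop]; trivial
    obtain ⟨t, ht⟩ := (hI_mem 1).1 h1
    have : z = (t : E) := by rw [ht]; simp
    rw [this]
    exact t.2
  · exfalso
    obtain ⟨q, hqmax, hIq⟩ := Ideal.exists_le_maximal I hItop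
    haveI := hqmax
    have hHq : algebraMap Rg ↥(integralClosure Rg E) H ∈ q := hIq hHI
    have hdq : differentIdeal Rg ↥(integralClosure Rg E) ≤ q := hdI.trans hIq
    have hHq2 := hU q hqmax.isPrime hHq
    -- the prime below
    have hHunder : H ∈ q.under Rg := hHq
    have hpne : q.under Rg ≠ ⊥ := fun hbot => hH0 (by rw [hbot] at hHunder; exact hHunder)
    haveI hpprime : (q.under Rg).IsPrime := inferInstance
    haveI hpmax : (q.under Rg).IsMaximal := Ideal.IsPrime.isMaximal hpprime hpne
    have hinj : Function.Injective (algebraMap Rg ↥(integralClosure Rg E)) :=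
      FaithfulSMul.algebraMap_injective Rg ↥(integralClosure Rg E)
    have hp' : Ideal.map (algebraMap Rg ↥(integralClosure Rg E)) (q.under Rg) ≠ ⊥ :=
      (Ideal.map_eq_bot_iff_of_injective hinj).not.mpr hpne
    obtain ⟨Q, h₁, h₂⟩ := Ideal.eq_prime_pow_mul_coprime hp' q
    set e := Multiset.count q (UniqueFactorizationMonoid.normalizedFactors
      (Ideal.map (algebraMap Rg ↥(integralClosure Rg E)) (q.under Rg))) with he
    have hmapq : Ideal.map (algebraMap Rg ↥(integralClosure Rg E)) (q.under Rg) ≤ q :=
      Ideal.map_comap_le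
    have hHmap : algebraMap Rg ↥(integralClosure Rg E) H ∈
        Ideal.map (algebraMap Rg ↥(integralClosure Rg E)) (q.under Rg) :=
      Ideal.mem_map_of_mem _ hHunder
    have he1 : e = 1 := by
      have hle : e ≤ 1 := by
        by_contra hcon
        have h2 : 2 ≤ e := by omega
        apply hHq2
        have h3 : Ideal.map (algebraMap Rg ↥(integralClosure Rg E)) (q.under Rg) ≤ q ^ 2 := by
          rw [h₂]
          exact Ideal.mul_le_left.trans (Ideal.pow_le_pow_right h2)
        exact h3 hHmap
      have hge : 1 ≤ e := by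
        by_contra hcon
        have h0 : e = 0 := by omega
        rw [h0, pow_zero, one_mul] at h₂
        have hQq : Q ≤ q := h₂ ▸ hmapq
        have : q = ⊤ := by
          rw [eq_top_iff, ← h₁]
          exact sup_le le_rfl hQq
        exact hqmax.ne_top this
      omega
    rw [he1, pow_one] at h₂
    -- separability of the residue extension
    haveI : CharZero (Rg ⧸ q.under Rg) := db_charZero_quotient Rg hQ _ hpmax.ne_top
    letI : Field (Rg ⧸ q.under Rg) := Ideal.Quotient.field (q.under Rg)
    letI : Field (↥(integralClosure Rg E) ⧸ q) := Ideal.Quotient.field q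
    haveI : Module.Finite (Rg ⧸ q.under Rg) (↥(integralClosure Rg E) ⧸ q) :=
      Module.Finite.of_restrictScalars_finite Rg (Rg ⧸ q.under Rg) (↥(integralClosure Rg E) ⧸ q)
    haveI : Algebra.IsAlgebraic (Rg ⧸ q.under Rg) (↥(integralClosure Rg E) ⧸ q) :=
      Algebra.IsAlgebraic.of_finite _ _
    haveI : Algebra.IsSeparable (Rg ⧸ q.under Rg) (↥(integralClosure Rg E) ⧸ q) :=
      Algebra.IsAlgebraic.isSeparable_of_perfectField
    haveI : CharZero Rg := ⟨fun a b hab => Nat.cast_injective (R := K)
      (by simpa using congrArg (algebraMap Rg K) hab)⟩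
    haveI : Algebra.IsSeparable (FractionRing Rg) (FractionRing ↥(integralClosure Rg E)) :=
      inferInstance
    exact not_dvd_differentIdeal_of_isCoprime_of_isSeparable Rg q Q
      (Ideal.isCoprime_iff_sup_eq.mpr h₁) h₂.symm (Ideal.dvd_iff_le.mpr hdq)

end Main

/-- **KL-NORM-DED** (Dedekind bridge), for `Rg` a `ℚ`-algebra. -/
theorem dedekindBridgeQ : DedekindBridgeStatementQ := by
  intro R _ _ _ Rg _ _ _ _ K _ _ _ _ _ _ _ E _ _ _ _ _ _ _ _ p hp hloc hQ h hh hhp hU
  intro x hx hxy
  haveI := hloc
  have hinjRK : Function.Injective (algebraMap R K) := IsFractionRing.injective R K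
  have hhK : algebraMap R K h ≠ 0 := (map_ne_zero_iff _ hinjRK).2 hh.ne_zero
  have hhE : algebraMap R E h ≠ 0 := by
    rw [IsScalarTower.algebraMap_apply R K E]
    exact (map_ne_zero_iff _ (algebraMap K E).injective).2 hhK
  have hph : ¬ p ∣ h := by
    rintro ⟨c, hc⟩
    rcases hh.irreducible.isUnit_or_isUnit hc with hpu | hcu
    · exact hp.not_unit hpu
    · refine hhp ⟨hcu.unit⁻¹, ?_⟩
      rw [hc, mul_assoc, IsUnit.mul_val_inv, mul_one]
  set z : E := (algebraMap R E h)⁻¹ * x with hz
  have hzx : algebraMap R E h * z = x := by rw [hz, mul_inv_cancel_left₀ hhE]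
  have hxz : x = algebraMap R K h • z := by
    rw [Algebra.smul_def, ← IsScalarTower.algebraMap_apply R K E, hzx]
  -- Dedekind level
  have hzint : IsIntegral Rg z := by
    refine db_dedekind_level Rg K E hQ (algebraMap R Rg h) ?_ hU z ?_ ?_
    · intro h0
      apply hhK
      rw [IsScalarTower.algebraMap_apply R Rg K, h0, map_zero]
    · rw [← IsScalarTower.algebraMap_apply R Rg E, hzx]
      exact hx.tower_top
    · intro s
      obtain ⟨m, hm⟩ := IsIntegral.exists_multiple_integral_of_isLocalization
        (Submonoid.powers p) (s : E) s.2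
      obtain ⟨a, ha, hatr⟩ := hxy (m • (s : E)) hm
      obtain ⟨a', rfl⟩ := Ideal.mem_span_singleton'.1 ha
      obtain ⟨u, hu⟩ := IsLocalization.map_units Rg m
      refine ⟨↑u⁻¹ * algebraMap R Rg a', ?_⟩
      have hmK : algebraMap R K (m : R) = algebraMap Rg K (u : Rg) := by
        rw [hu, ← IsScalarTower.algebraMap_apply R Rg K]
      have hmK0 : algebraMap R K (m : R) ≠ 0 := by
        rw [hmK]
        exact (u.isUnit.map (algebraMap Rg K)).ne_zero
      have h1 : x * (m • (s : E)) = (algebraMap R K (m : R) * algebraMap R K h) • (z * (s : E)) := by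
        rw [Submonoid.smul_def, hxz, ← algebraMap_smul K (m : R) (s : E), mul_smul]
        simp only [Algebra.smul_def, map_mul]
        ring
      rw [h1, map_smul, smul_eq_mul, map_mul] at hatr
      have h2 : algebraMap R K a' = algebraMap R K (m : R) * Algebra.trace K E (z * (s : E)) := by
        apply mul_right_cancel₀ hhK
        rw [hatr]
        ring
      apply mul_left_cancel₀ hmK0
      rw [← h2, hmK, ← map_mul, ← mul_assoc, Units.mul_inv, one_mul,
        ← IsScalarTower.algebraMap_apply R Rg K]
  -- descent to `R`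
  obtain ⟨⟨m, k, rfl⟩, hm⟩ := IsIntegral.exists_multiple_integral_of_isLocalization
    (Submonoid.powers p) z hzint
  have hzR : IsIntegral R z := by
    refine db_isIntegral_of_pow_smul K hp hph k z ?_ ?_
    · simpa [Submonoid.smul_def] using hm
    · rw [Algebra.smul_def, hzx]
      exact hx
  exact mem_span_singleton_smul_iff.2 ⟨z, hzR, by rw [Algebra.smul_def, hzx]⟩


end Fermat.Agent.H68

end
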