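/-
helper68 (P-ES / KL-N-P, rows 395/428): the Dedekind bridge in VALUATION form.

Same setting as `Fermat.Agent.H68.dedekindBridgeQ`, but the unramifiedness hypothesis is stated
for valuation subrings of `E`, in the language of `Fermat.Agent.H22.KL`
(`IsPlace`, `IsUniformiser`, `IsUnramifiedPlace`):

  every discrete valuation subring `v ≠ ⊤` of `E` containing the image of `Rg = R[1/p]` whose
  centre on `R` is exactly `(h)` has a uniformiser in the image of `K`.
-/
import Fermat.Agent.H68.DedekindBridge

set_option autoImplicit false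
set_option linter.overlappingInstances false
set_option linter.style.haveILetI false
set_option linter.unusedVariables false

noncomputable section

open Fermat.Agent.H91 Fermat.Agent.H91.KLNorm
open IsDedekindDomain IsDedekindDomain.HeightOneSpectrum
open scoped nonZeroDivisors

namespace Fermat.Agent.H68

/-- **KL-NORM-DED, valuation form.** -/
def DedekindBridgeStatementV : Prop :=
  ∀ (R : Type) [CommRing R] [IsDomain R] [IsIntegrallyClosed R]
    (Rg : Type) [CommRing Rg] [IsDomain Rg] [IsDedekindDomain Rg] [Algebra R Rg]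
    (K : Type) [Field K] [CharZero K] [Algebra R K] [IsFractionRing R K] [Algebra Rg K]
    [IsFractionRing Rg K] [IsScalarTower R Rg K]
    (E : Type) [Field E] [Algebra K E] [Algebra R E] [IsScalarTower R K E]
    [Algebra Rg E] [IsScalarTower Rg K E] [IsScalarTower R Rg E]
    [FiniteDimensional K E] (p : R), Prime p → IsLocalization.Away p Rg →
    (∀ n : ℕ, n ≠ 0 → IsUnit ((n : ℕ) : Rg)) →
    ∀ h : R, Prime h → ¬ Associated h p →
    (∀ v : ValuationSubring E, v ≠ ⊤ → IsPrincipalIdealRing v →
      (∀ r : Rg, algebraMap Rg E r ∈ v) →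
      (∀ f : R, algebraMap R E f ∈ v.nonunits ↔ h ∣ f) →
      ∃ t ∈ (algebraMap K E).range, t ≠ 0 ∧ t ∈ v.nonunits ∧ ∀ y ∈ v.nonunits, y / t ∈ v) →
    TraceNondegAt R K E (Ideal.span {h})

section Loc

variable {R : Type} [CommRing R] [IsDomain R]
  {Rg : Type} [CommRing Rg] [IsDomain Rg] [Algebra R Rg]

/-- A prime `h` of `R` not dividing `p` divides `f` as soon as it does so in `R[1/p]`. -/
theorem dbv_dvd_of_map_dvd {p h : R} (hp : Prime p) (hh : Prime h) (hph : ¬ h ∣ p)
    [IsLocalization.Away p Rg] {f : R} (hf : algebraMap R Rg h ∣ algebraMap R Rg f) : h ∣ f := by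
  obtain ⟨c, hc⟩ := hf
  obtain ⟨⟨r, s⟩, hrs⟩ := IsLocalization.surj (Submonoid.powers p) c
  have hinj : Function.Injective (algebraMap R Rg) :=
    IsLocalization.injective Rg (powers_le_nonZeroDivisors_of_noZeroDivisors hp.ne_zero)
  have h1 : f * (s : R) = h * r := by
    apply hinj
    rw [map_mul, map_mul, hc, mul_assoc]
    simp only at hrs
    rw [hrs]
  obtain ⟨k, hk⟩ := s.2
  have h2 : h ∣ f * p ^ k := by
    simp only at hk
    rw [hk, h1]
    exact dvd_mul_right _ _
  rcases hh.dvd_or_dvd h2 with h3 | h3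
  · exact h3
  · exact absurd (hh.dvd_of_dvd_pow h3) hph

/-- The image of a prime `h` of `R`, not dividing `p`, generates a prime ideal of `R[1/p]`. -/
theorem dbv_span_isPrime {p h : R} (hp : Prime p) (hh : Prime h) (hph : ¬ h ∣ p)
    [IsLocalization.Away p Rg] : (Ideal.span {algebraMap R Rg h}).IsPrime := by
  have hprime : (Ideal.span {h}).IsPrime :=
    (Ideal.span_singleton_prime hh.ne_zero).2 hh
  have hdisj : Disjoint ((Submonoid.powers p : Submonoid R) : Set R)
      ((Ideal.span {h} : Ideal R) : Set R) := by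
    rw [Set.disjoint_left]
    rintro a ⟨k, rfl⟩ ha
    rw [SetLike.mem_coe, Ideal.mem_span_singleton] at ha
    exact hph (hh.dvd_of_dvd_pow ha)
  have := IsLocalization.isPrime_of_isPrime_disjoint (Submonoid.powers p) Rg _ hprime hdisj
  rwa [Ideal.map_span, Set.image_singleton] at this

end Loc

/-- **KL-NORM-DED, valuation form.** -/
theorem dedekindBridgeV : DedekindBridgeStatementV := by
  intro R _ _ _ Rg _ _ _ _ K _ _ _ _ _ _ _ E _ _ _ _ _ _ _ _ p hp hloc hQ h hh hhp hV
  refine dedekindBridgeQ R Rg K E p hp hloc hQ h hh hhp ?_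
  intro q hq hhq hhq2
  haveI := hloc
  haveI : Algebra.IsSeparable K E := inferInstance
  haveI hSD : IsDedekindDomain ↥(integralClosure Rg E) :=
    integralClosure.isDedekindDomain Rg K E
  haveI : IsFractionRing ↥(integralClosure Rg E) E :=
    integralClosure.isFractionRing_of_finite_extension K E
  have hhp' : ¬ h ∣ p := by
    rintro ⟨c, hc⟩
    rcases hp.irreducible.isUnit_or_isUnit hc with hu | hu
    · exact hh.not_unit hu
    · exact hhp ⟨hu.unit, by rw [hc]; rfl⟩
  have hinjRK : Function.Injective (algebraMap R K) := IsFractionRing.injective R K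
  have hinjRgK : Function.Injective (algebraMap Rg K) := IsFractionRing.injective Rg K
  have hinjRgS : Function.Injective (algebraMap Rg ↥(integralClosure Rg E)) := by
    intro a b hab
    have h1 : algebraMap Rg E a = algebraMap Rg E b := by
      rw [IsScalarTower.algebraMap_apply Rg ↥(integralClosure Rg E) E, hab,
        ← IsScalarTower.algebraMap_apply Rg ↥(integralClosure Rg E) E]
    rw [IsScalarTower.algebraMap_apply Rg K E, IsScalarTower.algebraMap_apply Rg K E] at h1
    exact hinjRgK ((algebraMap K E).injective h1)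
  set H : Rg := algebraMap R Rg h with hH
  have hH0 : H ≠ 0 := by
    intro h0
    have : algebraMap R K h = 0 := by
      rw [IsScalarTower.algebraMap_apply R Rg K, ← hH, h0, map_zero]
    exact hh.ne_zero ((map_eq_zero_iff _ hinjRK).1 this)
  have hq0 : q ≠ ⊥ := by
    intro hbot
    rw [hbot, Ideal.mem_bot] at hhq
    exact hH0 ((map_eq_zero_iff _ hinjRgS).1 hhq)
  -- the prime below `q` is `(H)`
  haveI hHprime : (Ideal.span {H}).IsPrime := dbv_span_isPrime hp hh hhp'
  have hHne : Ideal.span {H} ≠ ⊥ := by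
    rw [Ne, Ideal.span_singleton_eq_bot]
    exact hH0
  haveI hHmax : (Ideal.span {H}).IsMaximal := Ideal.IsPrime.isMaximal hHprime hHne
  have hunder : Ideal.span {H} = q.under Rg := by
    refine hHmax.eq_of_le ?_ ?_
    · haveI : (q.under Rg).IsPrime := inferInstance
      exact Ideal.IsPrime.ne_top inferInstance
    · rw [Ideal.span_singleton_le_iff_mem]
      exact hhq
  have hmemq : ∀ a : Rg, algebraMap Rg ↥(integralClosure Rg E) a ∈ q ↔ H ∣ a := by
    intro a
    rw [← Ideal.mem_span_singleton, hunder]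
    rfl
  -- the valuation
  let hs : HeightOneSpectrum ↥(integralClosure Rg E) := ⟨q, hq, hq0⟩
  set w : Valuation E (WithZero (Multiplicative ℤ)) := hs.valuation E with hw
  have hwS : ∀ s : ↥(integralClosure Rg E), w (algebraMap _ E s) ≤ 1 :=
    fun s => hs.valuation_le_one s
  have hwlt : ∀ s : ↥(integralClosure Rg E), w (algebraMap _ E s) < 1 ↔ s ∈ q :=
    fun s => hs.valuation_lt_one_iff_mem s
  have hnon : ∀ y : E, y ∈ w.valuationSubring.nonunits ↔ w y < 1 := by
    intro y
    rw [ValuationSubring.mem_nonunits_iff]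
    exact ((Valuation.isEquiv_valuation_valuationSubring w).lt_one_iff_lt_one).symm
  have hmem : ∀ y : E, y ∈ w.valuationSubring ↔ w y ≤ 1 :=
    fun y => Valuation.mem_valuationSubring_iff w y
  have hRgE : ∀ r : Rg, algebraMap Rg E r =
      algebraMap ↥(integralClosure Rg E) E (algebraMap Rg ↥(integralClosure Rg E) r) :=
    fun r => IsScalarTower.algebraMap_apply Rg ↥(integralClosure Rg E) E r
  obtain ⟨t, ⟨k, rfl⟩, ht0, htnon, htunif⟩ := hV w.valuationSubring
    (by
      rw [Ne, Valuation.valuationSubring_eq_top_iff, not_not]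
      infer_instance)
    inferInstance
    (fun r => by
      rw [hmem, hRgE]
      exact hwS _)
    (fun f => by
      rw [hnon, IsScalarTower.algebraMap_apply R Rg E, hRgE, hwlt, hmemq]
      constructor
      · exact dbv_dvd_of_map_dvd hp hh hhp'
      · exact fun hf => map_dvd (algebraMap R Rg) hf)
  -- a uniformiser
  obtain ⟨π, hπ⟩ := hs.valuation_exists_uniformizer E
  have hπlt : w π < 1 := by
    rw [hw, hπ, ← WithZero.exp_zero, WithZero.exp_lt_exp]
    norm_num
  have hwt0 : w (algebraMap K E k) ≠ 0 := (Valuation.ne_zero_iff _).2 ht0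
  have hwtlt : w (algebraMap K E k) < 1 := (hnon _).1 htnon
  have h1 : w π ≤ w (algebraMap K E k) := by
    have := (hmem _).1 (htunif π ((hnon π).2 hπlt))
    rw [map_div₀] at this
    exact (div_le_one₀ (zero_lt_iff.2 hwt0)).1 this
  -- `w H ≤ exp (-2)`
  have h3 : w (algebraMap Rg E H) ≤ WithZero.exp (-2 : ℤ) := by
    rw [hRgE, hw, valuation_of_algebraMap]
    have := (hs.intValuation_le_pow_iff_mem (algebraMap Rg ↥(integralClosure Rg E) H) 2).2 hhq2
    simpa using this
  have hwH0 : w (algebraMap Rg E H) ≠ 0 := by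
    rw [Valuation.ne_zero_iff, IsScalarTower.algebraMap_apply Rg K E]
    exact (map_ne_zero_iff _ (algebraMap K E).injective).2
      ((map_ne_zero_iff _ hinjRgK).2 hH0)
  have hwH1 : w (algebraMap Rg E H) < 1 := by
    rw [hRgE, hwlt]
    exact hhq
  -- `w t ≤ w H`
  have h2 : w (algebraMap K E k) ≤ w (algebraMap Rg E H) := by
    obtain ⟨a, b, hb, hab⟩ := IsFractionRing.div_surjective (A := Rg) k
    have hb0 : b ≠ 0 := nonZeroDivisors.ne_zero hb
    have hbK : algebraMap Rg K b ≠ 0 := (map_ne_zero_iff _ hinjRgK).2 hb0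
    have ha0 : a ≠ 0 := by
      rintro rfl
      apply ht0
      rw [← hab]
      simp
    have hHirr : Irreducible H :=
      ((Ideal.span_singleton_prime hH0).1 hHprime).irreducible
    obtain ⟨m, a', ha', rfl⟩ := WfDvdMonoid.max_power_factor ha0 hHirr
    obtain ⟨n, b', hb', rfl⟩ := WfDvdMonoid.max_power_factor hb0 hHirr
    have hwa' : w (algebraMap Rg E a') = 1 := by
      rw [hRgE, hw, valuation_eq_one_iff_notMem]
      exact fun hmem' => ha' ((hmemq a').1 hmem')
    have hwb' : w (algebraMap Rg E b') = 1 := by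
      rw [hRgE, hw, valuation_eq_one_iff_notMem]
      exact fun hmem' => hb' ((hmemq b').1 hmem')
    have hkey : w (algebraMap K E k) * w (algebraMap Rg E H) ^ n = w (algebraMap Rg E H) ^ m := by
      have e1 : algebraMap K E k * algebraMap Rg E (H ^ n * b') = algebraMap Rg E (H ^ m * a') := by
        rw [IsScalarTower.algebraMap_apply Rg K E, IsScalarTower.algebraMap_apply Rg K E,
          ← map_mul, ← hab, div_mul_cancel₀ _ hbK]
      have e2 := congrArg w e1
      rw [map_mul, map_mul (algebraMap Rg E), map_mul (algebraMap Rg E), map_mul, map_mul,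
        map_pow, map_pow, map_pow, map_pow, hwa', hwb', mul_one, mul_one] at e2
      exact e2
    set ε := w (algebraMap Rg E H) with hε
    have hεpos : 0 < ε := zero_lt_iff.2 hwH0
    have hnm : n < m := by
      by_contra hcon
      have hmn : m ≤ n := not_lt.1 hcon
      have h4 : ε ^ n ≤ ε ^ m := pow_le_pow_right_of_le_one' hwH1.le hmn
      have h5 : w (algebraMap K E k) * ε ^ n < 1 * ε ^ n :=
        mul_lt_mul_of_pos_right hwtlt (pow_pos hεpos n)
      rw [hkey, one_mul] at h5
      exact absurd h4 (not_le.2 h5)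
    have h6 : ε ^ m ≤ ε * ε ^ n := by
      rw [← pow_succ']
      exact pow_le_pow_right_of_le_one' hwH1.le hnm
    rw [← hkey] at h6
    exact (mul_le_mul_iff_left₀ (pow_pos hεpos n)).1 h6
  have h7 : WithZero.exp (-1 : ℤ) ≤ WithZero.exp (-2 : ℤ) := by
    rw [← hπ]
    exact (h1.trans h2).trans h3
  rw [WithZero.exp_le_exp] at h7
  omega

end Fermat.Agent.H68

end
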