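/-
S14 / C4c-B4 (helper68): partial zeta functions of ideal classes.
From the ideal count with power-saving error term (`exists_classCount_rate`) and partial summation
(`Fermat.Agent.H24.norm_LSeries_le_of_sum_le`) we get that the difference of the partial zeta
functions of two ideal classes is bounded on `(1, 2]`.
-/
import Fermat.Agent.H68.ClassCountRate
import Fermat.Agent.H24.C4cAbel
import Fermat.Agent.H13.S14Interfaces

set_option autoImplicit false

namespace Fermat.Agent.H68

open NumberField NumberField.InfinitePlace NumberField.Units Ideal Filter Topology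
open scoped nonZeroDivisors Real Classical

variable (K : Type*) [Field K] [NumberField K]

/-- the type of nonzero integral ideals in a class -/
abbrev ClassIdeal (C : ClassGroup (𝓞 K)) : Type _ :=
  {I : (Ideal (𝓞 K))⁰ // ClassGroup.mk0 I = C}

/-- the norm as a function on `ClassIdeal` -/
noncomputable def cnorm (C : ClassGroup (𝓞 K)) (I : ClassIdeal K C) : ℕ :=
  absNorm (I.1 : Ideal (𝓞 K))

/-- number of ideals of norm `n` in the class `C` -/
noncomputable def classCoeff (C : ClassGroup (𝓞 K)) (n : ℕ) : ℕ :=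
  Nat.card {I : ClassIdeal K C // cnorm K C I = n}

variable {K}

theorem cnorm_pos {C : ClassGroup (𝓞 K)} (I : ClassIdeal K C) : 0 < cnorm K C I :=
  absNorm_pos_of_nonZeroDivisors I.1

theorem finite_cnorm_eq (C : ClassGroup (𝓞 K)) (n : ℕ) :
    {I : ClassIdeal K C | cnorm K C I = n}.Finite := by
  have h := Ideal.finite_setOfPred_absNorm_eq (S := 𝓞 K) n
  refine Set.Finite.of_finite_image (f := fun I : ClassIdeal K C => (I.1.1 : Ideal (𝓞 K)))
    (h.subset ?_) ?_
  · rintro _ ⟨I, hI, rfl⟩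
    exact hI
  · intro I _ J _ hIJ
    exact Subtype.ext (Subtype.ext hIJ)

instance finite_fiber (C : ClassGroup (𝓞 K)) (n : ℕ) :
    Finite {I : ClassIdeal K C // cnorm K C I = n} :=
  (finite_cnorm_eq C n).to_subtype

theorem classCoeff_zero (C : ClassGroup (𝓞 K)) : classCoeff K C 0 = 0 := by
  unfold classCoeff
  rw [Nat.card_eq_zero]
  left
  exact ⟨fun I => (cnorm_pos I.1).ne' I.2⟩

/-- partial sums of the coefficients = counting function -/
theorem sum_classCoeff (C : ClassGroup (𝓞 K)) (n : ℕ) :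
    ∑ k ∈ Finset.Icc 1 n, classCoeff K C k =
      Nat.card {I : (Ideal (𝓞 K))⁰ //
        (absNorm (I : Ideal (𝓞 K)) : ℝ) ≤ (n : ℝ) ∧ ClassGroup.mk0 I = C} := by
  have h := Finset.card_preimage_eq_sum_card_image_eq (f := cnorm K C) (s := Finset.Icc 1 n)
    (fun b _ => finite_cnorm_eq C b)
  unfold classCoeff
  rw [← h]
  refine Nat.card_congr ?_
  refine ⟨fun a => ⟨a.1.1, ?_, a.1.2⟩, fun I => ⟨⟨I.1, I.2.2⟩, ?_⟩, fun a => rfl, fun I => rfl⟩
  · have := a.2
    simp only [Set.mem_preimage, Finset.coe_Icc, Set.mem_Icc] at this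
    exact_mod_cast this.2
  · simp only [Set.mem_preimage, Finset.coe_Icc, Set.mem_Icc]
    refine ⟨cnorm_pos _, ?_⟩
    have := I.2.1
    unfold cnorm
    exact_mod_cast this


/-- the coefficient sequence, complex valued -/
noncomputable def classCoeffC (K : Type*) [Field K] [NumberField K] (C : ClassGroup (𝓞 K))
    (n : ℕ) : ℂ := ((classCoeff K C n : ℝ) : ℂ)

theorem sum_classCoeffC (C : ClassGroup (𝓞 K)) (n : ℕ) :
    ∑ k ∈ Finset.Icc 1 n, classCoeffC K C k =
      ((Nat.card {I : (Ideal (𝓞 K))⁰ //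
        (absNorm (I : Ideal (𝓞 K)) : ℝ) ≤ (n : ℝ) ∧ ClassGroup.mk0 I = C} : ℝ) : ℂ) := by
  unfold classCoeffC
  rw [← sum_classCoeff C n]
  push_cast
  rfl

/-- the exponent of the error term -/
noncomputable def rateExp (K : Type*) [Field K] [NumberField K] : ℝ :=
  1 - 1 / (Module.finrank ℚ K : ℝ)

theorem rateExp_nonneg : 0 ≤ rateExp K := by
  unfold rateExp
  have h : (1 : ℝ) ≤ (Module.finrank ℚ K : ℝ) := by
    exact_mod_cast (Module.finrank_pos : 0 < Module.finrank ℚ K)
  rw [sub_nonneg, div_le_one (by linarith)]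
  exact h

theorem rateExp_lt_one : rateExp K < 1 := by
  unfold rateExp
  have h : (0 : ℝ) < (Module.finrank ℚ K : ℝ) := by
    exact_mod_cast (Module.finrank_pos : 0 < Module.finrank ℚ K)
  have : 0 < 1 / (Module.finrank ℚ K : ℝ) := by positivity
  linarith

theorem one_sub_rateExp : 1 - rateExp K = 1 / (Module.finrank ℚ K : ℝ) := by
  unfold rateExp; ring

/-- the ideal count with rate, at integers, as a bound on partial sums -/
theorem exists_sum_classCoeffC_sub_le (K : Type*) [Field K] [NumberField K] :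
    ∃ B : ℝ, 0 ≤ B ∧ ∀ (C C' : ClassGroup (𝓞 K)) (n : ℕ),
      ‖∑ k ∈ Finset.Icc 1 n, (classCoeffC K C k - classCoeffC K C' k)‖ ≤
        B * (n : ℝ) ^ rateExp K := by
  obtain ⟨B, hB⟩ := exists_classCount_rate K
  refine ⟨2 * |B|, by positivity, fun C C' n => ?_⟩
  rw [Finset.sum_sub_distrib, sum_classCoeffC, sum_classCoeffC, ← Complex.ofReal_sub,
    Complex.norm_real, Real.norm_eq_abs]
  rcases Nat.eq_zero_or_pos n with hn | hn
  · subst hn
    have h0 : ∀ D : ClassGroup (𝓞 K), (Nat.card {I : (Ideal (𝓞 K))⁰ //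
        (absNorm (I : Ideal (𝓞 K)) : ℝ) ≤ ((0 : ℕ) : ℝ) ∧ ClassGroup.mk0 I = D} : ℝ) = 0 := by
      intro D
      rw [← sum_classCoeff D 0]
      simp
    rw [h0 C, h0 C', sub_zero, abs_zero]
    positivity
  · have hn1 : (1 : ℝ) ≤ n := by exact_mod_cast hn
    have h1 := hB C n hn1
    have h2 := hB C' n hn1
    have h3 : B * (n : ℝ) ^ (1 - 1 / (Module.finrank ℚ K : ℝ)) ≤
        |B| * (n : ℝ) ^ rateExp K := by
      unfold rateExp
      exact mul_le_mul_of_nonneg_right (le_abs_self B) (Real.rpow_nonneg (by linarith) _)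
    rw [abs_le] at h1 h2 ⊢
    constructor <;> linarith [h1.1, h1.2, h2.1, h2.2]

theorem lseriesSummable_classCoeffC (C : ClassGroup (𝓞 K)) {s : ℝ} (hs : 1 < s) :
    LSeriesSummable (classCoeffC K C) (s : ℂ) := by
  obtain ⟨B, hB⟩ := exists_classCount_rate K
  set κ : ℝ := (2 ^ nrRealPlaces K * (2 * π) ^ nrComplexPlaces K * regulator K) /
          (torsionOrder K * Real.sqrt |discr K|) with hκ
  have hO : (fun n : ℕ ↦ ∑ k ∈ Finset.Icc 1 n, (classCoeff K C k : ℝ)) =O[atTop]
      fun n : ℕ ↦ (n : ℝ) ^ (1 : ℝ) := by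
    refine Asymptotics.IsBigO.of_bound (|κ| + |B|) ?_
    filter_upwards [eventually_ge_atTop 1] with n hn
    have hn1 : (1 : ℝ) ≤ n := by exact_mod_cast hn
    have h1 := hB C n hn1
    have hsum : ∑ k ∈ Finset.Icc 1 n, (classCoeff K C k : ℝ) =
        (Nat.card {I : (Ideal (𝓞 K))⁰ //
        (absNorm (I : Ideal (𝓞 K)) : ℝ) ≤ (n : ℝ) ∧ ClassGroup.mk0 I = C} : ℝ) := by
      rw [← sum_classCoeff C n]
      push_cast
      rfl
    rw [hsum, Real.rpow_one, Real.norm_of_nonneg (Nat.cast_nonneg _),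
      Real.norm_of_nonneg (by linarith)]
    have h2 : (n : ℝ) ^ (1 - 1 / (Module.finrank ℚ K : ℝ)) ≤ n := by
      calc (n : ℝ) ^ (1 - 1 / (Module.finrank ℚ K : ℝ)) ≤ (n : ℝ) ^ (1 : ℝ) := by
            apply Real.rpow_le_rpow_of_exponent_le hn1
            have : (0 : ℝ) ≤ 1 / (Module.finrank ℚ K : ℝ) := by positivity
            linarith
        _ = n := Real.rpow_one _
    rw [abs_le] at h1
    have h3 : B * (n : ℝ) ^ (1 - 1 / (Module.finrank ℚ K : ℝ)) ≤ |B| * n :=
      mul_le_mul (le_abs_self B) h2 (Real.rpow_nonneg (by linarith) _) (abs_nonneg B)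
    have h4 : κ * n ≤ |κ| * n := mul_le_mul_of_nonneg_right (le_abs_self κ) (by linarith)
    linarith [h1.2]
  exact LSeriesSummable_of_sum_norm_bigO_and_nonneg hO (fun n => Nat.cast_nonneg _) zero_le_one
    (by simpa using hs)


theorem classCoeffC_zero (C : ClassGroup (𝓞 K)) : classCoeffC K C 0 = 0 := by
  simp [classCoeffC, classCoeff_zero]

/-- the real term of the partial zeta function -/
noncomputable def zterm (K : Type*) [Field K] [NumberField K] (C : ClassGroup (𝓞 K)) (s : ℝ)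
    (n : ℕ) : ℝ := (classCoeff K C n : ℝ) * (n : ℝ) ^ (-s)

theorem term_classCoeffC (C : ClassGroup (𝓞 K)) (s : ℝ) (n : ℕ) :
    LSeries.term (classCoeffC K C) (s : ℂ) n = ((zterm K C s n : ℝ) : ℂ) := by
  rw [LSeries.term_def₀ (classCoeffC_zero C)]
  unfold zterm classCoeffC
  rw [Complex.ofReal_mul, Complex.ofReal_cpow (Nat.cast_nonneg n)]
  simp

theorem summable_zterm (C : ClassGroup (𝓞 K)) {s : ℝ} (hs : 1 < s) :
    Summable (zterm K C s) := by
  have h := lseriesSummable_classCoeffC C hs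
  unfold LSeriesSummable at h
  rw [show LSeries.term (classCoeffC K C) (s : ℂ) = fun n => ((zterm K C s n : ℝ) : ℂ) from
    funext (term_classCoeffC C s)] at h
  exact Complex.summable_ofReal.1 h

theorem lseries_classCoeffC (C : ClassGroup (𝓞 K)) (s : ℝ) :
    LSeries (classCoeffC K C) (s : ℂ) = ((∑' n, zterm K C s n : ℝ) : ℂ) := by
  unfold LSeries
  rw [Complex.ofReal_tsum]
  exact tsum_congr (term_classCoeffC C s)

/-- regrouping the sum over the ideals of a class according to the norm -/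
theorem hasSum_classIdeal (C : ClassGroup (𝓞 K)) {s : ℝ} (hs : 1 < s) :
    HasSum (fun I : ClassIdeal K C => ((absNorm (I.1 : Ideal (𝓞 K)) : ℝ)) ^ (-s))
      (∑' n, zterm K C s n) := by
  set e := Equiv.sigmaFiberEquiv (cnorm K C) with he
  set g : ClassIdeal K C → ℝ := fun I => ((absNorm (I.1 : Ideal (𝓞 K)) : ℝ)) ^ (-s) with hg
  have hg0 : ∀ I, 0 ≤ g I := fun I => Real.rpow_nonneg (Nat.cast_nonneg _) _
  have hfib : ∀ n : ℕ, ∀ I : {I : ClassIdeal K C // cnorm K C I = n},
      g (e ⟨n, I⟩) = (n : ℝ) ^ (-s) := by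
    intro n I
    have : cnorm K C I.1 = n := I.2
    simp only [hg, he, Equiv.sigmaFiberEquiv_apply]
    unfold cnorm at this
    rw [this]
  have hts : ∀ n : ℕ, ∑' I : {I : ClassIdeal K C // cnorm K C I = n}, g (e ⟨n, I⟩) =
      zterm K C s n := by
    intro n
    rw [tsum_congr (hfib n), tsum_const, nsmul_eq_mul]
    rfl
  have hsum1 : ∀ n : ℕ, Summable fun I : {I : ClassIdeal K C // cnorm K C I = n} =>
      g (e ⟨n, I⟩) := fun n => Summable.of_finite
  have hsum : Summable (fun p : (Σ n : ℕ, {I : ClassIdeal K C // cnorm K C I = n}) =>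
      g (e p)) := by
    rw [summable_sigma_of_nonneg (fun p => hg0 _)]
    refine ⟨hsum1, ?_⟩
    rw [show (fun n : ℕ => ∑' I : {I : ClassIdeal K C // cnorm K C I = n}, g (e ⟨n, I⟩)) =
      zterm K C s from funext hts]
    exact summable_zterm C hs
  have hval : ∑' p : (Σ n : ℕ, {I : ClassIdeal K C // cnorm K C I = n}), g (e p) =
      ∑' n, zterm K C s n := by
    rw [hsum.tsum_sigma' hsum1]
    exact tsum_congr hts
  have h1 : HasSum (fun p : (Σ n : ℕ, {I : ClassIdeal K C // cnorm K C I = n}) => g (e p))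
      (∑' n, zterm K C s n) := hval ▸ hsum.hasSum
  exact (e.hasSum_iff (f := g)).1 h1

/-- **C4c** : the difference of the partial zeta functions of two ideal classes is bounded on
`(1, 2]`. -/
theorem classZeta_sub_bounded (K : Type*) [Field K] [NumberField K] (C C' : ClassGroup (𝓞 K)) :
    ∃ B : ℝ, ∀ s : ℝ, 1 < s → s ≤ 2 →
      |(∑' I : {I : (Ideal (𝓞 K))⁰ // ClassGroup.mk0 I = C},
          ((Ideal.absNorm (I.1 : Ideal (𝓞 K)) : ℝ)) ^ (-s)) -
        (∑' I : {I : (Ideal (𝓞 K))⁰ // ClassGroup.mk0 I = C'},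
          ((Ideal.absNorm (I.1 : Ideal (𝓞 K)) : ℝ)) ^ (-s))| ≤ B := by
  obtain ⟨B, hB0, hB⟩ := exists_sum_classCoeffC_sub_le K
  refine ⟨2 * B / (1 - rateExp K), fun s hs hs2 => ?_⟩
  rw [(hasSum_classIdeal C hs).tsum_eq, (hasSum_classIdeal C' hs).tsum_eq]
  have hS := lseriesSummable_classCoeffC C hs
  have hS' := lseriesSummable_classCoeffC C' hs
  have h1 := Fermat.Agent.H24.norm_LSeries_le_of_sum_le
    (classCoeffC K C - classCoeffC K C') rateExp_nonneg rateExp_lt_one
    (fun n => by simpa using hB C C' n) hs hs2 (hS.sub hS')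
  rw [LSeries_sub hS hS', lseries_classCoeffC, lseries_classCoeffC, ← Complex.ofReal_sub,
    Complex.norm_real, Real.norm_eq_abs] at h1
  exact h1

/-- **C4c**, official deliverable of P-S14. -/
theorem classZetaBounded : Fermat.Agent.H13.ClassZetaBoundedStatement :=
  fun K _ _ C C' => classZeta_sub_bounded K C C'

end Fermat.Agent.H68
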