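/-
helper68 (P-ES / KL-N-P): the Dedekind bridge in valuation form, WEAK-premise variant
(the place `v` is only required to contain `h` in its maximal ideal).  It follows from
`Fermat.Agent.H68.dedekindBridgeV` (where the centre of `v` on `R` is exactly `(h)`).
-/
import Fermat.Agent.H68.DedekindBridgeV

set_option autoImplicit false
set_option linter.overlappingInstances false
set_option linter.unusedVariables false

noncomputable section

open Fermat.Agent.H91 Fermat.Agent.H91.KLNorm

namespace Fermat.Agent.H68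

/-- **KL-NORM-DED, valuation form** (premise `algebraMap R E h ∈ v.nonunits`). -/
def DedekindBridgeStatementV0 : Prop :=
  ∀ (R : Type) [CommRing R] [IsDomain R] [IsIntegrallyClosed R]
    (Rg : Type) [CommRing Rg] [IsDomain Rg] [IsDedekindDomain Rg] [Algebra R Rg]
    (K : Type) [Field K] [CharZero K] [Algebra R K] [IsFractionRing R K] [Algebra Rg K]
    [IsFractionRing Rg K] [IsScalarTower R Rg K]
    (E : Type) [Field E] [Algebra K E] [Algebra R E] [IsScalarTower R K E]
    [Algebra Rg E] [IsScalarTower Rg K E] [IsScalarTower R Rg E]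
    [FiniteDimensional K E] (p : R), Prime p → IsLocalization.Away p Rg →
    (∀ n : ℕ, n ≠ 0 → IsUnit ((n : ℕ) : Rg)) →
    ∀ h : R, Prime h → ¬ Associated h p →
    (∀ v : ValuationSubring E, v ≠ ⊤ → IsPrincipalIdealRing v →
      (∀ r : Rg, algebraMap Rg E r ∈ v) →
      algebraMap R E h ∈ v.nonunits →
      ∃ t ∈ (algebraMap K E).range, t ≠ 0 ∧ t ∈ v.nonunits ∧ ∀ y ∈ v.nonunits, y / t ∈ v) →
    TraceNondegAt R K E (Ideal.span {h})

/-- **KL-NORM-DED, valuation form** (premise `algebraMap R E h ∈ v.nonunits`). -/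
theorem dedekindBridgeV0 : DedekindBridgeStatementV0 := by
  intro R _ _ _ Rg _ _ _ _ K _ _ _ _ _ _ _ E _ _ _ _ _ _ _ _ p hp hloc hQ h hh hhp hV
  refine dedekindBridgeV R Rg K E p hp hloc hQ h hh hhp ?_
  intro v hv hpir hRg hcentre
  exact hV v hv hpir hRg ((hcentre h).2 dvd_rfl)

end Fermat.Agent.H68

end
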