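/-
P-ES / ES-G1 (helper68): `QuadraticRepStatement` in helper28's interface shape, as a corollary of
helper64's `exists_twoDim_of_quadratic_relations` (Burnside + anti-involution argument).
-/
import Mathlib
import Fermat.Agent.H28.ES.Interface
import Fermat.Agent.H64.QuadRel

set_option autoImplicit false

open Polynomial

namespace Fermat.Agent.H68

/-- **ES-G1**: quadratic relations `g² - t(g) g + ε(g) = 0` on a nonzero finite-dimensional
representation over an algebraically closed field produce a two-dimensional representation with
characteristic polynomials `X² - t(g) X + ε(g)`. (The hypothesis on the element `c` is not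
needed.) -/
theorem quadraticRepStatement : Fermat.Agent.H28.QuadraticRepStatement := by
  intro F _ _ G _ W _ _ _ _ ρ ε t hrel _
  obtain ⟨r, hr1, hr2⟩ := Fermat.Agent.H64.exists_twoDim_of_quadratic_relations ρ ε
    (fun g => ⟨t g, hrel g⟩)
  refine ⟨Fin 2 → F, inferInstance, inferInstance, inferInstance,
    (Matrix.toLinAlgEquiv' : Matrix (Fin 2) (Fin 2) F ≃ₐ[F] _).toAlgHom.toRingHom.toMonoidHom.comp
      r, ?_, ?_, ?_⟩
  · simp
  · intro g
    have h := hr2 g (t g) (hrel g)
    rw [← h]
    show LinearMap.charpoly (Matrix.toLin' (r g)) = (r g).charpoly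
    exact (Matrix.charpoly_toLin' (r g))
  · intro g hg hε
    have h := hr1 g hg hε
    show Matrix.toLinAlgEquiv' (r g) = 1
    rw [h, map_one]

end Fermat.Agent.H68
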