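import Mathlib

/-!
# Independence of units modulo `p` from triangular congruences

`R` is a domain, `π` a prime element with `π ^ (p - 1) ∣ p`, every element of `R` congruent to an
integer mod `π`, and an integer is divisible by `π` only if it is divisible by `p`
(the situation of `R = ℤ[ζ_p]`, `π = ζ_p - 1`).

If units `u i` satisfy `u i ≡ m i + b i * π ^ ℓ i  (mod π ^ (ℓ i + 1))` with strictly increasing
levels `1 ≤ ℓ i ≤ p - 2` and `p ∤ m i`, `p ∤ b i`, then a product `∏ u i ^ e i` can only be congruent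
to an integer modulo `p` when every `e i` is divisible by `p`.
-/

set_option linter.unusedSectionVars false
set_option linter.unusedVariables false

open Finset

namespace Fermat.Agent.H68

variable {R : Type*} [CommRing R]

/-- `x` is congruent to a rational integer modulo `p`. -/
def IntCongr (R : Type*) [CommRing R] (p : ℕ) (x : R) : Prop :=
  ∃ n : ℤ, (p : R) ∣ x - (n : R)

lemma IntCongr.one (p : ℕ) : IntCongr R p (1 : R) := ⟨1, by simp⟩

lemma IntCongr.mul {p : ℕ} {x y : R} (hx : IntCongr R p x) (hy : IntCongr R p y) :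
    IntCongr R p (x * y) := by
  obtain ⟨n, hn⟩ := hx
  obtain ⟨m, hm⟩ := hy
  refine ⟨n * m, ?_⟩
  have : x * y - ((n * m : ℤ) : R) = (x - n) * y + n * (y - m) := by push_cast; ring
  rw [this]
  exact dvd_add (Dvd.dvd.mul_right hn _) (Dvd.dvd.mul_left hm _)

lemma IntCongr.pow {p : ℕ} {x : R} (hx : IntCongr R p x) (k : ℕ) : IntCongr R p (x ^ k) := by
  induction k with
  | zero => simpa using IntCongr.one p
  | succ k ih => rw [pow_succ]; exact ih.mul hx

lemma IntCongr.prod {p : ℕ} {ι : Type*} (s : Finset ι) (f : ι → R)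
    (h : ∀ i ∈ s, IntCongr R p (f i)) : IntCongr R p (∏ i ∈ s, f i) := by
  classical
  induction s using Finset.induction_on with
  | empty => simpa using IntCongr.one p
  | insert a s ha ih =>
    rw [Finset.prod_insert ha]
    exact (h a (Finset.mem_insert_self a s)).mul
      (ih fun i hi => h i (Finset.mem_insert_of_mem hi))

/-- The inverse of a unit congruent to an integer is congruent to an integer, provided `p` is not
a unit. -/
lemma IntCongr.inv {p : ℕ} (hp : p.Prime) (hpu : ¬ IsUnit (p : R)) (u : Rˣ)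
    (hu : IntCongr R p (u : R)) : IntCongr R p ((u⁻¹ : Rˣ) : R) := by
  obtain ⟨n, k, hk⟩ := hu
  have hpn : ¬ (p : ℤ) ∣ n := by
    rintro ⟨t, rfl⟩
    apply hpu
    have h1 : (p : R) ∣ (u : R) := by
      have : (u : R) = (p : R) * k + (p : R) * (t : R) := by
        have := hk
        push_cast at this
        linear_combination this
      rw [this]
      exact dvd_add (dvd_mul_right _ _) (dvd_mul_right _ _)
    exact isUnit_of_dvd_unit h1 u.isUnit
  have hcop : IsCoprime (p : ℤ) n :=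
    (Prime.coprime_iff_not_dvd (Nat.prime_iff_prime_int.1 hp)).2 hpn
  obtain ⟨a, b, hab⟩ := hcop
  -- a * p + b * n = 1
  refine ⟨b, ((u⁻¹ : Rˣ) : R) * ((a : R) - (b : R) * k), ?_⟩
  have hab' : (a : R) * (p : R) + (b : R) * (n : R) = 1 := by exact_mod_cast congrArg (Int.cast : ℤ → R) hab
  have huu : ((u⁻¹ : Rˣ) : R) * (u : R) = 1 := by simp
  linear_combination (-(b : R) * ((u⁻¹ : Rˣ) : R)) * hk - (↑u⁻¹ : R) * hab' + (b : R) * huu

lemma IntCongr.zpow {p : ℕ} (hp : p.Prime) (hpu : ¬ IsUnit (p : R)) (u : Rˣ)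
    (hu : IntCongr R p (u : R)) (k : ℤ) : IntCongr R p ((u ^ k : Rˣ) : R) := by
  rcases Int.eq_nat_or_neg k with ⟨a, rfl | rfl⟩
  · rw [zpow_natCast, Units.val_pow_eq_pow_val]; exact hu.pow a
  · rw [zpow_neg, zpow_natCast, ← inv_pow]
    rw [Units.val_pow_eq_pow_val]
    exact (IntCongr.inv hp hpu u hu).pow a

/-- If `t * t = 0` then `(s + c * t) ^ a = s ^ a + a * s ^ (a - 1) * c * t`. -/
lemma add_mul_pow_of_sq_eq_zero {A : Type*} [CommRing A] (s c t : A) (ht : t * t = 0) (a : ℕ) :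
    (s + c * t) ^ a = s ^ a + (a : A) * s ^ (a - 1) * c * t := by
  induction a with
  | zero => simp
  | succ a ih =>
    rw [pow_succ, ih]
    rcases Nat.eq_zero_or_pos a with h0 | hpos
    · subst h0; simp
    · have e : s ^ a = s ^ (a - 1) * s := by
        conv_lhs => rw [show a = a - 1 + 1 by omega]
        rw [pow_succ]
      simp only [Nat.add_sub_cancel]
      push_cast
      linear_combination ((a : A) * s ^ (a - 1) * c * c) * ht - ((a : A) * c * t) * e

section main

variable [IsDomain R] {p : ℕ} {π : R}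

/-- Core step: natural exponents `< p`. -/
theorem natExp_eq_zero_of_triangular (hp : p.Prime) (hπ : Prime π)
    (hπp : π ^ (p - 1) ∣ (p : R))
    (hint : ∀ n : ℤ, π ∣ (n : R) → (p : ℤ) ∣ n)
    {d : ℕ} (u : Fin d → R) (ℓ : Fin d → ℕ) (m b : Fin d → ℤ)
    (hℓ : StrictMono ℓ) (hℓ1 : ∀ i, 1 ≤ ℓ i) (hℓp : ∀ i, ℓ i + 1 ≤ p - 1)
    (hm : ∀ i, ¬ (p : ℤ) ∣ m i) (hb : ∀ i, ¬ (p : ℤ) ∣ b i)
    (hu : ∀ i, π ^ (ℓ i + 1) ∣ u i - ((m i : R) + (b i : R) * π ^ ℓ i))
    (a : Fin d → ℕ) (ha : ∀ i, a i < p)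
    (hprod : IntCongr R p (∏ i, u i ^ a i)) : ∀ i, a i = 0 := by
  classical
  have hpp := Nat.prime_iff_prime_int.1 hp
  have hπ0 : π ≠ 0 := hπ.ne_zero
  obtain ⟨n, hn⟩ := hprod
  -- the inductive step
  have step : ∀ j : Fin d, (∀ i, i < j → a i = 0) → a j = 0 := by
    intro j hlt
    set L := ℓ j with hL
    let I : Ideal R := Ideal.span {π ^ (L + 1)}
    let mk : R →+* R ⧸ I := Ideal.Quotient.mk I
    have hmk0 : ∀ x : R, π ^ (L + 1) ∣ x → mk x = 0 := fun x hx =>
      Ideal.Quotient.eq_zero_iff_mem.2 (Ideal.mem_span_singleton.2 hx)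
    have hmk_eq : ∀ x y : R, π ^ (L + 1) ∣ x - y → mk x = mk y := fun x y hxy => by
      rw [← sub_eq_zero, ← map_sub]; exact hmk0 _ hxy
    have hLp : π ^ (L + 1) ∣ (p : R) :=
      (pow_dvd_pow π (hℓp j)).trans hπp
    -- the factors `i ≠ j`
    have hother : ∀ i ∈ (Finset.univ.erase j : Finset (Fin d)),
        mk (u i) ^ a i = mk ((m i : R)) ^ a i := by
      intro i hi
      have hij : i ≠ j := Finset.ne_of_mem_erase hi
      rcases lt_or_gt_of_ne hij with h | h
      · rw [hlt i h, pow_zero, pow_zero]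
      · congr 1
        apply hmk_eq
        have h1 : L + 1 ≤ ℓ i := hℓ h
        have h2 : π ^ (L + 1) ∣ π ^ (ℓ i) := pow_dvd_pow π h1
        have h3 : π ^ (L + 1) ∣ π ^ (ℓ i + 1) := pow_dvd_pow π (by omega)
        have : u i - (m i : R) = (u i - ((m i : R) + (b i : R) * π ^ ℓ i)) + (b i : R) * π ^ ℓ i := by
          ring
        rw [this]
        exact dvd_add (h3.trans (hu i)) (Dvd.dvd.mul_left h2 _)
    set M : ℤ := ∏ i ∈ (Finset.univ.erase j : Finset (Fin d)), m i ^ a i with hM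
    have hMp : ¬ (p : ℤ) ∣ M := by
      rw [hM]
      intro h
      obtain ⟨i, -, hi⟩ := (Prime.dvd_finsetProd_iff hpp _).1 h
      exact hm i (hpp.dvd_of_dvd_pow hi)
    have hprodmk : mk (∏ i, u i ^ a i) = mk (u j) ^ a j * mk (M : R) := by
      rw [← Finset.mul_prod_erase Finset.univ _ (Finset.mem_univ j), map_mul, map_pow, map_prod]
      congr 1
      rw [hM]
      push_cast
      rw [map_prod]
      apply Finset.prod_congr rfl
      intro i hi
      rw [map_pow, map_pow]
      exact hother i hi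
    set t : R ⧸ I := mk π ^ L with ht
    have htt : t * t = 0 := by
      rw [ht, ← map_pow, ← map_mul]
      apply hmk0
      rw [← pow_add]
      exact pow_dvd_pow π (by have := hℓ1 j; omega)
    have huj : mk (u j) = mk (m j : R) + mk (b j : R) * t := by
      rw [ht, ← map_pow, ← map_mul, ← map_add]
      exact hmk_eq _ _ (hu j)
    have hxn : mk (∏ i, u i ^ a i) = mk (n : R) := hmk_eq _ _ (hLp.trans hn)
    rw [hprodmk, huj, add_mul_pow_of_sq_eq_zero _ _ _ htt] at hxn
    -- translate back to `R`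
    have hback : π ^ (L + 1) ∣
        ((((m j) ^ a j * M - n : ℤ) : R) +
          (((a j : ℤ) * (m j) ^ (a j - 1) * b j * M : ℤ) : R) * π ^ L) := by
      rw [← Ideal.mem_span_singleton, ← Ideal.Quotient.eq_zero_iff_mem]
      show mk _ = 0
      have e : mk ((((m j) ^ a j * M - n : ℤ) : R) +
          (((a j : ℤ) * (m j) ^ (a j - 1) * b j * M : ℤ) : R) * π ^ L) =
          (mk (m j : R) ^ a j + (a j : R ⧸ I) * mk (m j : R) ^ (a j - 1) * mk (b j : R) * t)
            * mk (M : R) - mk (n : R) := by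
        rw [ht]
        push_cast
        simp only [map_add, map_sub, map_mul, map_pow, map_natCast]
        ring
      rw [e, hxn, sub_self]
    -- first consequence: `p ∣ m^a M - n`
    have h1 : π ∣ ((((m j) ^ a j * M - n : ℤ)) : R) := by
      have hπL : π ∣ π ^ (L + 1) := dvd_pow_self π (by omega)
      have hπL' : π ∣ π ^ L := dvd_pow_self π (by have := hℓ1 j; omega)
      have := (dvd_add_left (Dvd.dvd.mul_left hπL' _)).1 (hπL.trans hback)
      exact this
    have h2 : (p : ℤ) ∣ (m j) ^ a j * M - n := hint _ h1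
    have h3 : π ^ (L + 1) ∣ ((((m j) ^ a j * M - n : ℤ)) : R) := by
      obtain ⟨k, hk⟩ := h2
      rw [hk]
      push_cast
      exact Dvd.dvd.mul_right hLp _
    have h4 : π ^ (L + 1) ∣ (((a j : ℤ) * (m j) ^ (a j - 1) * b j * M : ℤ) : R) * π ^ L :=
      (dvd_add_right h3).1 hback
    have h5 : π ∣ (((a j : ℤ) * (m j) ^ (a j - 1) * b j * M : ℤ) : R) := by
      rw [pow_succ'] at h4
      exact (mul_dvd_mul_iff_right (pow_ne_zero L hπ0)).1 h4
    have h6 : (p : ℤ) ∣ (a j : ℤ) * (m j) ^ (a j - 1) * b j * M := hint _ h5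
    have h7 : (p : ℤ) ∣ (a j : ℤ) := by
      rcases hpp.dvd_or_dvd h6 with h | h
      · rcases hpp.dvd_or_dvd h with h | h
        · rcases hpp.dvd_or_dvd h with h | h
          · exact h
          · exact absurd (hpp.dvd_of_dvd_pow h) (hm j)
        · exact absurd h (hb j)
      · exact absurd h hMp
    have h8 : p ∣ a j := by exact_mod_cast h7
    exact Nat.eq_zero_of_dvd_of_lt h8 (ha j)
  -- strong induction
  have key : ∀ k : ℕ, ∀ j : Fin d, j.val = k → a j = 0 := by
    intro k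
    induction k using Nat.strong_induction_on with
    | _ k ih =>
      intro j hj
      exact step j fun i hi => ih i.val (by rw [← hj]; exact hi) i rfl
  exact fun i => key i.val i rfl

/-- **Triangular units are independent modulo `p`-th powers and integers.** -/
theorem dvd_exp_of_triangular (hp : p.Prime) (hπ : Prime π)
    (hπp : π ^ (p - 1) ∣ (p : R))
    (hint : ∀ n : ℤ, π ∣ (n : R) → (p : ℤ) ∣ n)
    (hpow : ∀ x : R, IntCongr R p (x ^ p))
    {d : ℕ} (u : Fin d → Rˣ) (ℓ : Fin d → ℕ) (m b : Fin d → ℤ)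
    (hℓ : StrictMono ℓ) (hℓ1 : ∀ i, 1 ≤ ℓ i) (hℓp : ∀ i, ℓ i + 1 ≤ p - 1)
    (hm : ∀ i, ¬ (p : ℤ) ∣ m i) (hb : ∀ i, ¬ (p : ℤ) ∣ b i)
    (hu : ∀ i, π ^ (ℓ i + 1) ∣ (u i : R) - ((m i : R) + (b i : R) * π ^ ℓ i))
    (e : Fin d → ℤ)
    (he : ∃ n : ℤ, (p : R) ∣ ((∏ i, u i ^ e i : Rˣ) : R) - (n : R)) :
    ∀ i, (p : ℤ) ∣ e i := by
  classical
  have hp0 : (p : ℤ) ≠ 0 := by exact_mod_cast hp.ne_zero
  have hppos : (0 : ℤ) < p := by exact_mod_cast hp.pos
  have hpu : ¬ IsUnit (p : R) := by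
    intro h
    have h1 : π ∣ (p : R) := (dvd_pow_self π (by have := hp.two_le; omega)).trans hπp
    exact hπ.not_isUnit (isUnit_of_dvd_unit h1 h)
  -- natural exponents
  let a : Fin d → ℕ := fun i => (e i % p).toNat
  have ha : ∀ i, a i < p := by
    intro i
    have h1 : e i % p < p := Int.emod_lt_of_pos _ hppos
    have h0 : 0 ≤ e i % p := Int.emod_nonneg _ hp0
    simp only [a]
    omega
  have hae : ∀ i, e i = (a i : ℤ) + p * (e i / p) := by
    intro i
    have h0 : 0 ≤ e i % p := Int.emod_nonneg _ hp0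
    simp only [a]
    rw [Int.toNat_of_nonneg h0]
    exact (Int.emod_add_mul_ediv (e i) p).symm
  -- the product with natural exponents is congruent to an integer
  have hsplit : (∏ i, u i ^ e i : Rˣ) =
      (∏ i, u i ^ a i) * ∏ i, ((u i) ^ p) ^ (e i / p) := by
    rw [← Finset.prod_mul_distrib]
    apply Finset.prod_congr rfl
    intro i _
    conv_lhs => rw [hae i]
    rw [zpow_add, zpow_natCast, zpow_mul, zpow_natCast]
  have hH2 : IntCongr R p ((∏ i, ((u i) ^ p) ^ (-(e i / p)) : Rˣ) : R) := by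
    rw [Units.coe_prod]
    apply IntCongr.prod
    intro i _
    apply IntCongr.zpow hp hpu
    rw [Units.val_pow_eq_pow_val]
    exact hpow _
  have hnat : IntCongr R p (∏ i, (u i : R) ^ a i) := by
    have h1 : ((∏ i, u i ^ a i : Rˣ) : R) =
        ((∏ i, u i ^ e i : Rˣ) : R) * ((∏ i, ((u i) ^ p) ^ (-(e i / p)) : Rˣ) : R) := by
      rw [← Units.val_mul]
      congr 1
      rw [hsplit, mul_assoc, ← Finset.prod_mul_distrib]
      simp
    have h2 : (∏ i, (u i : R) ^ a i) = ((∏ i, u i ^ a i : Rˣ) : R) := by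
      rw [Units.coe_prod]
      simp
    rw [h2, h1]
    exact IntCongr.mul he hH2
  have hzero := natExp_eq_zero_of_triangular hp hπ hπp hint (fun i => (u i : R)) ℓ m b hℓ hℓ1 hℓp
    hm hb hu a ha hnat
  intro i
  rw [hae i, hzero i]
  simp

end main

end Fermat.Agent.H68
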