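import Mathlib
import Fermat.Agent.H9.Descent
import Fermat.Agent.H68.KummerTriangular

/-!
# Triangular units in the ring of integers of a cyclotomic field

Specialisation of `Fermat.Agent.H68.dvd_exp_of_triangular` to `R = 𝓞 K`, `K = ℚ(ζ_p)`,
`π = ζ_p - 1`.
-/

set_option linter.unusedSectionVars false
set_option linter.unusedVariables false

open NumberField

namespace Fermat.Agent.H68

variable {p : ℕ} [hpri : Fact p.Prime] {K : Type*} [Field K] [NumberField K]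
  [IsCyclotomicExtension {p} ℚ K]

/-- In `𝓞 K`, `K = ℚ(ζ_p)`, every `p`-th power is congruent to an integer modulo `p`. -/
theorem intCongr_pow_cyclo (hodd : p ≠ 2) (x : 𝓞 K) : IntCongr (𝓞 K) p (x ^ p) := by
  have hp := hpri.out
  have hζ := IsCyclotomicExtension.zeta_spec p ℚ K
  have hπ : Prime (hζ.toInteger - 1) := hζ.zeta_sub_one_prime'
  have hcard : Nat.card (𝓞 K ⧸ Ideal.span {hζ.toInteger - 1}) = p := by
    rw [IsPrimitiveRoot.card_quotient_toInteger_sub_one,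
      hζ.norm_toInteger_sub_one_of_prime_ne_two' hodd]
    simp
  have hπp : (hζ.toInteger - 1) ∣ (p : 𝓞 K) := hζ.toInteger_sub_one_dvd_prime'
  have hassoc := IsCyclotomicExtension.Rat.associated_zeta_sub_one_pow_prime p hζ
  have hpπ : (p : 𝓞 K) ∣ (hζ.toInteger - 1) ^ (p - 1) := hassoc.symm.dvd
  obtain ⟨n, hn⟩ := Fermat.Agent.H9.exists_int_sub_dvd hp hπ hπp hcard x
  refine ⟨n ^ p, ?_⟩
  have := Fermat.Agent.H9.natCast_dvd_pow_sub_pow hp hpπ hn
  simpa using this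

/-- **Triangular units are independent** (cyclotomic version, with respect to the primitive root
`IsCyclotomicExtension.zeta p ℚ K`). -/
theorem dvd_exp_of_triangular_cyclo (hodd : p ≠ 2)
    {d : ℕ} (u : Fin d → (𝓞 K)ˣ) (ℓ : Fin d → ℕ) (m b : Fin d → ℤ)
    (hℓ : StrictMono ℓ) (hℓ1 : ∀ i, 1 ≤ ℓ i) (hℓp : ∀ i, ℓ i + 1 ≤ p - 1)
    (hm : ∀ i, ¬ (p : ℤ) ∣ m i) (hb : ∀ i, ¬ (p : ℤ) ∣ b i)
    (hu : ∀ i, ((IsCyclotomicExtension.zeta_spec p ℚ K).toInteger - 1) ^ (ℓ i + 1) ∣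
      (u i : 𝓞 K) - ((m i : 𝓞 K) +
        (b i : 𝓞 K) * ((IsCyclotomicExtension.zeta_spec p ℚ K).toInteger - 1) ^ ℓ i))
    (e : Fin d → ℤ)
    (he : ∃ n : ℤ, (p : 𝓞 K) ∣ ((∏ i, u i ^ e i : (𝓞 K)ˣ) : 𝓞 K) - (n : 𝓞 K)) :
    ∀ i, (p : ℤ) ∣ e i := by
  have hp := hpri.out
  have hζ := IsCyclotomicExtension.zeta_spec p ℚ K
  have hπ : Prime (hζ.toInteger - 1) := hζ.zeta_sub_one_prime'
  have hπp : (hζ.toInteger - 1) ∣ (p : 𝓞 K) := hζ.toInteger_sub_one_dvd_prime'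
  have hassoc := IsCyclotomicExtension.Rat.associated_zeta_sub_one_pow_prime p hζ
  exact dvd_exp_of_triangular hp hπ hassoc.dvd
    (fun n hn => (Fermat.Agent.H9.pi_dvd_intCast_iff hp hπ hπp).1 hn)
    (intCongr_pow_cyclo hodd) u ℓ m b hℓ hℓ1 hℓp hm hb hu e he

end Fermat.Agent.H68
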