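import Mathlib
import Fermat.Agent.H68.KummerCyclo

/-!
# Kummer certificate for `p = 7`

Three explicit units of `ℤ[ζ₇]` with triangular expansions in `π = ζ₇ - 1` at levels `1, 2, 4`.
-/

set_option linter.unusedSectionVars false
set_option linter.unusedVariables false
set_option linter.style.haveILetI false
set_option linter.unusedSimpArgs false
set_option linter.unusedTactic false
set_option linter.unreachableTactic false

open NumberField

namespace Fermat.Agent.H68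

section seven

variable (K : Type*) [Field K] [NumberField K] [IsCyclotomicExtension {7} ℚ K]

/-- The chosen primitive `7`-th root of unity in `𝓞 K`. -/
noncomputable def z7 : 𝓞 K := (IsCyclotomicExtension.zeta_spec 7 ℚ K).toInteger

lemma z7_cyclo : 1 + z7 K + z7 K ^ 2 + z7 K ^ 3 + z7 K ^ 4 + z7 K ^ 5 + z7 K ^ 6 = 0 := by
  have h := (IsCyclotomicExtension.zeta_spec 7 ℚ K).toInteger_isPrimitiveRoot.geom_sum_eq_zero
    (by norm_num)
  simpa [Finset.sum_range_succ, z7] using h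

/-- `ζ` as a unit. -/
noncomputable def u7a : (𝓞 K)ˣ :=
  Units.mkOfMulEqOne (z7 K) (z7 K ^ 6) (by linear_combination (z7 K - 1) * z7_cyclo K)

/-- `1 + ζ + ζ⁻¹` as a unit. -/
noncomputable def u7b : (𝓞 K)ˣ :=
  Units.mkOfMulEqOne (1 + z7 K + z7 K ^ 6) (1 + z7 K + z7 K ^ 3 + z7 K ^ 4 + z7 K ^ 6)
    (by
      linear_combination (2 * z7 K - z7 K ^ 2 + z7 K ^ 4 - z7 K ^ 5 + z7 K ^ 6) * z7_cyclo K)

/-- `ζ⁻² + ζ⁻¹ + 1 + ζ + ζ²` as a unit. -/
noncomputable def u7c : (𝓞 K)ˣ :=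
  Units.mkOfMulEqOne (1 + z7 K + z7 K ^ 2 + z7 K ^ 5 + z7 K ^ 6) (1 + z7 K ^ 2 + z7 K ^ 5)
    (by linear_combination (z7 K + z7 K ^ 2 - z7 K ^ 3 + z7 K ^ 5) * z7_cyclo K)

/-- The three triangular units. -/
noncomputable def unit7 : Fin 3 → (𝓞 K)ˣ := ![u7a K, u7b K, u7b K * u7c K ^ 2]

lemma seven_dvd_pi_pow : (z7 K - 1) ^ 6 ∣ ((7 : ℕ) : 𝓞 K) := by
  haveI : Fact (Nat.Prime 7) := ⟨by norm_num⟩
  exact (IsCyclotomicExtension.Rat.associated_zeta_sub_one_pow_prime 7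
    (IsCyclotomicExtension.zeta_spec 7 ℚ K)).dvd

theorem unit7_indep (e : Fin 3 → ℤ)
    (he : ∃ n : ℤ, ((7 : ℕ) : 𝓞 K) ∣ ((∏ i, unit7 K i ^ e i : (𝓞 K)ˣ) : 𝓞 K) - (n : 𝓞 K)) :
    ∀ i, ((7 : ℕ) : ℤ) ∣ e i := by
  haveI : Fact (Nat.Prime 7) := ⟨by norm_num⟩
  have h7 := seven_dvd_pi_pow K
  have h7' : (z7 K - 1) ^ 6 ∣ (7 : 𝓞 K) := by simpa using h7
  refine dvd_exp_of_triangular_cyclo (p := 7) (K := K) (by norm_num) (unit7 K)
    ![1, 2, 4] ![1, 3, -2] ![1, 1, 1] ?_ ?_ ?_ ?_ ?_ ?_ e he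
  · intro i j hij
    fin_cases i <;> fin_cases j <;> simp at hij ⊢
  · intro i; fin_cases i <;> simp
  · intro i; fin_cases i <;> simp
  · intro i; fin_cases i <;> simp <;> norm_num
  · intro i; fin_cases i <;> simp <;> norm_num
  · intro i
    change (z7 K - 1) ^ _ ∣ _ - (_ + _ * (z7 K - 1) ^ _)
    fin_cases i
    · simp [unit7, u7a]
    · have h : ((unit7 K 1 : (𝓞 K)ˣ) : 𝓞 K) - (((3 : ℤ) : 𝓞 K) + ((1 : ℤ) : 𝓞 K) * (z7 K - 1) ^ 2)
          = (z7 K - 1) ^ 3 * (20 + 15 * (z7 K - 1) + 6 * (z7 K - 1) ^ 2 + 1 * (z7 K - 1) ^ 3)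
            + 7 * (1 * (z7 K - 1) + 2 * (z7 K - 1) ^ 2) := by
        simp only [unit7, u7b, Matrix.cons_val_one, Matrix.cons_val_zero, Units.val_mkOfMulEqOne]
        push_cast
        ring
      simp only [Fin.mk_one, Fin.isValue, Matrix.cons_val_one, Matrix.cons_val_zero] at h ⊢
      rw [h]
      exact dvd_add (dvd_mul_right _ _)
        (Dvd.dvd.mul_right ((pow_dvd_pow _ (by norm_num)).trans h7') _)
    · have h : ((unit7 K 2 : (𝓞 K)ˣ) : 𝓞 K) - (((-2 : ℤ) : 𝓞 K) + ((1 : ℤ) : 𝓞 K) * (z7 K - 1) ^ 4)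
          = (z7 K - 1) ^ 5 * (45372 + 75773 * (z7 K - 1) + 105264 * (z7 K - 1) ^ 2
              + 122114 * (z7 K - 1) ^ 3 + 118098 * (z7 K - 1) ^ 4 + 94613 * (z7 K - 1) ^ 5
              + 62151 * (z7 K - 1) ^ 6 + 33014 * (z7 K - 1) ^ 7 + 13921 * (z7 K - 1) ^ 8
              + 4542 * (z7 K - 1) ^ 9 + 1104 * (z7 K - 1) ^ 10 + 188 * (z7 K - 1) ^ 11
              + 20 * (z7 K - 1) ^ 12 + 1 * (z7 K - 1) ^ 13)
            + 7 * (11 + 85 * (z7 K - 1) + 389 * (z7 K - 1) ^ 2 + 1268 * (z7 K - 1) ^ 3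
              + 3194 * (z7 K - 1) ^ 4) := by
        simp only [unit7, u7b, u7c, Matrix.cons_val_two, Matrix.cons_val_one, Matrix.cons_val_zero,
          Matrix.tail_cons, Matrix.head_cons, Units.val_mkOfMulEqOne, Units.val_mul,
          Units.val_pow_eq_pow_val]
        push_cast
        ring
      simp only [Fin.reduceFinMk, Fin.isValue, Matrix.cons_val_two, Matrix.cons_val_one,
        Matrix.cons_val_zero, Matrix.tail_cons, Matrix.head_cons] at h ⊢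
      rw [h]
      exact dvd_add (dvd_mul_right _ _)
        (Dvd.dvd.mul_right ((pow_dvd_pow _ (by norm_num)).trans h7') _)

end seven

end Fermat.Agent.H68
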