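/-
helper68 (P-ES / ES-D-A1, row 299): Riemann's theorem for function fields of one variable over
an algebraically closed field of ARBITRARY characteristic, in the ES-D shape
(`Fermat.Agent.H27.ESD.RiemannTheoremStatement`), unconditionally.

Inputs: helper58's adelic Riemann theorem (`H58.riemannTheorem_of_principalInput`), the
separable fundamental identity (`H68.SepFundIdentity`, after helper84), and helper16's
separability criterion (`H16.ffb_isSeparable_of_not_pow`).
-/
import Fermat.Agent.H68.PrincipalInput
import Fermat.Agent.H16.FFInsep

set_option autoImplicit false
set_option linter.style.haveILetI false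

noncomputable section

open AlgebraicCurve IntermediateField

namespace Fermat.Agent.H68

/-- In characteristic `p`, an element which is not a `p`-th power is separating. -/
theorem sepCriterion : SepCriterionStatement := by
  intro K F _ _ _ _ p _ _ x hx hfin hsep z hz
  haveI := hfin
  haveI := hsep
  have hp : p.Prime := Fact.out
  have hzt : Transcendental K z := by
    intro halg
    obtain ⟨c, hc⟩ := Fermat.Agent.H12.exists_algebraMap_eq_of_isAlgebraic halg
    obtain ⟨d, hd⟩ := IsAlgClosed.exists_pow_nat_eq c hp.pos
    refine hz (algebraMap K F d) ?_
    rw [← map_pow, hd, hc]
  haveI : FiniteDimensional K⟮z⟯ F :=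
    Fermat.Agent.H12.finiteDimensional_adjoin_simple_of_transcendental x z hzt
  exact Fermat.Agent.H16.ffb_isSeparable_of_not_pow p x z hz

/-- **ES-D-A1 (reduced form)**: principal divisors exist and have degree zero, and the pole
divisor of a separating element has degree at most `[F : K(x)]`, in any characteristic. -/
theorem principalInput : Fermat.Agent.H58.PrincipalInputStatement :=
  principalInput_of_sepCriterion sepCriterion

/-- **ES-D-A1**: Riemann's theorem for function fields, any characteristic. -/
theorem riemannTheorem : Fermat.Agent.H27.ESD.RiemannTheoremStatement :=
  Fermat.Agent.H58.riemannTheorem_of_principalInput principalInput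

end Fermat.Agent.H68

end
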