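/-
P-S16 / UB-UP (helper68): `U_p` preserves `M₂(Γ₀(p))` (from the prelude's `heckeULin`), and
`U_p² = 1` on `M₂(Γ₀(p))` deduced from helper1's `ConjStatement`.
-/
import Mathlib
import Fermat.Prelude.Def_ModularForm_HeckeOperatorForms
import Fermat.Prelude.Thm_ModularFormClass_qCoeff_heckeU
import Fermat.Prelude.Thm_CongruenceSubgroup_one_mem_strictPeriods_Gamma0
import Fermat.Agent.H6.S16UB.Interfaces
import Fermat.Agent.H1.S16L2.Interfaces

set_option autoImplicit false

open UpperHalfPlane CongruenceSubgroup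
open scoped MatrixGroups ModularForm Real

namespace Fermat.Agent.H68

/-- q-expansion of `U_p H` (prelude `heckeULin`) in the `upSeries` shape. -/
theorem qExpansion_heckeULin_eq_upSeries {p : ℕ} [NeZero p] (H : ModularForm (Gamma0 p) 2) :
    qExpansion 1 (⇑(ModularForm.heckeULin (N := p) (p := p) 2 (dvd_refl p) H)) =
      Fermat.Agent.H6.S16UB.upSeries p (qExpansion 1 (⇑H)) := by
  ext n
  have h := ModularFormClass.qCoeff_heckeU (k := 2) H
    (CongruenceSubgroup.one_mem_strictPeriods_Gamma0 p) (NeZero.ne p) n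
  simp only [ModularFormClass.qCoeff, ModularForm.coeffHeckeU_apply] at h
  rw [ModularForm.coe_heckeULin_apply, h]
  simp [Fermat.Agent.H6.S16UB.upSeries, mul_comm]

/-- **UB-UP, first half**: `U_p` preserves `M₂(Γ₀(p))`. -/
theorem upStatement : Fermat.Agent.H6.S16UB.UpStatement := by
  intro p hp H
  haveI : NeZero p := ⟨hp.ne_zero⟩
  exact ⟨ModularForm.heckeULin 2 (dvd_refl p) H, qExpansion_heckeULin_eq_upSeries H⟩

end Fermat.Agent.H68
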