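/-
P-S16 / UB-UP (helper68), second half: `U_p² = 1` on `M₂(Γ₀(p))`, deduced from helper1's
`ConjStatement` (`(H ∣ S T^j)(z) = -(1/p) (U_p H)((z+j)/p)`).
-/
import Mathlib
import Fermat.Agent.H68.S16Up

set_option autoImplicit false

open UpperHalfPlane CongruenceSubgroup
open scoped MatrixGroups ModularForm Real

namespace Fermat.Agent.H68

/-- The point `r • τ` of the upper half plane, `r > 0`. -/
noncomputable def scalePt (r : ℝ) (hr : 0 < r) (τ : ℍ) : ℍ := (⟨r, hr⟩ : {x : ℝ // 0 < x}) • τ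

theorem coe_scalePt (r : ℝ) (hr : 0 < r) (τ : ℍ) : ((scalePt r hr τ : ℍ) : ℂ) = (r : ℂ) * τ := by
  simp [scalePt, UpperHalfPlane.coe_pos_real_smul]

/-- `ConjStatement` at `j = 0`, in closed form. -/
theorem slash_S_eq_of_conj (hC : Fermat.Agent.H1.S16L2.ConjStatement) {p : ℕ} (hp : p.Prime)
    [NeZero p] (F : ModularForm (Gamma0 p) 2) (z : ℍ) :
    (⇑F ∣[(2 : ℤ)] ModularGroup.S) z =
      -(p : ℂ)⁻¹ * (ModularForm.heckeULin (N := p) (p := p) 2 (dvd_refl p) F)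
        (scalePt (p : ℝ)⁻¹ (inv_pos.mpr (Nat.cast_pos.mpr hp.pos)) z) := by
  have hp0 : (p : ℂ) ≠ 0 := Nat.cast_ne_zero.mpr hp.ne_zero
  have h1 := hC p hp F 0 z
  simp only [zpow_zero, mul_one, Int.cast_zero, add_zero] at h1
  set w : ℍ := scalePt (p : ℝ)⁻¹ (inv_pos.mpr (Nat.cast_pos.mpr hp.pos)) z with hw
  have h2 := ModularForm.hasSum_qExpansion (h := 1)
    (ModularForm.heckeULin (N := p) (p := p) 2 (dvd_refl p) F) one_pos
    (CongruenceSubgroup.one_mem_strictPeriods_Gamma0 p) w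
  have h3 := h2.mul_left (-(p : ℂ)⁻¹)
  have hcoe : ((w : ℍ) : ℂ) = (p : ℂ)⁻¹ * z := by
    rw [hw, coe_scalePt]; push_cast; rfl
  have hfun : (fun n : ℕ => -(p : ℂ)⁻¹ * PowerSeries.coeff (p * n) (qExpansion 1 (⇑F)) *
        Complex.exp (2 * π * Complex.I * n * (z : ℂ) / p)) =
      fun i : ℕ => -(p : ℂ)⁻¹ * (PowerSeries.coeff i (qExpansion 1
        (⇑(ModularForm.heckeULin (N := p) (p := p) 2 (dvd_refl p) F))) *
        Function.Periodic.qParam 1 (w : ℂ) ^ i) := by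
    funext n
    rw [qExpansion_heckeULin_eq_upSeries]
    have hq : Function.Periodic.qParam (1 : ℝ) (w : ℂ) ^ n =
        Complex.exp (2 * π * Complex.I * n * (z : ℂ) / p) := by
      rw [Function.Periodic.qParam, ← Complex.exp_nat_mul, hcoe]
      congr 1
      push_cast
      field_simp
    rw [hq]
    simp only [Fermat.Agent.H6.S16UB.upSeries, PowerSeries.coeff_mk]
    ring
  rw [hfun] at h1
  exact h1.unique h3

/-- `U_p (U_p F) = F` as functions, for `F ∈ M₂(Γ₀(p))`. -/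
theorem heckeU_heckeU_eq_of_conj (hC : Fermat.Agent.H1.S16L2.ConjStatement) {p : ℕ}
    (hp : p.Prime) [NeZero p] (F : ModularForm (Gamma0 p) 2) (w : ℍ) :
    (ModularForm.heckeULin (N := p) (p := p) 2 (dvd_refl p)
      (ModularForm.heckeULin (N := p) (p := p) 2 (dvd_refl p) F)) w = F w := by
  have hp0 : (p : ℂ) ≠ 0 := Nat.cast_ne_zero.mpr hp.ne_zero
  have hpp : (0 : ℝ) < p := Nat.cast_pos.mpr hp.pos
  have hpi : (0 : ℝ) < (p : ℝ)⁻¹ := inv_pos.mpr hpp
  set K := ModularForm.heckeULin (N := p) (p := p) 2 (dvd_refl p) F with hK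
  -- the points
  set z : ℍ := scalePt (p : ℝ) hpp w with hz
  set z' : ℍ := scalePt (p : ℝ) hpp (ModularGroup.S • z) with hz'
  have hzc : (z : ℂ) = (p : ℂ) * w := by rw [hz, coe_scalePt]; push_cast; rfl
  have hz0 : (z : ℂ) ≠ 0 := ne_zero z
  have hw0 : (w : ℂ) ≠ 0 := ne_zero w
  have hSz : ((ModularGroup.S • z : ℍ) : ℂ) = -(z : ℂ)⁻¹ := by
    rw [modular_S_smul]; simp [inv_neg]
  have hz'c : (z' : ℂ) = -(p : ℂ) * (z : ℂ)⁻¹ := by
    rw [hz', coe_scalePt, hSz]; push_cast; ring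
  have hz'0 : (z' : ℂ) ≠ 0 := ne_zero z'
  -- `p⁻¹ • z = w`, `p⁻¹ • z' = S • z`, `S • z' = w`
  have e1 : scalePt (p : ℝ)⁻¹ hpi z = w := by
    apply UpperHalfPlane.ext
    rw [coe_scalePt, hzc]; push_cast; field_simp
  have e2 : scalePt (p : ℝ)⁻¹ hpi z' = ModularGroup.S • z := by
    apply UpperHalfPlane.ext
    rw [coe_scalePt, hz'c, hSz]; push_cast; field_simp
  have e3 : ModularGroup.S • z' = w := by
    apply UpperHalfPlane.ext
    rw [modular_S_smul]
    show (-(z' : ℂ))⁻¹ = w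
    rw [hz'c, hzc]; field_simp
  -- the two instances of the conjugation formula
  have A1 := slash_S_eq_of_conj hC hp K z
  have A2 := slash_S_eq_of_conj hC hp F z'
  rw [ModularForm.SL_slash_apply, ModularGroup.denom_S, e1] at A1
  rw [ModularForm.SL_slash_apply, ModularGroup.denom_S, e2, e3] at A2
  rw [← hK] at A2
  -- algebra
  have hA2 : K (ModularGroup.S • z) = -(p : ℂ) * (F w * (z' : ℂ) ^ (-2 : ℤ)) := by
    rw [A2]; field_simp
  rw [hA2, hz'c] at A1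
  have hzz : (z : ℂ) ^ (-2 : ℤ) = ((z : ℂ) ^ 2)⁻¹ := by
    rw [zpow_neg, zpow_two, pow_two]
  have hzz' : (-(p : ℂ) * (z : ℂ)⁻¹) ^ (-2 : ℤ) = (z : ℂ) ^ 2 / (p : ℂ) ^ 2 := by
    rw [zpow_neg, zpow_two]
    field_simp
  rw [hzz, hzz'] at A1
  have hfin : -(p : ℂ)⁻¹ * F w = -(p : ℂ)⁻¹ * (ModularForm.heckeULin (N := p) (p := p) 2
      (dvd_refl p) K) w := by
    rw [← A1]; field_simp
  have hne : -(p : ℂ)⁻¹ ≠ 0 := neg_ne_zero.mpr (inv_ne_zero hp0)
  exact (mul_left_cancel₀ hne hfin).symm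

/-- **UB-UP, second half** (conditional on `ConjStatement`): `U_p² = 1` on `M₂(Γ₀(p))`. -/
theorem upSqStatement_of_conj (hC : Fermat.Agent.H1.S16L2.ConjStatement) :
    Fermat.Agent.H6.S16UB.UpSqStatement := by
  intro p hp H n
  haveI : NeZero p := ⟨hp.ne_zero⟩
  have hfun : (⇑(ModularForm.heckeULin (N := p) (p := p) 2 (dvd_refl p)
      (ModularForm.heckeULin (N := p) (p := p) 2 (dvd_refl p) H)) : ℍ → ℂ) = ⇑H :=
    funext fun w => heckeU_heckeU_eq_of_conj hC hp H w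
  have h1 := qExpansion_heckeULin_eq_upSeries
    (ModularForm.heckeULin (N := p) (p := p) 2 (dvd_refl p) H)
  rw [hfun, qExpansion_heckeULin_eq_upSeries] at h1
  have h2 := congrArg (PowerSeries.coeff n) h1
  simp only [Fermat.Agent.H6.S16UB.upSeries, PowerSeries.coeff_mk] at h2
  exact h2.symm

end Fermat.Agent.H68
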