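/-
P-S16 / UB-UP (helper68): final, unconditional statements
`upStatement : UpStatement` (re-exported) and `upSqStatement : UpSqStatement`.
-/
import Mathlib
import Fermat.Agent.H68.S16UpSq
import Fermat.Agent.H98.S16_Fricke

set_option autoImplicit false

namespace Fermat.Agent.H68

/-- **UB-UP, second half**: `U_p² = 1` on `M₂(Γ₀(p))`. -/
theorem upSqStatement : Fermat.Agent.H6.S16UB.UpSqStatement :=
  upSqStatement_of_conj Fermat.Agent.H98.s16_conjStatement

end Fermat.Agent.H68
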